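import Mathlib.LinearAlgebra.Charpoly.BaseChange
import Mathlib.LinearAlgebra.Charpoly.ToMatrix
import Mathlib.LinearAlgebra.Trace
import Mathlib.LinearAlgebra.Matrix.Charpoly.Coeff

/-!
# T3 (Chebotarev, generator form), node Z6 (a): powers of rank-2 endomorphisms

For an endomorphism `f` of a free module of rank 2 over a commutative ring, the characteristic
polynomial of `f ^ k` is a universal function of the characteristic polynomial of `f`:
if `charpoly f = X² - t X + d` then `charpoly (f ^ k) = X² - T_k(t, d) X + d ^ k`, where
`T_0 = 2`, `T_1 = t`, `T_{k+2} = t T_{k+1} - d T_k` (`lucasT`).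

Consequence (`charpoly_eq_of_pow`): two rank-2 representations whose characteristic polynomials
agree at `τ` also agree at every power of `τ`.  This is what makes the *generator form* of the
Chebotarev density theorem sufficient for all comparisons of 2-dimensional Galois
representations.
-/

set_option autoImplicit false

open Polynomial

namespace Fermat.Agent.Cheb

section Lucas

variable {R : Type*} [CommRing R]

/-- The Lucas sequence `T_k(t, d)`: `T_0 = 2`, `T_1 = t`, `T_{k+2} = t T_{k+1} - d T_k`
(the `k`-th power sum of the roots of `X² - t X + d`). -/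
def lucasT (t d : R) : ℕ → R
  | 0 => 2
  | 1 => t
  | (k + 2) => t * lucasT t d (k + 1) - d * lucasT t d k

@[simp] theorem lucasT_zero (t d : R) : lucasT t d 0 = 2 := by
  simp [lucasT]

@[simp] theorem lucasT_one (t d : R) : lucasT t d 1 = t := by
  simp [lucasT]

theorem lucasT_add_two (t d : R) (k : ℕ) :
    lucasT t d (k + 2) = t * lucasT t d (k + 1) - d * lucasT t d k := by
  simp [lucasT]

/-- The Lucas sequence is natural for ring homomorphisms. -/
theorem map_lucasT {S : Type*} [CommRing S] (ψ : R →+* S) (t d : R) (k : ℕ) :
    ψ (lucasT t d k) = lucasT (ψ t) (ψ d) k := by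
  induction k using Nat.strong_induction_on with
  | _ k ih =>
    match k with
    | 0 => rw [lucasT_zero, lucasT_zero, map_ofNat]
    | 1 => simp
    | (k + 2) =>
      rw [lucasT_add_two, lucasT_add_two, map_sub, map_mul, map_mul, ih (k + 1) (by omega),
        ih k (by omega)]

end Lucas

section RankTwo

variable {R : Type*} [CommRing R] [Nontrivial R] {M : Type*} [AddCommGroup M] [Module R M]
  [Module.Free R M] [Module.Finite R M]

/-- The characteristic polynomial of an endomorphism of a free module of rank 2. -/
theorem charpoly_of_finrank_two (h2 : Module.finrank R M = 2) (f : Module.End R M) :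
    LinearMap.charpoly f = X ^ 2 - C (LinearMap.trace R M f) * X + C (LinearMap.det f) := by
  classical
  have hcard : Fintype.card (Module.Free.ChooseBasisIndex R M) = 2 := by
    rw [← Module.finrank_eq_card_chooseBasisIndex, h2]
  rw [LinearMap.charpoly_def, Matrix.charpoly_of_card_eq_two _ hcard,
    ← LinearMap.trace_eq_matrix_trace R (Module.Free.chooseBasis R M) f,
    LinearMap.det_toMatrix]

/-- Read off trace and determinant from a characteristic polynomial `X² - t X + d`. -/
theorem trace_det_of_charpoly (h2 : Module.finrank R M = 2) (f : Module.End R M) {t d : R}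
    (h : LinearMap.charpoly f = X ^ 2 - C t * X + C d) :
    LinearMap.trace R M f = t ∧ LinearMap.det f = d := by
  have h' := charpoly_of_finrank_two h2 f
  rw [h] at h'
  constructor
  · have := congrArg (fun p : R[X] => p.coeff 1) h'
    simp [coeff_C] at this
    exact this.symm
  · have := congrArg (fun p : R[X] => p.coeff 0) h'
    simp [coeff_C] at this
    exact this.symm

/-- Cayley–Hamilton in rank 2. -/
theorem sq_eq_of_finrank_two (h2 : Module.finrank R M = 2) (f : Module.End R M) :
    f ^ 2 = LinearMap.trace R M f • f - LinearMap.det f • (1 : Module.End R M) := by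
  have h := LinearMap.aeval_self_charpoly f
  rw [charpoly_of_finrank_two h2 f] at h
  simp only [map_add, map_sub, map_mul, map_pow, aeval_X, aeval_C] at h
  rw [Algebra.algebraMap_eq_smul_one, Algebra.algebraMap_eq_smul_one] at h
  rw [smul_mul_assoc, one_mul] at h
  exact eq_of_sub_eq_zero (by rw [← h]; abel)

/-- The traces of the powers of a rank-2 endomorphism satisfy the Lucas recurrence. -/
theorem trace_pow_of_finrank_two (h2 : Module.finrank R M = 2) (f : Module.End R M) (k : ℕ) :
    LinearMap.trace R M (f ^ k) =
      lucasT (LinearMap.trace R M f) (LinearMap.det f) k := by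
  induction k using Nat.strong_induction_on with
  | _ k ih =>
    match k with
    | 0 =>
      rw [pow_zero, LinearMap.trace_one, h2, lucasT_zero]
      norm_num
    | 1 => rw [pow_one, lucasT_one]
    | (k + 2) =>
      have hpow : f ^ (k + 2) = LinearMap.trace R M f • f ^ (k + 1) -
          LinearMap.det f • f ^ k := by
        rw [pow_add, sq_eq_of_finrank_two h2 f, mul_sub, mul_smul_comm, mul_smul_comm, mul_one,
          ← pow_succ]
      rw [hpow, map_sub, map_smul, map_smul, ih (k + 1) (by omega), ih k (by omega),
        lucasT_add_two, smul_eq_mul, smul_eq_mul]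

/-- **The characteristic polynomial of a power** of a rank-2 endomorphism is determined by the
characteristic polynomial of the endomorphism. -/
theorem charpoly_pow_of_charpoly (h2 : Module.finrank R M = 2) (f : Module.End R M) {t d : R}
    (h : LinearMap.charpoly f = X ^ 2 - C t * X + C d) (k : ℕ) :
    LinearMap.charpoly (f ^ k) = X ^ 2 - C (lucasT t d k) * X + C (d ^ k) := by
  obtain ⟨ht, hd⟩ := trace_det_of_charpoly h2 f h
  rw [charpoly_of_finrank_two h2 (f ^ k), trace_pow_of_finrank_two h2 f k, ht, hd, map_pow, hd]

end RankTwo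

section Compare

variable {R : Type*} [CommRing R] [Nontrivial R]
  {M₁ : Type*} [AddCommGroup M₁] [Module R M₁] [Module.Free R M₁] [Module.Finite R M₁]
  {M₂ : Type*} [AddCommGroup M₂] [Module R M₂] [Module.Free R M₂] [Module.Finite R M₂]

/-- Two rank-2 endomorphisms with the same characteristic polynomial have powers with the same
characteristic polynomial. -/
theorem charpoly_pow_eq_of_charpoly_eq (h₁ : Module.finrank R M₁ = 2)
    (h₂ : Module.finrank R M₂ = 2) (f₁ : Module.End R M₁) (f₂ : Module.End R M₂)
    (h : LinearMap.charpoly f₁ = LinearMap.charpoly f₂) (k : ℕ) :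
    LinearMap.charpoly (f₁ ^ k) = LinearMap.charpoly (f₂ ^ k) := by
  have e₁ := charpoly_of_finrank_two h₁ f₁
  have e₂ := charpoly_of_finrank_two h₂ f₂
  rw [charpoly_pow_of_charpoly h₁ f₁ e₁ k, charpoly_pow_of_charpoly h₂ f₂ (h ▸ e₁) k]

/-- **Generator form suffices**: if two rank-2 representations of a group have the same
characteristic polynomial at `τ`, and `σ` acts as `τ ^ k` in both, then they have the same
characteristic polynomial at `σ`. -/
theorem charpoly_eq_of_pow {G : Type*} [Group G] (h₁ : Module.finrank R M₁ = 2)
    (h₂ : Module.finrank R M₂ = 2) (ρ₁ : G →* Module.End R M₁) (ρ₂ : G →* Module.End R M₂)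
    {σ τ : G} (k : ℕ) (hσ₁ : ρ₁ σ = ρ₁ (τ ^ k)) (hσ₂ : ρ₂ σ = ρ₂ (τ ^ k))
    (h : LinearMap.charpoly (ρ₁ τ) = LinearMap.charpoly (ρ₂ τ)) :
    LinearMap.charpoly (ρ₁ σ) = LinearMap.charpoly (ρ₂ σ) := by
  rw [hσ₁, hσ₂, map_pow, map_pow]
  exact charpoly_pow_eq_of_charpoly_eq h₁ h₂ _ _ h k

end Compare

end Fermat.Agent.Cheb
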