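import Fermat.Prelude.Def_GaloisRep_Adic
import Fermat.Agent.Cheb.RankTwo
import Mathlib.RingTheory.Filtration

/-!
# T3 (Chebotarev, generator form), node Z6 (b): agreement on Frobenius lifts implies agreement

* `ChebGen` : the generator form of the Chebotarev density theorem, in the language of the
  Prelude (valuation subrings of `ℚ̄`, `IsFrobeniusAt`): every `σ ∈ G_ℚ` agrees on any given
  finite extension `L/ℚ` with a power of a Frobenius lift at a prime outside any given finite set.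
  (A statement; it is proved in `Cheb/Deuring.lean`.)
* `residual_charpoly_eq_of_frobenius` : two residual representations (`ResidualGaloisRep k`)
  whose characteristic polynomials agree on all Frobenius lifts at the primes outside a finite set
  have the same characteristic polynomial everywhere.
* `adic_charpoly_eq_of_frobenius` : the same for `GaloisRepAdic A`, `A` local with
  `⋂ 𝔪ⁿ = 0` (e.g. Noetherian).
-/

set_option autoImplicit false

open Polynomial
open scoped TensorProduct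

namespace Fermat.Agent.Cheb

local notation "Qb" => AlgebraicClosure ℚ
local notation "GQ" => (AlgebraicClosure ℚ ≃ₐ[ℚ] AlgebraicClosure ℚ)

/-- **Chebotarev, generator form** (statement): every `σ ∈ G_ℚ` agrees on a given finite extension
`L` of `ℚ` with a power of a Frobenius lift at some prime `q` outside a given finite set `T`. -/
def ChebGen : Prop :=
  ∀ (L : IntermediateField ℚ Qb), FiniteDimensional ℚ L → ∀ (σ : GQ) (T : Finset ℕ),
    ∃ q : ℕ, q.Prime ∧ q ∉ T ∧ ∃ (P : ValuationSubring Qb) (φ : GQ) (k : ℕ),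
      P.LiesOverPrime q ∧ P.IsFrobeniusAt φ q ∧ ∀ x ∈ L, σ x = (φ ^ k) x

/-- If `σ` and `φ ^ k` agree on `L`, then `(φ ^ k)⁻¹ * σ` fixes `L`. -/
theorem inv_mul_fixes {L : IntermediateField ℚ Qb} {σ φ : GQ} {k : ℕ}
    (h : ∀ x ∈ L, σ x = (φ ^ k) x) (x : Qb) (hx : x ∈ L) : ((φ ^ k)⁻¹ * σ) x = x := by
  rw [AlgEquiv.mul_apply, h x hx]
  exact (φ ^ k).symm_apply_apply x

section Residual

variable {k : Type} [Field k]

/-- **Agreement on Frobenius lifts implies agreement everywhere** (residual representations). -/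
theorem residual_charpoly_eq_of_frobenius (hC : ChebGen) (ρ₁ ρ₂ : ResidualGaloisRep k)
    (T : Finset ℕ)
    (h : ∀ q : ℕ, q.Prime → q ∉ T → ∀ P : ValuationSubring Qb, P.LiesOverPrime q →
      ∀ φ : GQ, P.IsFrobeniusAt φ q →
        LinearMap.charpoly (ρ₁.ρ φ) = LinearMap.charpoly (ρ₂.ρ φ)) (σ : GQ) :
    LinearMap.charpoly (ρ₁.ρ σ) = LinearMap.charpoly (ρ₂.ρ σ) := by
  obtain ⟨L₁, hL₁, h₁⟩ := ρ₁.factorsThroughFiniteLevel
  obtain ⟨L₂, hL₂, h₂⟩ := ρ₂.factorsThroughFiniteLevel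
  have hfd : FiniteDimensional ℚ ↥(L₁ ⊔ L₂) := IntermediateField.finiteDimensional_sup L₁ L₂
  obtain ⟨q, hq, hqT, P, φ, n, hP, hφ, hσ⟩ := hC (L₁ ⊔ L₂) hfd σ T
  have hη := inv_mul_fixes hσ
  have e₁ : ρ₁.ρ σ = ρ₁.ρ (φ ^ n) := by
    have := h₁ ((φ ^ n)⁻¹ * σ) fun x hx => hη x ((le_sup_left : L₁ ≤ L₁ ⊔ L₂) hx)
    have h' : σ = φ ^ n * ((φ ^ n)⁻¹ * σ) := by group
    rw [h', map_mul, this, mul_one]
  have e₂ : ρ₂.ρ σ = ρ₂.ρ (φ ^ n) := by
    have := h₂ ((φ ^ n)⁻¹ * σ) fun x hx => hη x ((le_sup_right : L₂ ≤ L₁ ⊔ L₂) hx)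
    have h' : σ = φ ^ n * ((φ ^ n)⁻¹ * σ) := by group
    rw [h', map_mul, this, mul_one]
  exact charpoly_eq_of_pow ρ₁.finrank_eq ρ₂.finrank_eq ρ₁.ρ ρ₂.ρ n e₁ e₂ (h q hq hqT P hP φ hφ)

end Residual

section Adic

variable {A : Type} [CommRing A]

/-- An endomorphism congruent to the identity modulo `I` becomes the identity after base change
to `A ⧸ I`. -/
theorem baseChange_quotient_eq_one (I : Ideal A) {V : Type} [AddCommGroup V] [Module A V]
    (f : Module.End A V) (hf : ∀ v : V, f v - v ∈ I • (⊤ : Submodule A V)) :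
    f.baseChange (A ⧸ I) = 1 := by
  have hkill : ∀ x ∈ I • (⊤ : Submodule A V), ∀ c : A ⧸ I, c ⊗ₜ[A] x = 0 := by
    intro x hx c
    refine Submodule.smul_induction_on
      (p := fun x => c ⊗ₜ[A] x = (0 : (A ⧸ I) ⊗[A] V)) hx ?_ ?_
    · intro a ha w _
      rw [TensorProduct.tmul_smul, TensorProduct.smul_tmul', Algebra.smul_def,
        Ideal.Quotient.algebraMap_eq, Ideal.Quotient.eq_zero_iff_mem.mpr ha, zero_mul,
        TensorProduct.zero_tmul]
    · intro x y hx hy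
      rw [TensorProduct.tmul_add, hx, hy, add_zero]
  refine LinearMap.ext fun w => ?_
  induction w using TensorProduct.induction_on with
  | zero => rw [map_zero, map_zero]
  | tmul c v =>
    rw [LinearMap.baseChange_tmul, Module.End.one_apply, ← sub_eq_zero, ← TensorProduct.tmul_sub]
    exact hkill _ (hf v) c
  | add x y hx hy => rw [map_add, map_add, hx, hy]

variable [IsLocalRing A]

/-- The reduction of an adic representation modulo an ideal, as a monoid homomorphism. -/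
noncomputable def redHom (ρ : GaloisRepAdic A) (I : Ideal A) :
    GQ →* Module.End (A ⧸ I) ((A ⧸ I) ⊗[A] ρ.V) where
  toFun σ := (ρ.ρ σ).baseChange (A ⧸ I)
  map_one' := by rw [map_one, LinearMap.baseChange_one]
  map_mul' σ τ := by rw [map_mul, LinearMap.baseChange_mul]

theorem redHom_apply (ρ : GaloisRepAdic A) (I : Ideal A) (σ : GQ) :
    redHom ρ I σ = (ρ.ρ σ).baseChange (A ⧸ I) := rfl

theorem charpoly_redHom (ρ : GaloisRepAdic A) (I : Ideal A) (σ : GQ) :
    LinearMap.charpoly (redHom ρ I σ) =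
      (LinearMap.charpoly (ρ.ρ σ)).map (algebraMap A (A ⧸ I)) := by
  rw [redHom_apply, LinearMap.charpoly_baseChange]

/-- **Agreement on Frobenius lifts implies agreement everywhere** (adic representations over a
local ring with `⋂ 𝔪ⁿ = 0`). -/
theorem adic_charpoly_eq_of_frobenius (hC : ChebGen)
    (hA : ⨅ n : ℕ, IsLocalRing.maximalIdeal A ^ n = ⊥) (ρ₁ ρ₂ : GaloisRepAdic A) (T : Finset ℕ)
    (h : ∀ q : ℕ, q.Prime → q ∉ T → ∀ P : ValuationSubring Qb, P.LiesOverPrime q →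
      ∀ φ : GQ, P.IsFrobeniusAt φ q →
        LinearMap.charpoly (ρ₁.ρ φ) = LinearMap.charpoly (ρ₂.ρ φ)) (σ : GQ) :
    LinearMap.charpoly (ρ₁.ρ σ) = LinearMap.charpoly (ρ₂.ρ σ) := by
  -- it suffices to compare coefficients modulo every power `𝔪 ^ (n + 1)`
  have key : ∀ n : ℕ, (LinearMap.charpoly (ρ₁.ρ σ)).map
        (algebraMap A (A ⧸ IsLocalRing.maximalIdeal A ^ (n + 1))) =
      (LinearMap.charpoly (ρ₂.ρ σ)).map
        (algebraMap A (A ⧸ IsLocalRing.maximalIdeal A ^ (n + 1))) := by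
    intro n
    set I : Ideal A := IsLocalRing.maximalIdeal A ^ (n + 1) with hI
    have hIne : I ≠ ⊤ := by
      rw [hI]
      intro htop
      have h1 : (1 : A) ∈ IsLocalRing.maximalIdeal A ^ (n + 1) := by rw [htop]; trivial
      have h2 : (1 : A) ∈ IsLocalRing.maximalIdeal A :=
        Ideal.pow_le_self (Nat.succ_ne_zero n) h1
      exact (IsLocalRing.maximalIdeal.isMaximal A).ne_top
        ((Ideal.eq_top_iff_one _).mpr h2)
    have : Nontrivial (A ⧸ I) := Ideal.Quotient.nontrivial_iff.mpr hIne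
    obtain ⟨L₁, hL₁, h₁⟩ := ρ₁.isAdicContinuous (n + 1)
    obtain ⟨L₂, hL₂, h₂⟩ := ρ₂.isAdicContinuous (n + 1)
    have hfd : FiniteDimensional ℚ ↥(L₁ ⊔ L₂) := IntermediateField.finiteDimensional_sup L₁ L₂
    obtain ⟨q, hq, hqT, P, φ, m, hP, hφ, hσ⟩ := hC (L₁ ⊔ L₂) hfd σ T
    have hη := inv_mul_fixes hσ
    have hdec : σ = φ ^ m * ((φ ^ m)⁻¹ * σ) := by group
    have e₁ : redHom ρ₁ I σ = redHom ρ₁ I (φ ^ m) := by
      have : redHom ρ₁ I ((φ ^ m)⁻¹ * σ) = 1 :=
        baseChange_quotient_eq_one I _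
          (h₁ ((φ ^ m)⁻¹ * σ) fun x hx => hη x ((le_sup_left : L₁ ≤ L₁ ⊔ L₂) hx))
      conv_lhs => rw [hdec]
      rw [map_mul, this, mul_one]
    have e₂ : redHom ρ₂ I σ = redHom ρ₂ I (φ ^ m) := by
      have : redHom ρ₂ I ((φ ^ m)⁻¹ * σ) = 1 :=
        baseChange_quotient_eq_one I _
          (h₂ ((φ ^ m)⁻¹ * σ) fun x hx => hη x ((le_sup_right : L₂ ≤ L₁ ⊔ L₂) hx))
      conv_lhs => rw [hdec]
      rw [map_mul, this, mul_one]
    have hfr : LinearMap.charpoly (redHom ρ₁ I φ) = LinearMap.charpoly (redHom ρ₂ I φ) := by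
      rw [charpoly_redHom, charpoly_redHom, h q hq hqT P hP φ hφ]
    have f₁ : Module.finrank (A ⧸ I) ((A ⧸ I) ⊗[A] ρ₁.V) = 2 := by
      rw [Module.finrank_baseChange, ρ₁.finrank_eq]
    have f₂ : Module.finrank (A ⧸ I) ((A ⧸ I) ⊗[A] ρ₂.V) = 2 := by
      rw [Module.finrank_baseChange, ρ₂.finrank_eq]
    have := charpoly_eq_of_pow f₁ f₂ (redHom ρ₁ I) (redHom ρ₂ I) m e₁ e₂ hfr
    rwa [charpoly_redHom, charpoly_redHom] at this
  -- conclude coefficientwise with `⋂ 𝔪ⁿ = 0`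
  ext i
  rw [← sub_eq_zero]
  have hmem : (LinearMap.charpoly (ρ₁.ρ σ)).coeff i - (LinearMap.charpoly (ρ₂.ρ σ)).coeff i ∈
      ⨅ n : ℕ, IsLocalRing.maximalIdeal A ^ n := by
    rw [Ideal.mem_iInf]
    intro n
    have hn := congrArg (fun p => Polynomial.coeff p i) (key n)
    simp only [Polynomial.coeff_map, Ideal.Quotient.algebraMap_eq] at hn
    have := Ideal.Quotient.eq.mp hn
    exact Ideal.pow_le_pow_right (Nat.le_succ n) this
  rw [hA] at hmem
  exact hmem

/-- The Noetherian case. -/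
theorem adic_charpoly_eq_of_frobenius_of_noetherian [IsNoetherianRing A] (hC : ChebGen)
    (ρ₁ ρ₂ : GaloisRepAdic A) (T : Finset ℕ)
    (h : ∀ q : ℕ, q.Prime → q ∉ T → ∀ P : ValuationSubring Qb, P.LiesOverPrime q →
      ∀ φ : GQ, P.IsFrobeniusAt φ q →
        LinearMap.charpoly (ρ₁.ρ φ) = LinearMap.charpoly (ρ₂.ρ φ)) (σ : GQ) :
    LinearMap.charpoly (ρ₁.ρ σ) = LinearMap.charpoly (ρ₂.ρ σ) :=
  adic_charpoly_eq_of_frobenius hC
    (Ideal.iInf_pow_eq_bot_of_isLocalRing _ (IsLocalRing.maximalIdeal.isMaximal A).ne_top)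
    ρ₁ ρ₂ T h σ

end Adic

end Fermat.Agent.Cheb
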