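import Fermat.Agent.Cheb.Deuring

/-!
# Chebotarev track, milestone 2: the Deuring reduction in exact form

`CyclicExactFrob` is the Mathlib-language statement expected from the class density theorem plus
Artin reciprocity: for a cyclic extension `L/K` of number fields, EVERY `g ∈ Gal(L/K)` is an
arithmetic Frobenius at some prime `Q` of `L` over a degree-one prime of `K` of norm `q ∉ T`.

* `ChebExact` : the exact form of Chebotarev's theorem over `ℚ` in the language of the Prelude:
  every `σ ∈ G_ℚ` agrees on a given finite extension `L/ℚ` with a Frobenius element at a prime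
  `q` outside a given finite set;
* `exists_frob_restrict_eq` (Galois case, with `q ∤ disc L` and "every Frobenius at `P`");
* `chebExact_of_cyclicExactFrob : CyclicExactFrob → ChebExact`;
* `chebGen_of_chebExact : ChebExact → ChebGen`.
-/

set_option autoImplicit false
set_option linter.unusedSectionVars false
set_option linter.style.haveILetI false

open scoped NumberField Pointwise

noncomputable section

namespace Fermat.Agent.Cheb

open Fermat.Agent.CFT Fermat.Agent.CFT.IdeleDict IsLocalRing

local notation "Qb" => AlgebraicClosure ℚ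
local notation "GQ" => (AlgebraicClosure ℚ ≃ₐ[ℚ] AlgebraicClosure ℚ)

/-- **Exact form, cyclic case** (Mathlib language): every element of the Galois group of a cyclic
extension `L/K` of number fields is an arithmetic Frobenius at a prime `Q` of `L` lying over a
prime of `K` with residue field of prime cardinality `q ∉ T`. -/
def CyclicExactFrob : Prop :=
  ∀ (K L : Type) [Field K] [Field L] [NumberField K] [NumberField L] [Algebra K L] [IsGalois K L]
    [IsCyclic (L ≃ₐ[K] L)] (g : L ≃ₐ[K] L) (T : Finset ℕ),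
    ∃ Q : Ideal (𝓞 L), Q.IsPrime ∧
      (Nat.card (𝓞 K ⧸ Q.under (𝓞 K))).Prime ∧ Nat.card (𝓞 K ⧸ Q.under (𝓞 K)) ∉ T ∧
      IsArithFrobAt (𝓞 K) g Q

/-- **Chebotarev, exact form** (statement, Prelude language): every `σ ∈ G_ℚ` agrees on a given
finite extension `L` of `ℚ` with a Frobenius element at some prime `q` outside a given finite
set `T`. -/
def ChebExact : Prop :=
  ∀ (L : IntermediateField ℚ Qb), FiniteDimensional ℚ L → ∀ (σ : GQ) (T : Finset ℕ),
    ∃ q : ℕ, q.Prime ∧ q ∉ T ∧ ∃ (P : ValuationSubring Qb) (φ : GQ),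
      P.LiesOverPrime q ∧ P.IsFrobeniusAt φ q ∧ ∀ x ∈ L, σ x = φ x

theorem chebGen_of_chebExact (h : ChebExact) : ChebGen := by
  intro L hL σ T
  obtain ⟨q, hq, hqT, P, φ, hP, hφ, hσ⟩ := h L hL σ T
  exact ⟨q, hq, hqT, P, φ, 1, hP, hφ, fun x hx => by rw [pow_one]; exact hσ x hx⟩

section Galois

variable (L : IntermediateField ℚ Qb) [NumberField L] [IsGalois ℚ L]

/-- **Deuring reduction, exact form, Galois case.** -/
theorem exists_frob_restrict_eq (hZ : CyclicExactFrob) (σ : L ≃ₐ[ℚ] L) (T : Finset ℕ) :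
    ∃ q : ℕ, q.Prime ∧ q ∉ T ∧ ¬ (q : ℤ) ∣ NumberField.discr L ∧
      ∃ P : ValuationSubring Qb, P.LiesOverPrime q ∧
      ∀ φ : GQ, P.IsFrobeniusAt φ q → AlgEquiv.restrictNormalHom L φ = σ := by
  haveI : FiniteDimensional ℚ L := inferInstance
  set K : IntermediateField ℚ L := IntermediateField.fixedField (Subgroup.zpowers σ) with hK
  have hfix : K.fixingSubgroup = Subgroup.zpowers σ :=
    IntermediateField.fixingSubgroup_fixedField _
  haveI : IsCyclic (L ≃ₐ[K] L) :=
    isCyclic_of_surjective (IntermediateField.subgroupEquivAlgEquiv (Subgroup.zpowers σ))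
      (IntermediateField.subgroupEquivAlgEquiv (Subgroup.zpowers σ)).surjective
  have hσK : σ ∈ K.fixingSubgroup := hfix ▸ Subgroup.mem_zpowers σ
  set g : L ≃ₐ[K] L := IntermediateField.fixingSubgroupEquiv K ⟨σ, hσK⟩ with hg
  obtain ⟨Q, hQp, hqprime, hqT, hgQ⟩ :=
    hZ K L g (T ∪ (NumberField.discr L).natAbs.primeFactors)
  set q := Nat.card (𝓞 K ⧸ Q.under (𝓞 K)) with hq
  haveI := hQp
  haveI : Fact q.Prime := ⟨hqprime⟩
  rw [Finset.mem_union, not_or] at hqT
  have hdisc : ¬ (q : ℤ) ∣ NumberField.discr L := by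
    intro h
    apply hqT.2
    rw [Nat.mem_primeFactors]
    refine ⟨hqprime, ?_, ?_⟩
    · exact Int.natCast_dvd.mp h
    · exact Int.natAbs_ne_zero.mpr (NumberField.discr_ne_zero L)
  refine ⟨q, hqprime, hqT.1, hdisc, ?_⟩
  have hqmem : (q : 𝓞 L) ∈ Q := natCast_mem_of_card_quotient_under (K := K) rfl
  obtain ⟨P, hP, hPQ⟩ := exists_centerOn_eq L Q hqmem
  refine ⟨P, hP, fun φ hφ => ?_⟩
  have hg' : IsArithFrobAt ℤ σ (centerOn L P) := by
    intro x
    rw [card_quotient_under_centerOn L hqprime hP, hPQ]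
    exact hgQ x
  exact restrict_eq_of_isArithFrobAt_of_not_dvd_discr L hqprime hP hφ hg' hdisc

end Galois

section General

/-- **Deuring reduction, exact form.** -/
theorem chebExact_of_cyclicExactFrob (hZ : CyclicExactFrob) : ChebExact := by
  intro L hL σ T
  haveI : FiniteDimensional ℚ L := hL
  haveI : Normal ℚ Qb := (Fermat.Agent.S54.FrobExists.isGalois_rat_algebraicClosure).to_normal
  set N : IntermediateField ℚ Qb := IntermediateField.normalClosure ℚ L Qb with hN
  haveI : FiniteDimensional ℚ N := normalClosure.is_finiteDimensional ℚ L Qb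
  haveI : Normal ℚ N := normalClosure.normal ℚ L Qb
  haveI : IsGalois ℚ N := ⟨⟩
  haveI : NumberField N := numberField_of_finiteDimensional N
  have hLN : L ≤ N := IntermediateField.le_normalClosure L
  obtain ⟨q, hq, hqT, -, P, hP, hφ⟩ :=
    exists_frob_restrict_eq N hZ (AlgEquiv.restrictNormalHom N σ) T
  obtain ⟨φ, hφP⟩ := exists_isFrobeniusAt_of_liesOverPrime hq hP
  have h1 := hφ φ hφP
  refine ⟨q, hq, hqT, P, φ, hP, hφP, fun x hx => ?_⟩
  have h3 : ((AlgEquiv.restrictNormalHom N σ) ⟨x, hLN hx⟩ : Qb) = σ x :=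
    AlgEquiv.restrictNormal_commutes σ N ⟨x, hLN hx⟩
  have h4 : ((AlgEquiv.restrictNormalHom N φ) ⟨x, hLN hx⟩ : Qb) = φ x :=
    AlgEquiv.restrictNormal_commutes φ N ⟨x, hLN hx⟩
  rw [← h3, ← h4, h1]

end General

end Fermat.Agent.Cheb
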