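import Fermat.Agent.CFT.Global.IdeleDict.UnramPrelude
import Fermat.Agent.CFT.Global.PlaceEmb
import Fermat.Agent.S14.TransCore
import Fermat.Agent.S54.FrobExists
import Fermat.Prelude.Def_EllipticCurve_FrobeniusTrace
import Mathlib.NumberTheory.NumberField.Discriminant.Different

/-!
# T3 (Chebotarev track), node Z5: the Frobenius dictionary Prelude ⟷ Mathlib

`Qb = AlgebraicClosure ℚ`, `L : IntermediateField ℚ Qb` finite over `ℚ` (a number field),
`P : ValuationSubring Qb` lying over a prime `q`.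

* `centerOn L P : Ideal (𝓞 L)`, the center of `P` on the ring of integers of `L`
  (`mem_centerOn_iff`); it is a prime ideal containing `q`; `under_centerOn`,
  `card_quotient_under_centerOn`;
* `centerOn_embPlace`: for `P = embPlace τ̃` it is `primeOf (τ̃|_L)`;
  `exists_centerOn_eq`: every prime of `𝓞 L` containing `q` is the center of some `P` over `q`;
* `isArithFrobAt_restrict`: if `P.IsFrobeniusAt φ q` then the restriction of `φ` to a normal `L` is
  an arithmetic Frobenius (`IsArithFrobAt ℤ`) at `centerOn L P`;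
* `restrict_mem_inertia_centerOn`: the inertia group of `P` restricts into the inertia group
  (`Ideal.inertia`) of the center; `mul_inv_mem_inertiaSubgroupIn`: two Frobenius lifts at `P`
  differ by an element of the inertia group of `P`; `isFrobeniusAt_iff` (elementwise form),
  `isFrobeniusAt_conj`, `exists_isFrobeniusAt_of_liesOverPrime` (every `P` over `q` has a Frobenius);
* `restrict_eq_of_isArithFrobAt` (trivial inertia) and
  `restrict_eq_of_isArithFrobAt_of_not_dvd_discr` (`q ∤ disc L`): the restriction to `L` of every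
  Frobenius element at `P` equals any given arithmetic Frobenius at the center of `P`.
-/

set_option autoImplicit false
set_option linter.unusedSectionVars false
set_option linter.style.haveILetI false

open scoped NumberField Pointwise

noncomputable section

namespace Fermat.Agent.Cheb

open Fermat.Agent.CFT Fermat.Agent.CFT.IdeleDict IsLocalRing

local notation "Qb" => AlgebraicClosure ℚ
local notation "GQ" => (AlgebraicClosure ℚ ≃ₐ[ℚ] AlgebraicClosure ℚ)

section Center

variable (L : IntermediateField ℚ Qb) (P : ValuationSubring Qb)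

/-- The elements of `𝓞 L` lie in every valuation subring of `Qb`. -/
theorem coe_ringOfIntegers_mem (x : 𝓞 L) : ((x : L) : Qb) ∈ P := by
  apply Fermat.Agent.S54.FrobExists.integral_mem_valuationSubring
  exact (x.2 : IsIntegral ℤ (x : L)).map (IsScalarTower.toAlgHom ℤ L Qb)

/-- The inclusion `𝓞 L → P`. -/
def inclO : 𝓞 L →+* P where
  toFun x := ⟨((x : L) : Qb), coe_ringOfIntegers_mem L P x⟩
  map_one' := rfl
  map_mul' _ _ := rfl
  map_zero' := rfl
  map_add' _ _ := rfl

@[simp] theorem coe_inclO (x : 𝓞 L) : ((inclO L P x : P) : Qb) = ((x : L) : Qb) := rfl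

/-- The center of the valuation subring `P` of `Qb` on the ring of integers of `L`. -/
def centerOn : Ideal (𝓞 L) := (maximalIdeal P).comap (inclO L P)

theorem mem_centerOn_iff (x : 𝓞 L) : x ∈ centerOn L P ↔ P.valuation ((x : L) : Qb) < 1 := by
  rw [centerOn, Ideal.mem_comap]
  exact P.valuation_lt_one_iff (inclO L P x)

instance centerOn_isPrime : (centerOn L P).IsPrime :=
  Ideal.comap_isPrime (inclO L P) (maximalIdeal P)

variable {P} in
theorem natCast_mem_centerOn {q : ℕ} (hP : P.LiesOverPrime q) : (q : 𝓞 L) ∈ centerOn L P := by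
  rw [mem_centerOn_iff]
  have h : (q : Qb) ∈ P.nonunits := hP
  rw [ValuationSubring.mem_nonunits_iff] at h
  have e : (((q : 𝓞 L) : L) : Qb) = (q : Qb) := by
    show algebraMap L Qb (algebraMap (𝓞 L) L (q : 𝓞 L)) = (q : Qb)
    rw [map_natCast, map_natCast]
  rw [e]
  exact h

variable {P} in
theorem under_centerOn {q : ℕ} (hq : q.Prime) (hP : P.LiesOverPrime q) :
    (centerOn L P).under ℤ = Ideal.span {(q : ℤ)} := by
  have hmax : (Ideal.span {(q : ℤ)}).IsMaximal :=
    PrincipalIdealRing.isMaximal_of_irreducible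
      (Nat.prime_iff_prime_int.mp hq).irreducible
  symm
  apply hmax.eq_of_le
  · exact Ideal.IsPrime.ne_top inferInstance
  · rw [Ideal.span_le, Set.singleton_subset_iff, SetLike.mem_coe, Ideal.under_def, Ideal.mem_comap]
    have := natCast_mem_centerOn L hP
    simpa using this

variable {P} in
theorem card_quotient_under_centerOn {q : ℕ} (hq : q.Prime) (hP : P.LiesOverPrime q) :
    Nat.card (ℤ ⧸ (centerOn L P).under ℤ) = q := by
  rw [under_centerOn L hq hP, Int.card_ideal_quot]

end Center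

section Emb

variable {q : ℕ} [Fact q.Prime] (L : IntermediateField ℚ Qb) [NumberField L]

/-- For `P = embPlace τ̃` the center on `𝓞 L` is the prime of the restricted embedding. -/
theorem centerOn_embPlace (τt : LocalEmb q Qb) :
    centerOn L (embPlace τt) = primeOf (τt.comp (algebraMap L Qb)) := by
  ext x
  rw [mem_centerOn_iff, embPlace_valuation_lt_one_iff, mem_primeOf]
  rfl

/-- **Every prime of `𝓞 L` over `q` is the center of a valuation subring of `Qb` over `q`.** -/
theorem exists_centerOn_eq (Q : Ideal (𝓞 L)) [Q.IsPrime] (hq : (q : 𝓞 L) ∈ Q) :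
    ∃ P : ValuationSubring Qb, P.LiesOverPrime q ∧ centerOn L P = Q := by
  obtain ⟨τ, hτ⟩ := exists_primeOf_eq Q hq
  haveI : Algebra.IsAlgebraic ℚ Qb := AlgebraicClosure.isAlgebraic ℚ
  haveI : Algebra.IsAlgebraic L Qb := Algebra.IsAlgebraic.tower_top (K := ℚ) L
  obtain ⟨τt, hτt⟩ := localEmbRestrict_surjective (q := q) L (L := Qb) τ
  refine ⟨embPlace τt, embPlace_liesOverPrime τt, ?_⟩
  rw [centerOn_embPlace, ← hτ, ← hτt]
  rfl

end Emb

section Frob

variable (L : IntermediateField ℚ Qb) [Normal ℚ L] {P : ValuationSubring Qb} {q : ℕ}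

/-- The action of the restriction of `φ ∈ G_ℚ` on `𝓞 L`, computed in `Qb`. -/
theorem coe_restrictNormalHom_smul (φ : GQ) (x : 𝓞 L) :
    (((AlgEquiv.restrictNormalHom L φ • x : 𝓞 L) : L) : Qb) = φ ((x : L) : Qb) :=
  AlgEquiv.restrictNormal_commutes φ L (x : L)

/-- **(F1)** A Frobenius element at `P` (Prelude) restricts to an arithmetic Frobenius (Mathlib) at
the center of `P` on `𝓞 L`. -/
theorem isArithFrobAt_restrict (hq : q.Prime) (hP : P.LiesOverPrime q) {φ : GQ}
    (hφ : P.IsFrobeniusAt φ q) :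
    IsArithFrobAt ℤ (AlgEquiv.restrictNormalHom L φ) (centerOn L P) := by
  intro x
  rw [card_quotient_under_centerOn L hq hP, mem_centerOn_iff]
  obtain ⟨hσ, hres⟩ := hφ
  have h1 := hres (residue P (inclO L P x))
  rw [← IsLocalRing.ResidueField.residue_smul, ← map_pow, ← sub_eq_zero, ← map_sub,
    IsLocalRing.residue_eq_zero_iff, P.valuation_lt_one_iff] at h1
  have e : ((((MulSemiringAction.toAlgHom ℤ (𝓞 L) (AlgEquiv.restrictNormalHom L φ)) x -
      x ^ q : 𝓞 L) : L) : Qb) =
      (((⟨φ, hσ⟩ : P.decompositionSubgroup ℚ) • inclO L P x - inclO L P x ^ q : P) : Qb) := by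
    have e1 : (((MulSemiringAction.toAlgHom ℤ (𝓞 L) (AlgEquiv.restrictNormalHom L φ)) x : 𝓞 L) :
        L) = ((AlgEquiv.restrictNormalHom L φ • x : 𝓞 L) : L) := rfl
    show algebraMap L Qb (algebraMap (𝓞 L) L (_ - _)) = _
    rw [map_sub, map_sub, map_pow, map_pow]
    show (((MulSemiringAction.toAlgHom ℤ (𝓞 L) (AlgEquiv.restrictNormalHom L φ) x : 𝓞 L) : L) :
      Qb) - ((x : L) : Qb) ^ q = _
    rw [e1, coe_restrictNormalHom_smul]
    rfl
  rw [e]
  exact h1

/-- The restriction of an element of the inertia group of `P` lies in the inertia group of the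
center of `P` on `𝓞 L`. -/
theorem restrict_mem_inertia_centerOn {σ : GQ} (hσ : σ ∈ P.inertiaSubgroupIn ℚ) :
    AlgEquiv.restrictNormalHom L σ ∈ (centerOn L P).inertia (L ≃ₐ[ℚ] L) := by
  rw [Fermat.Agent.S14.mem_inertiaSubgroupIn_iff] at hσ
  intro x
  rw [Submodule.mem_toAddSubgroup, mem_centerOn_iff]
  have h := hσ.2 _ (coe_ringOfIntegers_mem L P x)
  have e : (((AlgEquiv.restrictNormalHom L σ • x - x : 𝓞 L) : L) : Qb) =
      σ ((x : L) : Qb) - ((x : L) : Qb) := by
    show algebraMap L Qb (algebraMap (𝓞 L) L (_ - _)) = _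
    rw [map_sub, map_sub]
    show (((AlgEquiv.restrictNormalHom L σ • x : 𝓞 L) : L) : Qb) - ((x : L) : Qb) = _
    rw [coe_restrictNormalHom_smul]
  rw [e]
  exact h

end Frob

section Generic

variable {K E : Type*} [Field K] [Field E] [Algebra K E] {A : ValuationSubring E} {q : ℕ}

/-- Elementwise form of the Prelude's Frobenius condition. -/
theorem isFrobeniusAt_iff {φ : E ≃ₐ[K] E} :
    A.IsFrobeniusAt φ q ↔
      φ ∈ A.decompositionSubgroup K ∧ ∀ y ∈ A, A.valuation (φ y - y ^ q) < 1 := by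
  constructor
  · rintro ⟨hD, hres⟩
    refine ⟨hD, fun y hy => ?_⟩
    have h1 := hres (residue A ⟨y, hy⟩)
    rw [← IsLocalRing.ResidueField.residue_smul, ← map_pow, ← sub_eq_zero, ← map_sub,
      IsLocalRing.residue_eq_zero_iff, A.valuation_lt_one_iff] at h1
    exact h1
  · rintro ⟨hD, h⟩
    refine ⟨hD, fun y => ?_⟩
    obtain ⟨x, rfl⟩ := IsLocalRing.residue_surjective y
    rw [← IsLocalRing.ResidueField.residue_smul, ← map_pow, ← sub_eq_zero, ← map_sub,
      IsLocalRing.residue_eq_zero_iff, A.valuation_lt_one_iff]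
    exact h x x.2

/-- Two Frobenius elements at `A` differ by an element of the inertia group of `A`. -/
theorem mul_inv_mem_inertiaSubgroupIn {φ ψ : E ≃ₐ[K] E} (hφ : A.IsFrobeniusAt φ q)
    (hψ : A.IsFrobeniusAt ψ q) : φ * ψ⁻¹ ∈ A.inertiaSubgroupIn K := by
  rw [isFrobeniusAt_iff] at hφ hψ
  rw [Fermat.Agent.S14.mem_inertiaSubgroupIn_iff]
  have hψi : ψ⁻¹ ∈ A.decompositionSubgroup K := inv_mem hψ.1
  refine ⟨mul_mem hφ.1 hψi, fun x hx => ?_⟩
  have hy : ψ⁻¹ x ∈ A := by
    have h : ψ⁻¹ • A = A := hψi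
    have h2 : ψ⁻¹ • x ∈ ψ⁻¹ • A := ValuationSubring.smul_mem_pointwise_smul _ _ _ hx
    rw [h] at h2
    exact h2
  have h1 := hφ.2 _ hy
  have h2 := hψ.2 _ hy
  have e : (φ * ψ⁻¹) x - x = (φ (ψ⁻¹ x) - (ψ⁻¹ x) ^ q) - (ψ (ψ⁻¹ x) - (ψ⁻¹ x) ^ q) := by
    have : ψ (ψ⁻¹ x) = x := by
      show (ψ * ψ⁻¹) x = x
      rw [mul_inv_cancel]; rfl
    rw [this]
    show φ (ψ⁻¹ x) - x = _
    ring
  rw [e]
  exact Valuation.map_sub_lt _ h1 h2

/-- Conjugation of Frobenius elements. -/
theorem isFrobeniusAt_conj {φ : E ≃ₐ[K] E} (hφ : A.IsFrobeniusAt φ q) (g : E ≃ₐ[K] E) :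
    (g • A).IsFrobeniusAt (g * φ * g⁻¹) q := by
  rw [isFrobeniusAt_iff] at hφ ⊢
  constructor
  · show (g * φ * g⁻¹) • g • A = g • A
    rw [smul_smul, inv_mul_cancel_right, mul_smul]
    congr 1
    exact hφ.1
  · intro y hy
    rw [Fermat.Agent.S14.valuation_smul_lt_one_iff]
    have hy' : g⁻¹ y ∈ A := by
      rw [ValuationSubring.mem_pointwise_smul_iff_inv_smul_mem] at hy
      exact hy
    have e : g⁻¹ ((g * φ * g⁻¹) y - y ^ q) = φ (g⁻¹ y) - (g⁻¹ y) ^ q := by
      rw [map_sub, map_pow]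
      congr 1
      show (g⁻¹ * (g * φ * g⁻¹)) y = _
      rw [← mul_assoc, ← mul_assoc, inv_mul_cancel, one_mul]
      rfl
    rw [e]
    exact hφ.2 _ hy'

end Generic

section Exists

/-- **Every valuation subring of `Qb` over a prime `q` has a Frobenius element.** -/
theorem exists_isFrobeniusAt_of_liesOverPrime {P : ValuationSubring Qb} {q : ℕ} (hq : q.Prime)
    (hP : P.LiesOverPrime q) : ∃ φ : GQ, P.IsFrobeniusAt φ q := by
  obtain ⟨A, hA, φ, hφ⟩ := Fermat.Agent.S54.FrobExists.exists_isFrobeniusAt q hq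
  haveI := Fermat.Agent.S54.FrobExists.isGalois_rat_algebraicClosure
  obtain ⟨g, rfl⟩ := Fermat.Agent.S13.exists_smul_valuationSubring_eq A P hq hA hP
  exact ⟨_, isFrobeniusAt_conj hφ g⟩

end Exists

section Unram

variable (L : IntermediateField ℚ Qb) [Normal ℚ L] {P : ValuationSubring Qb} {q : ℕ}

/-- **(F2)** If the inertia group of the center of `P` on `𝓞 L` is trivial, then the restriction
to `L` of every Frobenius element at `P` is THE arithmetic Frobenius at the center. -/
theorem restrict_eq_of_isArithFrobAt [FiniteDimensional ℚ L] (hq : q.Prime)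
    (hP : P.LiesOverPrime q) {φ : GQ} (hφ : P.IsFrobeniusAt φ q) {g : L ≃ₐ[ℚ] L}
    (hg : IsArithFrobAt ℤ g (centerOn L P))
    (hunr : (centerOn L P).inertia (L ≃ₐ[ℚ] L) = ⊥) :
    AlgEquiv.restrictNormalHom L φ = g := by
  have h1 := isArithFrobAt_restrict L hq hP hφ
  have h2 := h1.mul_inv_mem_inertia hg
  rw [hunr, Subgroup.mem_bot, mul_inv_eq_one] at h2
  exact h2

end Unram

section Unram2

variable (L : IntermediateField ℚ Qb) [NumberField L] {P : ValuationSubring Qb} {q : ℕ}

/-- An automorphism of a number field is determined by its action on the ring of integers. -/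
theorem algEquiv_ext_of_smul_ringOfIntegers {K : Type*} [Field K] [NumberField K]
    {g h : K ≃ₐ[ℚ] K} (H : ∀ x : 𝓞 K, g • x = h • x) : g = h := by
  ext y
  obtain ⟨a, b, hb, rfl⟩ := IsFractionRing.div_surjective (A := 𝓞 K) y
  have ha' : g (a : K) = h (a : K) := congrArg (fun z : 𝓞 K => (z : K)) (H a)
  have hb' : g (b : K) = h (b : K) := congrArg (fun z : 𝓞 K => (z : K)) (H b)
  rw [map_div₀, map_div₀, ha', hb']

theorem centerOn_ne_bot (hq : q.Prime) (hP : P.LiesOverPrime q) : centerOn L P ≠ ⊥ := by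
  intro h
  have h1 := natCast_mem_centerOn L hP
  rw [h, Ideal.mem_bot] at h1
  have : (q : 𝓞 L) ≠ 0 := Nat.cast_ne_zero.mpr hq.ne_zero
  exact this h1

theorem centerOn_isMaximal (hq : q.Prime) (hP : P.LiesOverPrime q) : (centerOn L P).IsMaximal :=
  Ideal.IsPrime.isMaximal inferInstance (centerOn_ne_bot L hq hP)

theorem centerOn_liesOver (hq : q.Prime) (hP : P.LiesOverPrime q) :
    (centerOn L P).LiesOver (Ideal.span {(q : ℤ)}) :=
  ⟨(under_centerOn L hq hP).symm⟩

theorem isUnramifiedAt_centerOn (hq : q.Prime) (hP : P.LiesOverPrime q)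
    (hd : ¬ (q : ℤ) ∣ NumberField.discr L) : Algebra.IsUnramifiedAt ℤ (centerOn L P) :=
  (NumberField.not_dvd_discr_iff_forall_liesOver L (𝓞 L) (Nat.prime_iff_prime_int.mp hq)).mp hd
    (centerOn L P) (centerOn_isMaximal L hq hP) (centerOn_liesOver L hq hP)

/-- **(F2')** If `q ∤ disc L`, then the restriction to `L` of every Frobenius element at `P` is
any given arithmetic Frobenius at the center. -/
theorem restrict_eq_of_isArithFrobAt_of_not_dvd_discr [Normal ℚ L] (hq : q.Prime)
    (hP : P.LiesOverPrime q) {φ : GQ} (hφ : P.IsFrobeniusAt φ q) {g : L ≃ₐ[ℚ] L}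
    (hg : IsArithFrobAt ℤ g (centerOn L P))
    (hd : ¬ (q : ℤ) ∣ NumberField.discr L) :
    AlgEquiv.restrictNormalHom L φ = g := by
  have h1 := isArithFrobAt_restrict L hq hP hφ
  haveI := isUnramifiedAt_centerOn L hq hP hd
  have h2 := AlgHom.IsArithFrobAt.eq_of_isUnramifiedAt h1 hg
    (fun x hx => mem_nonZeroDivisors_of_ne_zero (fun h => hx (h ▸ Ideal.zero_mem _)))
  apply algEquiv_ext_of_smul_ringOfIntegers
  intro x
  exact DFunLike.congr_fun h2 x

end Unram2

end Fermat.Agent.Cheb
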