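import Fermat.Agent.Cheb.DensityCalc

/-!
# Chebotarev track, milestone 2, node A5: character orthogonality and the class density lemma

`A` is a finite commutative group, with its characters `χ : A →* ℂˣ`.

* `norm_char_apply` : `‖χ a‖ = 1`;
* `sum_char_apply` : `∑ χ, χ a = #A` if `a = 1`, else `0`;
* `sum_char_inv_mul` : `∑ χ, (χ a)⁻¹ * χ b = #A` if `a = b`, else `0`;
* `hasLogDensity_class` : the abstract class density lemma.  `P` an index type, `w` admissible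
  weights, `G ⊆ P` the good indices, `cl : P → A`.  If `G` has logarithmic density `1` and for every
  character `χ ≠ 1` the twisted sums `∑_{v ∈ G} χ (cl v) w s v` are bounded on `(1, 2]`, then every
  class `{v ∈ G | cl v = a}` has logarithmic density `1 / #A`.
-/

set_option autoImplicit false

namespace Fermat.Agent.Cheb.CharOrth

open Fermat.Agent.Cheb.Dens

section Orth

variable {A : Type*} [CommGroup A] [Finite A]

/-- The values of a character of a finite group have norm `1`. -/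
theorem norm_char_apply (χ : A →* ℂˣ) (a : A) : ‖((χ a : ℂˣ) : ℂ)‖ = 1 := by
  apply Complex.norm_eq_one_of_pow_eq_one (n := Nat.card A) _ Nat.card_pos.ne'
  rw [← Units.val_pow_eq_pow_val, ← map_pow, pow_card_eq_one', map_one, Units.val_one]

/-- For `a ≠ 1` there is a character with `φ a ≠ 1`. -/
theorem exists_char_apply_ne_one {a : A} (ha : a ≠ 1) : ∃ φ : A →* ℂˣ, φ a ≠ 1 :=
  CommGroup.exists_apply_ne_one_of_hasEnoughRootsOfUnity A ℂ ha

variable [Fintype (A →* ℂˣ)]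

theorem sum_char_apply_eq_zero {a : A} (ha : a ≠ 1) :
    ∑ χ : A →* ℂˣ, ((χ a : ℂˣ) : ℂ) = 0 := by
  obtain ⟨φ, hφ⟩ := exists_char_apply_ne_one ha
  have h1 : ∑ χ : A →* ℂˣ, ((χ a : ℂˣ) : ℂ) =
      ((φ a : ℂˣ) : ℂ) * ∑ χ : A →* ℂˣ, ((χ a : ℂˣ) : ℂ) := by
    rw [Finset.mul_sum]
    rw [← Equiv.sum_comp (Equiv.mulLeft φ)]
    refine Finset.sum_congr rfl fun χ _ => ?_
    simp
  have h2 : (((φ a : ℂˣ) : ℂ) - 1) * ∑ χ : A →* ℂˣ, ((χ a : ℂˣ) : ℂ) = 0 := by
    rw [sub_mul, one_mul, ← h1, sub_self]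
  rcases mul_eq_zero.mp h2 with h | h
  · exfalso
    apply hφ
    rw [sub_eq_zero] at h
    exact Units.ext h
  · exact h

theorem card_char : Fintype.card (A →* ℂˣ) = Nat.card A := by
  rw [← Nat.card_eq_fintype_card]
  exact CommGroup.card_monoidHom_of_hasEnoughRootsOfUnity A ℂ

open Classical in
/-- First orthogonality relation. -/
theorem sum_char_apply (a : A) :
    ∑ χ : A →* ℂˣ, ((χ a : ℂˣ) : ℂ) = if a = 1 then (Nat.card A : ℂ) else 0 := by
  split_ifs with h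
  · subst h
    simp [card_char]
  · exact sum_char_apply_eq_zero h

open Classical in
/-- Second orthogonality relation. -/
theorem sum_char_inv_mul (a b : A) :
    ∑ χ : A →* ℂˣ, (((χ a : ℂˣ) : ℂ))⁻¹ * ((χ b : ℂˣ) : ℂ) =
      if a = b then (Nat.card A : ℂ) else 0 := by
  have h1 : ∀ χ : A →* ℂˣ, (((χ a : ℂˣ) : ℂ))⁻¹ * ((χ b : ℂˣ) : ℂ) =
      ((χ (a⁻¹ * b) : ℂˣ) : ℂ) := by
    intro χ
    rw [map_mul, map_inv, Units.val_mul, Units.val_inv_eq_inv_val]
  rw [Finset.sum_congr rfl fun χ _ => h1 χ, sum_char_apply]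
  have h2 : a⁻¹ * b = 1 ↔ a = b := by
    rw [inv_mul_eq_one]
  simp only [h2]

end Orth

section Density

variable {P : Type*} {w : ℝ → P → ℝ} {A : Type*} [CommGroup A] [Finite A] [Fintype (A →* ℂˣ)]

omit [Fintype (A →* ℂˣ)] in
/-- The twisted terms are summable. -/
theorem summable_twisted (hw : IsWeight w) (G : Set P) (cl : P → A) (χ : A →* ℂˣ) {s : ℝ}
    (h1 : 1 < s) (h2 : s ≤ 2) :
    Summable fun v => G.indicator (fun v => ((χ (cl v) : ℂˣ) : ℂ) * ((w s v : ℝ) : ℂ)) v := by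
  refine Summable.of_norm_bounded (hw.summable s h1 h2) fun v => ?_
  by_cases hv : v ∈ G
  · rw [Set.indicator_of_mem hv, norm_mul, norm_char_apply, one_mul, Complex.norm_real,
      Real.norm_of_nonneg (hw.nonneg s h1 h2 v)]
  · rw [Set.indicator_of_notMem hv, norm_zero]
    exact hw.nonneg s h1 h2 v

/-- The orthogonality relations, summed against the weights. -/
theorem card_mul_setSum_class (hw : IsWeight w) (G : Set P) (cl : P → A) (a : A) {s : ℝ}
    (h1 : 1 < s) (h2 : s ≤ 2) :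
    (Nat.card A : ℂ) * ((setSum w {v | v ∈ G ∧ cl v = a} s : ℝ) : ℂ) =
      ∑ χ : A →* ℂˣ, (((χ a : ℂˣ) : ℂ))⁻¹ *
        ∑' v, G.indicator (fun v => ((χ (cl v) : ℂˣ) : ℂ) * ((w s v : ℝ) : ℂ)) v := by
  classical
  have e1 : ∀ χ : A →* ℂˣ, (((χ a : ℂˣ) : ℂ))⁻¹ *
        ∑' v, G.indicator (fun v => ((χ (cl v) : ℂˣ) : ℂ) * ((w s v : ℝ) : ℂ)) v =
      ∑' v, (((χ a : ℂˣ) : ℂ))⁻¹ *
        G.indicator (fun v => ((χ (cl v) : ℂˣ) : ℂ) * ((w s v : ℝ) : ℂ)) v := fun χ =>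
    tsum_mul_left.symm
  rw [Finset.sum_congr rfl fun χ _ => e1 χ, ← Summable.tsum_finsetSum
    (fun χ _ => (summable_twisted hw G cl χ h1 h2).mul_left _)]
  unfold setSum
  rw [Complex.ofReal_tsum, ← tsum_mul_left]
  refine tsum_congr fun v => ?_
  by_cases hv : v ∈ G
  · have e2 : ∀ χ : A →* ℂˣ, (((χ a : ℂˣ) : ℂ))⁻¹ *
          G.indicator (fun v => ((χ (cl v) : ℂˣ) : ℂ) * ((w s v : ℝ) : ℂ)) v =
        ((((χ a : ℂˣ) : ℂ))⁻¹ * ((χ (cl v) : ℂˣ) : ℂ)) * ((w s v : ℝ) : ℂ) := by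
      intro χ
      rw [Set.indicator_of_mem hv, mul_assoc]
    rw [Finset.sum_congr rfl fun χ _ => e2 χ, ← Finset.sum_mul, sum_char_inv_mul]
    by_cases hc : cl v = a
    · rw [if_pos hc.symm, Set.indicator_of_mem (show v ∈ {v | v ∈ G ∧ cl v = a} from ⟨hv, hc⟩)]
    · rw [if_neg (fun h => hc h.symm), Set.indicator_of_notMem
        (show v ∉ {v | v ∈ G ∧ cl v = a} from fun h => hc h.2)]
      simp
  · rw [Set.indicator_of_notMem (show v ∉ {v | v ∈ G ∧ cl v = a} from fun h => hv h.1)]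
    simp [Set.indicator_of_notMem hv]

omit [Finite A] [Fintype (A →* ℂˣ)] in
/-- The twisted sum of the trivial character is the sum over `G`. -/
theorem tsum_twisted_one (G : Set P) (cl : P → A) (s : ℝ) :
    ∑' v, G.indicator (fun v => (((1 : A →* ℂˣ) (cl v) : ℂˣ) : ℂ) * ((w s v : ℝ) : ℂ)) v =
      ((setSum w G s : ℝ) : ℂ) := by
  unfold setSum
  rw [Complex.ofReal_tsum]
  refine tsum_congr fun v => ?_
  by_cases hv : v ∈ G
  · simp [Set.indicator_of_mem hv]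
  · simp [Set.indicator_of_notMem hv]

/-- **The class density lemma** (node A5).  If the good set `G` has logarithmic density `1` and
all the twisted sums for the nontrivial characters are bounded on `(1, 2]`, then every class
`{v ∈ G | cl v = a}` has logarithmic density `1 / #A`. -/
theorem hasLogDensity_class (hw : IsWeight w) (G : Set P) (cl : P → A)
    (hG : HasLogDensity w G 1)
    (hχ : ∀ χ : A →* ℂˣ, χ ≠ 1 → ∃ C : ℝ, ∀ s : ℝ, 1 < s → s ≤ 2 →
      ‖∑' v, G.indicator (fun v => ((χ (cl v) : ℂˣ) : ℂ) * ((w s v : ℝ) : ℂ)) v‖ ≤ C) (a : A) :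
    HasLogDensity w {v | v ∈ G ∧ cl v = a} (1 / (Nat.card A : ℝ)) := by
  classical
  obtain ⟨C1, hC1⟩ := hG
  have hχ' : ∀ χ : A →* ℂˣ, ∃ C : ℝ, χ ≠ 1 → ∀ s : ℝ, 1 < s → s ≤ 2 →
      ‖∑' v, G.indicator (fun v => ((χ (cl v) : ℂˣ) : ℂ) * ((w s v : ℝ) : ℂ)) v‖ ≤ C := by
    intro χ
    by_cases h : χ = 1
    · exact ⟨0, fun h' => (h' h).elim⟩
    · obtain ⟨C, hC⟩ := hχ χ h
      exact ⟨C, fun _ => hC⟩
  choose Cχ hCχ using hχ'
  have hn : (0 : ℝ) < Nat.card A := by exact_mod_cast Nat.card_pos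
  refine ⟨(1 / (Nat.card A : ℝ)) * (C1 + ∑ χ ∈ (Finset.univ.erase (1 : A →* ℂˣ)), Cχ χ),
    fun s h1 h2 => ?_⟩
  set X := setSum w {v | v ∈ G ∧ cl v = a} s with hX
  set Λ := Real.log (1 / (s - 1)) with hΛ
  have key := card_mul_setSum_class hw G cl a h1 h2
  rw [← Finset.add_sum_erase Finset.univ _ (Finset.mem_univ (1 : A →* ℂˣ)), tsum_twisted_one]
    at key
  have h3 : (((1 : A →* ℂˣ) a : ℂˣ) : ℂ)⁻¹ = 1 := by simp
  rw [h3, one_mul] at key
  -- the estimate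
  have h4 : |(Nat.card A : ℝ) * X - Λ| ≤
      C1 + ∑ χ ∈ (Finset.univ.erase (1 : A →* ℂˣ)), Cχ χ := by
    have e : (((Nat.card A : ℝ) * X - Λ : ℝ) : ℂ) =
        ((setSum w G s - 1 * Λ : ℝ) : ℂ) +
          ∑ χ ∈ (Finset.univ.erase (1 : A →* ℂˣ)), (((χ a : ℂˣ) : ℂ))⁻¹ *
            ∑' v, G.indicator (fun v => ((χ (cl v) : ℂˣ) : ℂ) * ((w s v : ℝ) : ℂ)) v := by
      push_cast
      rw [key]
      ring
    rw [← Real.norm_eq_abs, ← Complex.norm_real, e]
    refine (norm_add_le _ _).trans (add_le_add ?_ ?_)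
    · rw [Complex.norm_real, Real.norm_eq_abs]
      exact hC1 s h1 h2
    · refine (norm_sum_le _ _).trans (Finset.sum_le_sum fun χ hχm => ?_)
      rw [norm_mul, norm_inv, norm_char_apply, inv_one, one_mul]
      exact hCχ χ (Finset.ne_of_mem_erase hχm) s h1 h2
  have h5 : X - 1 / (Nat.card A : ℝ) * Λ = (1 / (Nat.card A : ℝ)) * ((Nat.card A : ℝ) * X - Λ) := by
    field_simp
  rw [h5, abs_mul, abs_of_pos (by positivity : (0 : ℝ) < 1 / (Nat.card A : ℝ))]
  exact mul_le_mul_of_nonneg_left h4 (by positivity)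

end Density

end Fermat.Agent.Cheb.CharOrth
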