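import Fermat.Agent.Cheb.FrobDict
import Fermat.Agent.Cheb.FrobCompare

/-!
# T3 (Chebotarev track), node Z5 (b): the Deuring reduction

`CyclicGenFrob` is the Mathlib-language output expected from node Z4: for every cyclic extension
`L/K` of number fields and every finite set `T` of rational primes there is a prime `Q` of `L` such
that `Q ∩ 𝓞 K` has residue field of prime cardinality `q ∉ T`, and an arithmetic Frobenius
`g ∈ Gal(L/K)` at `Q` (over `𝓞 K`) generating `Gal(L/K)`.

* `exists_frob_zpowers_eq` (Galois case): for `L/ℚ` finite Galois inside `Qb`, `σ ∈ Gal(L/ℚ)` and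
  `T` finite there are a prime `q ∉ T`, `q ∤ disc L`, and a valuation subring `P` of `Qb` over `q`
  such that the restriction to `L` of EVERY Frobenius element at `P` generates `⟨σ⟩`.
  (Proof: `K := L^{⟨σ⟩}`, apply `CyclicGenFrob` to `L/K`; as `Q ∩ 𝓞 K` has degree one, a Frobenius
  at `Q` over `K` is a Frobenius at `Q` over `ℚ`; `FrobDict` identifies it with `φ|_L`.)
* `chebGen_of_cyclicGenFrob : CyclicGenFrob → ChebGen` (`ChebGen` of `FrobCompare.lean`).
-/

set_option autoImplicit false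
set_option linter.unusedSectionVars false
set_option linter.style.haveILetI false

open scoped NumberField Pointwise

noncomputable section

namespace Fermat.Agent.Cheb

open Fermat.Agent.CFT Fermat.Agent.CFT.IdeleDict IsLocalRing

local notation "Qb" => AlgebraicClosure ℚ
local notation "GQ" => (AlgebraicClosure ℚ ≃ₐ[ℚ] AlgebraicClosure ℚ)

/-- **The output of node Z4** (Mathlib language): for a cyclic extension `L/K` of number fields and
a finite set `T` of rational primes there is a prime `Q` of `L` whose trace on `K` has prime norm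
`q ∉ T`, together with an arithmetic Frobenius at `Q` over `K` generating `Gal(L/K)`. -/
def CyclicGenFrob : Prop :=
  ∀ (K L : Type) [Field K] [Field L] [NumberField K] [NumberField L] [Algebra K L] [IsGalois K L]
    [IsCyclic (L ≃ₐ[K] L)] (T : Finset ℕ),
    ∃ (Q : Ideal (𝓞 L)) (g : L ≃ₐ[K] L), Q.IsPrime ∧
      (Nat.card (𝓞 K ⧸ Q.under (𝓞 K))).Prime ∧ Nat.card (𝓞 K ⧸ Q.under (𝓞 K)) ∉ T ∧
      IsArithFrobAt (𝓞 K) g Q ∧ Subgroup.zpowers g = ⊤

section Transfer

variable {K L : Type*} [Field K] [Field L] [NumberField K] [NumberField L] [Algebra K L]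

/-- If the residue field of `Q ∩ 𝓞 K` has `q` elements, then `q ∈ Q`. -/
theorem natCast_mem_of_card_quotient_under {Q : Ideal (𝓞 L)} {q : ℕ}
    (hq : Nat.card (𝓞 K ⧸ Q.under (𝓞 K)) = q) : (q : 𝓞 L) ∈ Q := by
  have h1 : ((q : ℕ) : 𝓞 K ⧸ Q.under (𝓞 K)) = 0 := by
    rw [← hq]
    have := card_nsmul_eq_zero' (G := 𝓞 K ⧸ Q.under (𝓞 K)) (x := 1)
    simpa using this
  have h2 : (q : 𝓞 K) ∈ Q.under (𝓞 K) := by
    rw [← Ideal.Quotient.eq_zero_iff_mem, map_natCast]
    exact h1
  rw [Ideal.under_def, Ideal.mem_comap, map_natCast] at h2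
  exact h2

end Transfer

section Galois

variable (L : IntermediateField ℚ Qb)

/-- The range of `Gal(L/K) → Gal(L/ℚ)` is the fixing subgroup of `K`. -/
theorem range_restrictScalarsHom (K : IntermediateField ℚ L) :
    (AlgEquiv.restrictScalarsHom ℚ : (L ≃ₐ[K] L) →* (L ≃ₐ[ℚ] L)).range = K.fixingSubgroup := by
  ext τ
  constructor
  · rintro ⟨g, rfl⟩
    rw [IntermediateField.mem_fixingSubgroup_iff]
    intro x hx
    exact g.commutes ⟨x, hx⟩
  · intro h
    exact ⟨IntermediateField.fixingSubgroupEquiv K ⟨τ, h⟩, by ext; rfl⟩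

variable [NumberField L] [IsGalois ℚ L]

/-- **Deuring reduction, Galois case.** -/
theorem exists_frob_zpowers_eq (hZ : CyclicGenFrob) (σ : L ≃ₐ[ℚ] L) (T : Finset ℕ) :
    ∃ q : ℕ, q.Prime ∧ q ∉ T ∧ ¬ (q : ℤ) ∣ NumberField.discr L ∧
      ∃ P : ValuationSubring Qb, P.LiesOverPrime q ∧
      ∀ φ : GQ, P.IsFrobeniusAt φ q →
        Subgroup.zpowers (AlgEquiv.restrictNormalHom L φ) = Subgroup.zpowers σ := by
  haveI : FiniteDimensional ℚ L := inferInstance
  set K : IntermediateField ℚ L := IntermediateField.fixedField (Subgroup.zpowers σ) with hK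
  have hfix : K.fixingSubgroup = Subgroup.zpowers σ :=
    IntermediateField.fixingSubgroup_fixedField _
  haveI : IsCyclic (L ≃ₐ[K] L) :=
    isCyclic_of_surjective (IntermediateField.subgroupEquivAlgEquiv (Subgroup.zpowers σ))
      (IntermediateField.subgroupEquivAlgEquiv (Subgroup.zpowers σ)).surjective
  obtain ⟨Q, g, hQp, hqprime, hqT, hg, hgen⟩ :=
    hZ K L (T ∪ (NumberField.discr L).natAbs.primeFactors)
  set q := Nat.card (𝓞 K ⧸ Q.under (𝓞 K)) with hq
  haveI := hQp
  haveI : Fact q.Prime := ⟨hqprime⟩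
  rw [Finset.mem_union, not_or] at hqT
  have hdisc : ¬ (q : ℤ) ∣ NumberField.discr L := by
    intro h
    apply hqT.2
    rw [Nat.mem_primeFactors]
    refine ⟨hqprime, ?_, ?_⟩
    · exact Int.natCast_dvd.mp h
    · exact Int.natAbs_ne_zero.mpr (NumberField.discr_ne_zero L)
  refine ⟨q, hqprime, hqT.1, hdisc, ?_⟩
  have hqmem : (q : 𝓞 L) ∈ Q := natCast_mem_of_card_quotient_under (K := K) rfl
  obtain ⟨P, hP, hPQ⟩ := exists_centerOn_eq L Q hqmem
  refine ⟨P, hP, fun φ hφ => ?_⟩
  set ι : (L ≃ₐ[K] L) →* (L ≃ₐ[ℚ] L) := AlgEquiv.restrictScalarsHom ℚ with hι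
  have hg' : IsArithFrobAt ℤ (ι g) (centerOn L P) := by
    intro x
    rw [card_quotient_under_centerOn L hqprime hP, hPQ]
    exact hg x
  have h1 : AlgEquiv.restrictNormalHom L φ = ι g :=
    restrict_eq_of_isArithFrobAt_of_not_dvd_discr L hqprime hP hφ hg' hdisc
  rw [h1, ← MonoidHom.map_zpowers, hgen, ← MonoidHom.range_eq_map, hι,
    range_restrictScalarsHom, hfix]

end Galois

section General

/-- **Deuring reduction**: the Mathlib-side generator form for cyclic extensions of number fields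
implies the Prelude-side generator form of Chebotarev over `ℚ`. -/
theorem chebGen_of_cyclicGenFrob (hZ : CyclicGenFrob) : ChebGen := by
  intro L hL σ T
  haveI : FiniteDimensional ℚ L := hL
  haveI : Normal ℚ Qb := (Fermat.Agent.S54.FrobExists.isGalois_rat_algebraicClosure).to_normal
  set N : IntermediateField ℚ Qb := IntermediateField.normalClosure ℚ L Qb with hN
  haveI : FiniteDimensional ℚ N := normalClosure.is_finiteDimensional ℚ L Qb
  haveI : Normal ℚ N := normalClosure.normal ℚ L Qb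
  haveI : IsGalois ℚ N := ⟨⟩
  haveI : NumberField N := numberField_of_finiteDimensional N
  have hLN : L ≤ N := IntermediateField.le_normalClosure L
  obtain ⟨q, hq, hqT, -, P, hP, hφ⟩ :=
    exists_frob_zpowers_eq N hZ (AlgEquiv.restrictNormalHom N σ) T
  obtain ⟨φ, hφP⟩ := exists_isFrobeniusAt_of_liesOverPrime hq hP
  have h1 := hφ φ hφP
  have h2 : AlgEquiv.restrictNormalHom N σ ∈
      Subgroup.zpowers (AlgEquiv.restrictNormalHom N φ) := by
    rw [h1]
    exact Subgroup.mem_zpowers _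
  rw [← mem_powers_iff_mem_zpowers, Submonoid.mem_powers_iff] at h2
  obtain ⟨k, hk⟩ := h2
  refine ⟨q, hq, hqT, P, φ, k, hP, hφP, fun x hx => ?_⟩
  have h3 : ((AlgEquiv.restrictNormalHom N σ) ⟨x, hLN hx⟩ : Qb) = σ x :=
    AlgEquiv.restrictNormal_commutes σ N ⟨x, hLN hx⟩
  have h4 : ((AlgEquiv.restrictNormalHom N (φ ^ k)) ⟨x, hLN hx⟩ : Qb) = (φ ^ k) x :=
    AlgEquiv.restrictNormal_commutes (φ ^ k) N ⟨x, hLN hx⟩
  rw [← h3, ← h4, map_pow, hk]

end General

end Fermat.Agent.Cheb
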