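import Mathlib

/-!
# Chebotarev programme, node Z3a: primes of a Galois extension `M/K` over split primes of `K`

Type-level tower of number fields `K ⊆ M`.  Primes are
`IsDedekindDomain.HeightOneSpectrum (𝓞 ·)`; "absolute degree one" means that the absolute norm
is a rational prime.

* `primeUnder K M Q` : the prime of `K` below the prime `Q` of `M`.
* `IsSplit K M P` : `P` is of absolute degree one and every prime of `M` over `P` has
  ramification index one and inertia degree one over `K`.
* `absNorm_primeUnder_of_prime`, `inertiaDeg_eq_one_of_prime` : a prime of `M` of absolute degree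
  one lies over a prime of `K` of absolute degree one and of the same norm, with residue degree
  one.
* `isSplit_iff_of_isGalois` : for `M/K` Galois one prime above `P` decides.
* `card_fibre_of_isSplit` : a split prime has exactly `[M:K]` primes of `M` above it.
* `finite_ramified_above`, `finite_ramified_below` : finitely many primes are ramified.
* `tsum_degOne_unram_eq` : the reindexing identity used for the density of split primes.
-/

set_option linter.unusedSectionVars false

namespace Fermat.Agent.Cheb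

open NumberField IsDedekindDomain

section Reindex

/-- Summability along a map all of whose fibres have the same finite positive cardinality. -/
theorem summable_comp_iff_of_card_fibre {A B : Type*} (π : A → B) (m : ℕ) (hm : 0 < m)
    (hπ : ∀ b, Nat.card {a // π a = b} = m) (g : B → ℝ) :
    Summable (fun a => g (π a)) ↔ Summable g := by
  have hfin : ∀ b, Finite {a // π a = b} := fun b =>
    Nat.finite_of_card_ne_zero (by rw [hπ b]; exact hm.ne')
  have h1 : Summable (fun a => g (π a)) ↔
      Summable (fun x : (Σ b, {a // π a = b}) => g x.1) := by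
    rw [← (Equiv.sigmaFiberEquiv π).summable_iff]
    refine summable_congr ?_
    rintro ⟨b, a, rfl⟩
    rfl
  rw [h1, ← summable_abs_iff, summable_sigma_of_nonneg (fun _ => abs_nonneg _)]
  have h2 : ∀ b, (∑' _ : {a // π a = b}, |g b|) = (m : ℝ) * |g b| := fun b => by
    rw [tsum_const, hπ b, nsmul_eq_mul]
  simp only [h2]
  rw [summable_mul_left_iff (Nat.cast_ne_zero.mpr hm.ne'), summable_abs_iff]
  exact ⟨fun h => h.2, fun h => ⟨fun b => Summable.of_finite, h⟩⟩

/-- Reindexing a sum along a map all of whose fibres have cardinality `m`. -/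
theorem tsum_comp_of_card_fibre {A B : Type*} (π : A → B) (m : ℕ) (hm : 0 < m)
    (hπ : ∀ b, Nat.card {a // π a = b} = m) (g : B → ℝ) :
    ∑' a, g (π a) = (m : ℝ) * ∑' b, g b := by
  have hfin : ∀ b, Finite {a // π a = b} := fun b =>
    Nat.finite_of_card_ne_zero (by rw [hπ b]; exact hm.ne')
  by_cases hg : Summable g
  · have hF : Summable (fun x : (Σ b, {a // π a = b}) => g x.1) := by
      have := (summable_comp_iff_of_card_fibre π m hm hπ g).mpr hg
      rw [← (Equiv.sigmaFiberEquiv π).summable_iff] at this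
      refine (summable_congr ?_).mp this
      rintro ⟨b, a, rfl⟩
      rfl
    have h0 : ∑' a, g (π a) = ∑' x : (Σ b, {a // π a = b}), g x.1 := by
      rw [← (Equiv.sigmaFiberEquiv π).tsum_eq]
      refine tsum_congr ?_
      rintro ⟨b, a, rfl⟩
      rfl
    rw [h0, Summable.tsum_sigma' (fun b => Summable.of_finite) hF, ← tsum_mul_left]
    refine tsum_congr fun b => ?_
    change ∑' _ : {a // π a = b}, g b = _
    rw [tsum_const, hπ b, nsmul_eq_mul]
  · rw [tsum_eq_zero_of_not_summable hg, tsum_eq_zero_of_not_summable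
      (mt (summable_comp_iff_of_card_fibre π m hm hπ g).mp hg), mul_zero]

end Reindex

section Defs

variable (K M : Type*) [Field K] [NumberField K] [Field M] [NumberField M] [Algebra K M]

/-- The prime of `K` below a prime of `M`. -/
noncomputable def primeUnder (Q : HeightOneSpectrum (𝓞 M)) : HeightOneSpectrum (𝓞 K) where
  asIdeal := Q.asIdeal.under (𝓞 K)
  isPrime := inferInstance
  ne_bot := Ideal.IsMaximal.ne_bot_of_isIntegral_int _

@[simp] theorem primeUnder_asIdeal (Q : HeightOneSpectrum (𝓞 M)) :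
    (primeUnder K M Q).asIdeal = Q.asIdeal.under (𝓞 K) := rfl

instance primeUnder_liesOver (Q : HeightOneSpectrum (𝓞 M)) :
    Q.asIdeal.LiesOver (primeUnder K M Q).asIdeal := ⟨rfl⟩

/-- `Spl(M/K)`: a prime `P` of `K` of absolute degree one such that every prime `Q` of `M`
over `P` has ramification index `1` and inertia degree `1` over `K`. -/
def IsSplit (P : HeightOneSpectrum (𝓞 K)) : Prop :=
  (Ideal.absNorm P.asIdeal).Prime ∧
    ∀ Q : Ideal (𝓞 M), Q.IsPrime → Q.LiesOver P.asIdeal →
      Q.ramificationIdx (𝓞 K) = 1 ∧ Q.inertiaDeg (𝓞 K) = 1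

variable {K M}

theorem primeUnder_eq_iff (Q : HeightOneSpectrum (𝓞 M)) (P : HeightOneSpectrum (𝓞 K)) :
    primeUnder K M Q = P ↔ Q.asIdeal.LiesOver P.asIdeal := by
  constructor
  · rintro rfl
    infer_instance
  · intro h
    exact HeightOneSpectrum.ext (h.over).symm

omit [NumberField K] [NumberField M] in
/-- A prime ideal of `𝓞 M` lying over a nonzero prime of `𝓞 K` is nonzero. -/
theorem ne_bot_of_liesOver (P : HeightOneSpectrum (𝓞 K)) (Q : Ideal (𝓞 M))
    [hQ : Q.LiesOver P.asIdeal] : Q ≠ ⊥ := by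
  rintro rfl
  apply P.ne_bot
  rw [hQ.over, Ideal.under_bot]

/-- A prime of `𝓞 M` over `P`, as an element of the height one spectrum. -/
noncomputable def primeOfLiesOver (P : HeightOneSpectrum (𝓞 K)) (Q : Ideal (𝓞 M))
    [hQ : Q.IsPrime] [Q.LiesOver P.asIdeal] : HeightOneSpectrum (𝓞 M) :=
  ⟨Q, hQ, ne_bot_of_liesOver P Q⟩

@[simp] theorem primeOfLiesOver_asIdeal (P : HeightOneSpectrum (𝓞 K)) (Q : Ideal (𝓞 M))
    [Q.IsPrime] [Q.LiesOver P.asIdeal] : (primeOfLiesOver P Q).asIdeal = Q := rfl

theorem primeUnder_primeOfLiesOver (P : HeightOneSpectrum (𝓞 K)) (Q : Ideal (𝓞 M))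
    [Q.IsPrime] [hQ : Q.LiesOver P.asIdeal] : primeUnder K M (primeOfLiesOver P Q) = P :=
  (primeUnder_eq_iff _ _).mpr hQ

/-- The primes of `M` with `primeUnder = P` are the primes of `𝓞 M` over `P`. -/
noncomputable def fibreEquivPrimesOver (P : HeightOneSpectrum (𝓞 K)) :
    {Q : HeightOneSpectrum (𝓞 M) // primeUnder K M Q = P} ≃ P.asIdeal.primesOver (𝓞 M) where
  toFun Q := ⟨Q.1.asIdeal, Q.1.isPrime, (primeUnder_eq_iff _ _).mp Q.2⟩
  invFun Q :=
    haveI := Q.2.1
    haveI := Q.2.2
    ⟨primeOfLiesOver P Q.1, primeUnder_primeOfLiesOver P Q.1⟩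
  left_inv Q := by
    apply Subtype.ext
    apply HeightOneSpectrum.ext
    rfl
  right_inv Q := rfl

theorem card_fibre_eq_ncard (P : HeightOneSpectrum (𝓞 K)) :
    Nat.card {Q : HeightOneSpectrum (𝓞 M) // primeUnder K M Q = P} =
      (P.asIdeal.primesOver (𝓞 M)).ncard := by
  rw [Nat.card_congr (fibreEquivPrimesOver P), Nat.card_coe_set_eq]

/-- There is a prime of `M` above every prime of `K`. -/
theorem exists_primeUnder_eq (P : HeightOneSpectrum (𝓞 K)) :
    ∃ Q : HeightOneSpectrum (𝓞 M), primeUnder K M Q = P := by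
  obtain ⟨⟨Q, hQ, hQ'⟩⟩ := (inferInstance : Nonempty (P.asIdeal.primesOver (𝓞 M)))
  exact ⟨primeOfLiesOver P Q, primeUnder_primeOfLiesOver P Q⟩

end Defs

section Norms

variable {K M : Type*} [Field K] [NumberField K] [Field M] [NumberField M] [Algebra K M]

/-- `N(Q) = N(Q ∩ K) ^ f(Q/K)`. -/
theorem absNorm_eq_pow_inertiaDeg (Q : HeightOneSpectrum (𝓞 M)) :
    Ideal.absNorm Q.asIdeal =
      Ideal.absNorm (primeUnder K M Q).asIdeal ^ Q.asIdeal.inertiaDeg (𝓞 K) :=
  (Ideal.absNorm_pow_inertiaDeg (primeUnder K M Q).asIdeal Q.asIdeal).symm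

/-- A prime of `M` of absolute degree one lies over a prime of `K` of the same norm. -/
theorem absNorm_primeUnder_of_prime (Q : HeightOneSpectrum (𝓞 M))
    (hQ : (Ideal.absNorm Q.asIdeal).Prime) :
    Ideal.absNorm (primeUnder K M Q).asIdeal = Ideal.absNorm Q.asIdeal :=
  ((hQ.pow_eq_iff).mp (absNorm_eq_pow_inertiaDeg (K := K) Q).symm).1

/-- A prime of `M` of absolute degree one has residue degree one over `K`. -/
theorem inertiaDeg_eq_one_of_prime (Q : HeightOneSpectrum (𝓞 M))
    (hQ : (Ideal.absNorm Q.asIdeal).Prime) : Q.asIdeal.inertiaDeg (𝓞 K) = 1 :=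
  ((hQ.pow_eq_iff).mp (absNorm_eq_pow_inertiaDeg (K := K) Q).symm).2

/-- A prime of `M` of absolute degree one lies over a prime of `K` of absolute degree one. -/
theorem prime_absNorm_primeUnder (Q : HeightOneSpectrum (𝓞 M))
    (hQ : (Ideal.absNorm Q.asIdeal).Prime) :
    (Ideal.absNorm (primeUnder K M Q).asIdeal).Prime := by
  rw [absNorm_primeUnder_of_prime Q hQ]
  exact hQ

/-- Residue degree one means equal norms. -/
theorem inertiaDeg_eq_one_iff_absNorm_eq (Q : HeightOneSpectrum (𝓞 M)) :
    Q.asIdeal.inertiaDeg (𝓞 K) = 1 ↔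
      Ideal.absNorm Q.asIdeal = Ideal.absNorm (primeUnder K M Q).asIdeal := by
  have h1 : 1 < Ideal.absNorm (primeUnder K M Q).asIdeal := by
    have h0 : Ideal.absNorm (primeUnder K M Q).asIdeal ≠ 0 :=
      Ideal.absNorm_eq_zero_iff.not.mpr (primeUnder K M Q).ne_bot
    have h1 : Ideal.absNorm (primeUnder K M Q).asIdeal ≠ 1 :=
      Ideal.absNorm_eq_one_iff.not.mpr (primeUnder K M Q).isPrime.ne_top
    omega
  rw [absNorm_eq_pow_inertiaDeg (K := K) Q]
  constructor
  · intro h
    rw [h, pow_one]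
  · intro h
    exact Nat.pow_right_injective h1 (by simpa using h)

/-- Residue degree one in cardinality form. -/
theorem inertiaDeg_eq_one_iff_card_quot_eq (Q : HeightOneSpectrum (𝓞 M)) :
    Q.asIdeal.inertiaDeg (𝓞 K) = 1 ↔
      Nat.card (𝓞 M ⧸ Q.asIdeal) = Nat.card (𝓞 K ⧸ Q.asIdeal.under (𝓞 K)) := by
  rw [inertiaDeg_eq_one_iff_absNorm_eq, Ideal.absNorm_apply, Ideal.absNorm_apply,
    Submodule.cardQuot_apply, Submodule.cardQuot_apply]
  rfl

end Norms

section Split

variable {K M : Type*} [Field K] [NumberField K] [Field M] [NumberField M] [Algebra K M]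

/-- All primes of `M` above a split prime have the same norm as the prime below. -/
theorem IsSplit.absNorm_eq {P : HeightOneSpectrum (𝓞 K)} (h : IsSplit K M P)
    (Q : HeightOneSpectrum (𝓞 M)) (hQ : primeUnder K M Q = P) :
    Ideal.absNorm Q.asIdeal = Ideal.absNorm P.asIdeal := by
  subst hQ
  exact (inertiaDeg_eq_one_iff_absNorm_eq Q).mp (h.2 Q.asIdeal Q.isPrime inferInstance).2

/-- All primes of `M` above a split prime are of absolute degree one. -/
theorem IsSplit.prime_absNorm {P : HeightOneSpectrum (𝓞 K)} (h : IsSplit K M P)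
    (Q : HeightOneSpectrum (𝓞 M)) (hQ : primeUnder K M Q = P) :
    (Ideal.absNorm Q.asIdeal).Prime := by
  rw [h.absNorm_eq Q hQ]
  exact h.1

/-- All primes of `M` above a split prime are unramified over `K`. -/
theorem IsSplit.ramificationIdx_eq_one {P : HeightOneSpectrum (𝓞 K)} (h : IsSplit K M P)
    (Q : HeightOneSpectrum (𝓞 M)) (hQ : primeUnder K M Q = P) :
    Q.asIdeal.ramificationIdx (𝓞 K) = 1 := by
  subst hQ
  exact (h.2 Q.asIdeal Q.isPrime inferInstance).1

/-- All primes of `M` above a split prime have residue degree one over `K`. -/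
theorem IsSplit.inertiaDeg_eq_one {P : HeightOneSpectrum (𝓞 K)} (h : IsSplit K M P)
    (Q : HeightOneSpectrum (𝓞 M)) (hQ : primeUnder K M Q = P) :
    Q.asIdeal.inertiaDeg (𝓞 K) = 1 := by
  subst hQ
  exact (h.2 Q.asIdeal Q.isPrime inferInstance).2

variable [IsGalois K M]

/-- For a Galois extension, one prime above `P` decides whether `P` splits. -/
theorem isSplit_iff_of_isGalois (P : HeightOneSpectrum (𝓞 K)) (Q : Ideal (𝓞 M)) [Q.IsPrime]
    [Q.LiesOver P.asIdeal] :
    IsSplit K M P ↔ (Ideal.absNorm P.asIdeal).Prime ∧ Q.ramificationIdx (𝓞 K) = 1 ∧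
      Q.inertiaDeg (𝓞 K) = 1 := by
  constructor
  · intro h
    exact ⟨h.1, h.2 Q inferInstance inferInstance⟩
  · rintro ⟨h1, h2, h3⟩
    refine ⟨h1, fun Q' hQ' hQ'' => ?_⟩
    rw [Ideal.ramificationIdx_eq_of_isGaloisGroup P.asIdeal Q' Q Gal(M/K),
      Ideal.inertiaDeg_eq_of_isGaloisGroup P.asIdeal Q' Q Gal(M/K)]
    exact ⟨h2, h3⟩

/-- A prime of `M` of absolute degree one, unramified over `K`, lies over a split prime. -/
theorem isSplit_primeUnder (Q : HeightOneSpectrum (𝓞 M))
    (hQ : (Ideal.absNorm Q.asIdeal).Prime) (he : Q.asIdeal.ramificationIdx (𝓞 K) = 1) :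
    IsSplit K M (primeUnder K M Q) :=
  (isSplit_iff_of_isGalois _ Q.asIdeal).mpr
    ⟨prime_absNorm_primeUnder Q hQ, he, inertiaDeg_eq_one_of_prime Q hQ⟩

/-- **Fibre count**: a split prime of `K` has exactly `[M:K]` primes of `M` above it. -/
theorem card_fibre_of_isSplit {P : HeightOneSpectrum (𝓞 K)} (h : IsSplit K M P) :
    Nat.card {Q : HeightOneSpectrum (𝓞 M) // primeUnder K M Q = P} = Module.finrank K M := by
  rw [card_fibre_eq_ncard, ← IsGalois.card_aut_eq_finrank K M,
    ← Ideal.ncard_primesOver_mul_ramificationIdxIn_mul_inertiaDegIn P.asIdeal (𝓞 M) Gal(M/K)]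
  obtain ⟨Q, hQ⟩ := exists_primeUnder_eq (M := M) P
  have : Q.asIdeal.LiesOver P.asIdeal := (primeUnder_eq_iff _ _).mp hQ
  rw [Ideal.ramificationIdxIn_eq_ramificationIdx P.asIdeal Q.asIdeal Gal(M/K),
    Ideal.inertiaDegIn_eq_inertiaDeg P.asIdeal Q.asIdeal Gal(M/K),
    h.ramificationIdx_eq_one Q hQ, h.inertiaDeg_eq_one Q hQ, mul_one, mul_one]

end Split

section Finite

variable (K M : Type*) [Field K] [NumberField K] [Field M] [NumberField M] [Algebra K M]

attribute [local instance] FractionRing.liftAlgebra in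
/-- Only finitely many primes of `M` are ramified over `K`. -/
theorem finite_ramified_above :
    {Q : HeightOneSpectrum (𝓞 M) | Q.asIdeal.ramificationIdx (𝓞 K) ≠ 1}.Finite := by
  have hne : differentIdeal (𝓞 K) (𝓞 M) ≠ 0 := differentIdeal_ne_bot
  refine (Ideal.finite_factors hne).subset ?_
  intro Q hQ
  rw [Set.mem_ofPred_eq] at hQ ⊢
  rw [dvd_differentIdeal_iff]
  intro hun
  exact hQ (Ideal.ramificationIdx_eq_one Q.asIdeal (𝓞 K))

/-- Only finitely many primes of `K` are ramified in `M`. -/
theorem finite_ramified_below :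
    {P : HeightOneSpectrum (𝓞 K) | ∃ Q : HeightOneSpectrum (𝓞 M),
      primeUnder K M Q = P ∧ Q.asIdeal.ramificationIdx (𝓞 K) ≠ 1}.Finite := by
  refine ((finite_ramified_above K M).image (primeUnder K M)).subset ?_
  rintro P ⟨Q, hQ, he⟩
  exact ⟨Q, he, hQ⟩

end Finite

section Sums

variable (K M : Type*) [Field K] [NumberField K] [Field M] [NumberField M] [Algebra K M]

/-- Primes of `M` of absolute degree one which are unramified over `K`. -/
def IsDegOneUnram (Q : HeightOneSpectrum (𝓞 M)) : Prop :=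
  (Ideal.absNorm Q.asIdeal).Prime ∧ Q.asIdeal.ramificationIdx (𝓞 K) = 1

theorem setOf_isDegOneUnram_eq :
    {Q : HeightOneSpectrum (𝓞 M) | IsDegOneUnram K M Q} =
      {Q : HeightOneSpectrum (𝓞 M) | (Ideal.absNorm Q.asIdeal).Prime} \
        {Q : HeightOneSpectrum (𝓞 M) | Q.asIdeal.ramificationIdx (𝓞 K) ≠ 1} := by
  ext Q
  simp [IsDegOneUnram]

variable [IsGalois K M]

/-- The split prime below a prime of `M` of degree one, unramified over `K`. -/
noncomputable def splitBelow (Q : {Q : HeightOneSpectrum (𝓞 M) // IsDegOneUnram K M Q}) :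
    {P : HeightOneSpectrum (𝓞 K) // IsSplit K M P} :=
  ⟨primeUnder K M Q.1, isSplit_primeUnder Q.1 Q.2.1 Q.2.2⟩

@[simp] theorem splitBelow_coe (Q : {Q : HeightOneSpectrum (𝓞 M) // IsDegOneUnram K M Q}) :
    (splitBelow K M Q).1 = primeUnder K M Q.1 := rfl

/-- The fibres of `splitBelow` are the full fibres of `primeUnder`. -/
noncomputable def splitBelowFibreEquiv (P : {P : HeightOneSpectrum (𝓞 K) // IsSplit K M P}) :
    {Q : {Q : HeightOneSpectrum (𝓞 M) // IsDegOneUnram K M Q} // splitBelow K M Q = P} ≃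
      {Q : HeightOneSpectrum (𝓞 M) // primeUnder K M Q = P.1} where
  toFun Q := ⟨Q.1.1, congrArg Subtype.val Q.2⟩
  invFun Q := ⟨⟨Q.1, P.2.prime_absNorm Q.1 Q.2, P.2.ramificationIdx_eq_one Q.1 Q.2⟩,
    Subtype.ext Q.2⟩
  left_inv _ := rfl
  right_inv _ := rfl

theorem card_splitBelow_fibre (P : {P : HeightOneSpectrum (𝓞 K) // IsSplit K M P}) :
    Nat.card {Q : {Q : HeightOneSpectrum (𝓞 M) // IsDegOneUnram K M Q} //
      splitBelow K M Q = P} = Module.finrank K M := by
  rw [Nat.card_congr (splitBelowFibreEquiv K M P), card_fibre_of_isSplit P.2]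

/-- **Reindexing** (summability): sums over degree-one unramified primes of `M` versus sums
over split primes of `K`. -/
theorem summable_degOneUnram_iff (g : HeightOneSpectrum (𝓞 K) → ℝ) :
    Summable (fun Q : {Q : HeightOneSpectrum (𝓞 M) // IsDegOneUnram K M Q} =>
      g (primeUnder K M Q.1)) ↔
    Summable (fun P : {P : HeightOneSpectrum (𝓞 K) // IsSplit K M P} => g P.1) :=
  summable_comp_iff_of_card_fibre (splitBelow K M) (Module.finrank K M) Module.finrank_pos
    (card_splitBelow_fibre K M) (fun P => g P.1)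

/-- **Reindexing**: a sum over degree-one unramified primes of `M` of a function of the prime
below is `[M:K]` times the sum over the split primes of `K`. -/
theorem tsum_degOneUnram_eq (g : HeightOneSpectrum (𝓞 K) → ℝ) :
    ∑' Q : {Q : HeightOneSpectrum (𝓞 M) // IsDegOneUnram K M Q}, g (primeUnder K M Q.1) =
      (Module.finrank K M : ℝ) *
        ∑' P : {P : HeightOneSpectrum (𝓞 K) // IsSplit K M P}, g P.1 :=
  tsum_comp_of_card_fibre (splitBelow K M) (Module.finrank K M) Module.finrank_pos
    (card_splitBelow_fibre K M) (fun P => g P.1)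

/-- Norm form of the reindexing (summability). -/
theorem summable_absNorm_degOneUnram_iff (f : ℕ → ℝ) :
    Summable (fun Q : {Q : HeightOneSpectrum (𝓞 M) // IsDegOneUnram K M Q} =>
      f (Ideal.absNorm Q.1.asIdeal)) ↔
    Summable (fun P : {P : HeightOneSpectrum (𝓞 K) // IsSplit K M P} =>
      f (Ideal.absNorm P.1.asIdeal)) := by
  rw [← summable_degOneUnram_iff K M (fun P => f (Ideal.absNorm P.asIdeal))]
  refine summable_congr fun Q => ?_
  rw [absNorm_primeUnder_of_prime Q.1 Q.2.1]

/-- Norm form of the reindexing. -/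
theorem tsum_absNorm_degOneUnram_eq (f : ℕ → ℝ) :
    ∑' Q : {Q : HeightOneSpectrum (𝓞 M) // IsDegOneUnram K M Q},
        f (Ideal.absNorm Q.1.asIdeal) =
      (Module.finrank K M : ℝ) *
        ∑' P : {P : HeightOneSpectrum (𝓞 K) // IsSplit K M P}, f (Ideal.absNorm P.1.asIdeal) := by
  rw [← tsum_degOneUnram_eq K M (fun P => f (Ideal.absNorm P.asIdeal))]
  refine tsum_congr fun Q => ?_
  rw [absNorm_primeUnder_of_prime Q.1 Q.2.1]

/-- Indicator form of the reindexing: the shape produced by the degree-one estimate. -/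
theorem tsum_indicator_degOneUnram_eq (f : ℕ → ℝ) :
    ∑' Q : HeightOneSpectrum (𝓞 M),
        ({Q : HeightOneSpectrum (𝓞 M) | (Ideal.absNorm Q.asIdeal).Prime} \
          {Q : HeightOneSpectrum (𝓞 M) | Q.asIdeal.ramificationIdx (𝓞 K) ≠ 1}).indicator
            (fun Q => f (Ideal.absNorm Q.asIdeal)) Q =
      (Module.finrank K M : ℝ) *
        ∑' P : HeightOneSpectrum (𝓞 K),
          {P : HeightOneSpectrum (𝓞 K) | IsSplit K M P}.indicator
            (fun P => f (Ideal.absNorm P.asIdeal)) P := by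
  rw [← setOf_isDegOneUnram_eq K M, ← tsum_subtype, ← tsum_subtype]
  exact tsum_absNorm_degOneUnram_eq K M f

end Sums

section Tower

variable {K F L : Type*} [Field K] [NumberField K] [Field F] [NumberField F] [Field L]
  [NumberField L] [Algebra K F] [Algebra F L] [Algebra K L] [IsScalarTower K F L]

theorem primeUnder_primeUnder (Q : HeightOneSpectrum (𝓞 L)) :
    primeUnder K F (primeUnder F L Q) = primeUnder K L Q := by
  apply HeightOneSpectrum.ext
  simp only [primeUnder_asIdeal]
  exact Ideal.under_under (A := 𝓞 K) (B := 𝓞 F) Q.asIdeal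

/-- Unramified over `K` in `L` implies unramified over `K` in the intermediate field. -/
theorem ramificationIdx_under_eq_one (Q : Ideal (𝓞 L)) [Q.IsPrime]
    (h : Q.ramificationIdx (𝓞 K) = 1) : (Q.under (𝓞 F)).ramificationIdx (𝓞 K) = 1 := by
  have := Ideal.ramificationIdx_tower (R := 𝓞 K) (Q.under (𝓞 F)) Q
  rw [h] at this
  exact Nat.eq_one_of_mul_eq_one_right this.symm

/-- Residue degree one over `K` in `L` implies residue degree one in the intermediate field. -/
theorem inertiaDeg_under_eq_one (Q : Ideal (𝓞 L)) [Q.IsPrime]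
    (h : Q.inertiaDeg (𝓞 K) = 1) : (Q.under (𝓞 F)).inertiaDeg (𝓞 K) = 1 := by
  have := Ideal.inertiaDeg_tower (R := 𝓞 K) (Q.under (𝓞 F)) Q
  rw [h] at this
  exact Nat.eq_one_of_mul_eq_one_right this.symm

/-- A prime of `K` which splits in `L` splits in every intermediate field. -/
theorem IsSplit.of_tower {P : HeightOneSpectrum (𝓞 K)} (h : IsSplit K L P) : IsSplit K F P := by
  refine ⟨h.1, fun QF hQF hQFP => ?_⟩
  obtain ⟨⟨QL, hQL, hQL'⟩⟩ := (inferInstance : Nonempty (QF.primesOver (𝓞 L)))
  have hover : QL.LiesOver P.asIdeal := Ideal.LiesOver.trans QL QF P.asIdeal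
  obtain ⟨he, hf⟩ := h.2 QL hQL hover
  have hQF' : QF = QL.under (𝓞 F) := hQL'.over
  rw [hQF']
  exact ⟨ramificationIdx_under_eq_one QL he, inertiaDeg_under_eq_one QL hf⟩

end Tower

section Inertia

variable {K L : Type*} [Field K] [NumberField K] [Field L] [NumberField L] [Algebra K L]
  [IsGalois K L]

/-- For a Galois extension, trivial inertia group means ramification index one. -/
theorem inertia_eq_bot_iff_ramificationIdx_eq_one (Q : HeightOneSpectrum (𝓞 L)) :
    Q.asIdeal.inertia Gal(L/K) = ⊥ ↔ Q.asIdeal.ramificationIdx (𝓞 K) = 1 := by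
  rw [Subgroup.eq_bot_iff_card,
    Ideal.card_inertia_eq_ramificationIdxIn (G := Gal(L/K)) (primeUnder K L Q).asIdeal Q.asIdeal,
    Ideal.ramificationIdxIn_eq_ramificationIdx (primeUnder K L Q).asIdeal Q.asIdeal Gal(L/K)]

end Inertia

end Fermat.Agent.Cheb
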