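import Fermat.Agent.Cheb.CyclicGenNF
import Fermat.Agent.Cheb.SplitFibre
import Fermat.Agent.Cheb.Deuring
import Fermat.Agent.S14.FrobBasic

/-!
# Chebotarev track, node Z4: final assembly towards `CyclicGenFrob`

* `finite_not_unramIn` : only finitely many primes of `K` ramify in a Galois extension `L`
  (trivial-inertia form), from `SplitFibre.finite_ramified_below`;
* `finite_absNorm_mem` : finitely many primes of `K` have norm in a given finite set;
* `cyclicGenFrob_of` : node Z3 (density of the completely split primes) and node Z4b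
  (splitting in an intermediate field ⇔ the Frobenius fixes it) imply `CyclicGenFrob`, the input of
  the Deuring reduction `chebGen_of_cyclicGenFrob`.
-/

set_option autoImplicit false

open IsDedekindDomain NumberField

namespace Fermat.Agent.Cheb

open Dens

open scoped IsMulCommutative

section Finiteness

variable (K L : Type*) [Field K] [NumberField K] [Field L] [NumberField L] [Algebra K L]

/-- Only finitely many primes of `K` ramify in the Galois extension `L` (inertia form). -/
theorem finite_not_unramIn [IsGalois K L] :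
    {v : HeightOneSpectrum (𝓞 K) | ¬ UnramIn K L v}.Finite := by
  refine (finite_ramified_below K L).subset ?_
  intro v hv
  rw [Set.mem_ofPred_eq] at hv
  unfold UnramIn at hv
  push Not at hv
  obtain ⟨Q, hQp, hQv, hQ⟩ := hv
  have := hQp
  have := hQv
  refine ⟨primeOfLiesOver v Q, primeUnder_primeOfLiesOver v Q, ?_⟩
  intro he
  exact hQ ((inertia_eq_bot_iff_ramificationIdx_eq_one (K := K) (primeOfLiesOver v Q)).mpr he)

/-- Finitely many primes of `K` have absolute norm in a given finite set. -/
theorem finite_absNorm_mem (T : Finset ℕ) :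
    {v : HeightOneSpectrum (𝓞 K) | Ideal.absNorm v.asIdeal ∈ T}.Finite := by
  have hfin : (⋃ n ∈ T, {I : Ideal (𝓞 K) | Ideal.absNorm I = n}).Finite :=
    Set.Finite.biUnion T.finite_toSet fun n _ => Ideal.finite_setOfPred_absNorm_eq n
  refine (hfin.preimage (f := fun v : HeightOneSpectrum (𝓞 K) => v.asIdeal)
    (fun v _ w _ h => HeightOneSpectrum.ext h)).subset ?_
  intro v hv
  simp only [Set.mem_preimage, Set.mem_iUnion, Set.mem_ofPred_eq, exists_prop]
  exact ⟨_, hv, rfl⟩

end Finiteness

/-- The shape of node Z3 consumed by the final assembly. -/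
def SplitDensityStatement : Prop :=
  ∀ (K M : Type) [Field K] [NumberField K] [Field M] [NumberField M] [Algebra K M]
    [IsGalois K M],
    HasLogDensity (primeTerm K) (splSet K M) (1 / (Module.finrank K M : ℝ))

/-- The shape of node Z4b consumed by the final assembly. -/
def SplitFrobStatement : Prop :=
  ∀ (K L : Type) [Field K] [NumberField K] [Field L] [NumberField L] [Algebra K L]
    [IsGalois K L] [IsMulCommutative Gal(L/K)] (E : IntermediateField K L),
    ∀ v ∈ goodSet K L, (v ∈ splSet K E ↔ S14.frob K L v.asIdeal ∈ E.fixingSubgroup)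

/-- **Node Z4, final form**: Z3 and Z4b imply the input `CyclicGenFrob` of the Deuring
reduction. -/
theorem cyclicGenFrob_of (hZ3 : SplitDensityStatement) (hZ4b : SplitFrobStatement) :
    CyclicGenFrob := by
  intro K L _ _ _ _ _ _ _ T
  have hab : IsAbelianGalois K L := { }
  obtain ⟨v, hv, hvT⟩ := exists_mem_genSet_notMem_of K L
    (fun E => hZ3 K E) (fun E => hZ4b K L E) (finite_not_unramIn K L) (finite_absNorm_mem K T)
  obtain ⟨⟨hdeg, _hunr⟩, hgen⟩ := hv
  have hv0 : v.asIdeal ≠ ⊥ := v.ne_bot
  have : v.asIdeal.IsPrime := v.isPrime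
  have hunder : (S14.primeOver K L v.asIdeal).under (𝓞 K) = v.asIdeal :=
    ((S14.primeOver_liesOver K L v.asIdeal).over).symm
  have hcard : Nat.card (𝓞 K ⧸ (S14.primeOver K L v.asIdeal).under (𝓞 K)) =
      Ideal.absNorm v.asIdeal := by
    rw [hunder, Ideal.absNorm_apply, Submodule.cardQuot_apply]
  refine ⟨S14.primeOver K L v.asIdeal, S14.frob K L v.asIdeal, inferInstance, ?_, ?_, ?_, hgen⟩
  · rw [hcard]; exact hdeg
  · rw [hcard]; exact hvT
  · exact S14.frob_spec K L v.asIdeal hv0

/-- **Chebotarev, generator form**, from Z3 and Z4b. -/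
theorem chebGen_of (hZ3 : SplitDensityStatement) (hZ4b : SplitFrobStatement) : ChebGen :=
  chebGen_of_cyclicGenFrob (cyclicGenFrob_of hZ3 hZ4b)

end Fermat.Agent.Cheb
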