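import Mathlib

/-!
# Abstract "logarithmic density" calculus (Chebotarev track, node Z4 support)

`P` is an arbitrary index type (later: the nonzero primes of a number field) and
`w : ℝ → P → ℝ` a family of weights (later: `w s p = N(p) ^ (-s)`), nonnegative, bounded by `1`
and summable for `1 < s ≤ 2`.

* `setSum w S s = ∑' p, S.indicator (w s) p`;
* `HasLogDensity w S δ` : `setSum w S s = δ * log (1 / (s - 1)) + O(1)` on `(1, 2]`.

Main results: finite sets have density `0`; the density does not change under a finite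
modification; finite real linear combinations of indicator functions; a set of positive density
is infinite and meets the complement of every finite set.
-/

set_option autoImplicit false

namespace Fermat.Agent.Cheb.Dens

variable {P : Type*}

/-- The sum of the weights `w s` over the set `S`. -/
noncomputable def setSum (w : ℝ → P → ℝ) (S : Set P) (s : ℝ) : ℝ :=
  ∑' p, S.indicator (w s) p

/-- Admissible weights on the interval `(1, 2]`. -/
structure IsWeight (w : ℝ → P → ℝ) : Prop where
  nonneg : ∀ s : ℝ, 1 < s → s ≤ 2 → ∀ p, 0 ≤ w s p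
  le_one : ∀ s : ℝ, 1 < s → s ≤ 2 → ∀ p, w s p ≤ 1
  summable : ∀ s : ℝ, 1 < s → s ≤ 2 → Summable (w s)

/-- `S` has logarithmic density `δ` with respect to the weights `w`:
`∑_{p ∈ S} w s p = δ log (1/(s-1)) + O(1)` for `1 < s ≤ 2`. -/
def HasLogDensity (w : ℝ → P → ℝ) (S : Set P) (δ : ℝ) : Prop :=
  ∃ C : ℝ, ∀ s : ℝ, 1 < s → s ≤ 2 → |setSum w S s - δ * Real.log (1 / (s - 1))| ≤ C

variable {w : ℝ → P → ℝ}

theorem IsWeight.summable_indicator (hw : IsWeight w) (S : Set P) {s : ℝ} (h1 : 1 < s)
    (h2 : s ≤ 2) : Summable (S.indicator (w s)) :=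
  (hw.summable s h1 h2).indicator S

theorem setSum_nonneg (hw : IsWeight w) (S : Set P) {s : ℝ} (h1 : 1 < s) (h2 : s ≤ 2) :
    0 ≤ setSum w S s :=
  tsum_nonneg fun p => Set.indicator_nonneg (fun q _ => hw.nonneg s h1 h2 q) p

theorem setSum_mono (hw : IsWeight w) {S T : Set P} (hST : S ⊆ T) {s : ℝ} (h1 : 1 < s)
    (h2 : s ≤ 2) : setSum w S s ≤ setSum w T s := by
  refine (hw.summable_indicator S h1 h2).tsum_le_tsum (fun p => ?_) (hw.summable_indicator T h1 h2)
  exact Set.indicator_le_indicator_of_subset hST (fun q => hw.nonneg s h1 h2 q) p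

theorem setSum_le_ncard (hw : IsWeight w) {T : Set P} (hT : T.Finite) {s : ℝ} (h1 : 1 < s)
    (h2 : s ≤ 2) : setSum w T s ≤ T.ncard := by
  classical
  have hsupp : ∀ p ∉ hT.toFinset, T.indicator (w s) p = 0 := by
    intro p hp
    rw [Set.Finite.mem_toFinset] at hp
    exact Set.indicator_of_notMem hp _
  rw [setSum, tsum_eq_sum hsupp, Set.ncard_eq_toFinset_card T hT]
  calc ∑ p ∈ hT.toFinset, T.indicator (w s) p ≤ ∑ _p ∈ hT.toFinset, (1 : ℝ) := by
        refine Finset.sum_le_sum fun p hp => ?_
        rw [Set.Finite.mem_toFinset] at hp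
        rw [Set.indicator_of_mem hp]
        exact hw.le_one s h1 h2 p
    _ = (hT.toFinset.card : ℝ) := by simp

/-- The basic linearity principle: if the indicator function of `S` is a finite real linear
combination of the indicator functions of sets `A i` with logarithmic densities `δ i`, then `S`
has the corresponding linear combination as logarithmic density. -/
theorem hasLogDensity_of_indicator_eq (hw : IsWeight w) {ι : Type*} (t : Finset ι)
    (A : ι → Set P) (c δ : ι → ℝ) (S : Set P)
    (hS : ∀ p, S.indicator (fun _ => (1 : ℝ)) p =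
      ∑ i ∈ t, c i * (A i).indicator (fun _ => (1 : ℝ)) p)
    (hA : ∀ i ∈ t, HasLogDensity w (A i) (δ i)) :
    HasLogDensity w S (∑ i ∈ t, c i * δ i) := by
  classical
  choose! C hC using hA
  refine ⟨∑ i ∈ t, |c i| * C i, fun s h1 h2 => ?_⟩
  have hpt : ∀ p, S.indicator (w s) p = ∑ i ∈ t, c i * (A i).indicator (w s) p := by
    intro p
    have h := hS p
    have e1 : S.indicator (w s) p = S.indicator (fun _ => (1 : ℝ)) p * w s p := by
      by_cases hp : p ∈ S <;> simp [hp]
    have e2 : ∀ i, (A i).indicator (w s) p = (A i).indicator (fun _ => (1 : ℝ)) p * w s p := by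
      intro i
      by_cases hp : p ∈ A i <;> simp [hp]
    rw [e1, h, Finset.sum_mul]
    refine Finset.sum_congr rfl fun i _ => ?_
    rw [e2 i, mul_assoc]
  have hsum : setSum w S s = ∑ i ∈ t, c i * setSum w (A i) s := by
    unfold setSum
    rw [tsum_congr hpt, Summable.tsum_finsetSum]
    · refine Finset.sum_congr rfl fun i _ => ?_
      rw [tsum_mul_left]
    · intro i _
      exact (hw.summable_indicator (A i) h1 h2).mul_left (c i)
  have hrw : setSum w S s - (∑ i ∈ t, c i * δ i) * Real.log (1 / (s - 1)) =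
      ∑ i ∈ t, c i * (setSum w (A i) s - δ i * Real.log (1 / (s - 1))) := by
    rw [hsum, Finset.sum_mul, ← Finset.sum_sub_distrib]
    refine Finset.sum_congr rfl fun i _ => ?_
    ring
  rw [hrw]
  refine (Finset.abs_sum_le_sum_abs _ _).trans (Finset.sum_le_sum fun i hi => ?_)
  rw [abs_mul]
  exact mul_le_mul_of_nonneg_left (hC i hi s h1 h2) (abs_nonneg _)

theorem hasLogDensity_of_finite (hw : IsWeight w) {T : Set P} (hT : T.Finite) :
    HasLogDensity w T 0 := by
  refine ⟨T.ncard, fun s h1 h2 => ?_⟩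
  rw [zero_mul, sub_zero, abs_of_nonneg (setSum_nonneg hw T h1 h2)]
  exact setSum_le_ncard hw hT h1 h2

/-- The density is not changed by a modification inside a finite set. -/
theorem HasLogDensity.congr_finite (hw : IsWeight w) {S S' T : Set P} {δ : ℝ} (hT : T.Finite)
    (h : ∀ p, p ∉ T → (p ∈ S ↔ p ∈ S')) (hS : HasLogDensity w S δ) : HasLogDensity w S' δ := by
  classical
  have key := hasLogDensity_of_indicator_eq hw (Finset.univ : Finset (Fin 3))
    (fun i => if i = 0 then S else if i = 1 then S' ∩ T else S ∩ T)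
    (fun i => if i = 0 then 1 else if i = 1 then 1 else -1)
    (fun i => if i = 0 then δ else 0) S' ?_ ?_
  · simpa [Fin.sum_univ_three] using key
  · intro p
    simp only [Fin.sum_univ_three]
    by_cases hpT : p ∈ T
    · by_cases hpS : p ∈ S <;> by_cases hpS' : p ∈ S' <;> simp [hpT, hpS, hpS']
    · have := h p hpT
      by_cases hpS : p ∈ S
      · have hpS' : p ∈ S' := this.mp hpS
        simp [hpT, hpS, hpS']
      · have hpS' : p ∉ S' := fun h' => hpS (this.mpr h')
        simp [hpT, hpS, hpS']
  · intro i _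
    fin_cases i
    · simpa using hS
    · simpa using hasLogDensity_of_finite hw (hT.subset Set.inter_subset_right)
    · simpa using hasLogDensity_of_finite hw (hT.subset Set.inter_subset_right)

theorem HasLogDensity.diff_finite (hw : IsWeight w) {S T : Set P} {δ : ℝ} (hT : T.Finite)
    (hS : HasLogDensity w S δ) : HasLogDensity w (S \ T) δ :=
  hS.congr_finite hw hT fun p hp => by simp [hp]

theorem HasLogDensity.inter_of_finite_diff (hw : IsWeight w) {S U : Set P} {δ : ℝ}
    (hU : (S \ U).Finite) (hS : HasLogDensity w S δ) : HasLogDensity w (S ∩ U) δ :=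
  hS.congr_finite hw hU fun p hp => by
    simp only [Set.mem_sdiff, not_and, not_not] at hp
    exact ⟨fun h => ⟨h, hp h⟩, fun h => h.1⟩

/-- `log (1/(s-1))` is unbounded on `(1, 2]`. -/
theorem exists_log_gt (B : ℝ) : ∃ s : ℝ, 1 < s ∧ s ≤ 2 ∧ B < Real.log (1 / (s - 1)) := by
  refine ⟨1 + Real.exp (-(|B| + 1)), by linarith [Real.exp_pos (-(|B| + 1))], ?_, ?_⟩
  · have : Real.exp (-(|B| + 1)) ≤ 1 := by
      rw [Real.exp_le_one_iff]
      linarith [abs_nonneg B]
    linarith
  · rw [add_sub_cancel_left, one_div, ← Real.exp_neg, Real.log_exp, neg_neg]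
    linarith [le_abs_self B]

/-- A set of positive logarithmic density is infinite. -/
theorem HasLogDensity.infinite (hw : IsWeight w) {S : Set P} {δ : ℝ} (hδ : 0 < δ)
    (hS : HasLogDensity w S δ) : S.Infinite := by
  intro hfin
  obtain ⟨C, hC⟩ := hS
  obtain ⟨s, h1, h2, hs⟩ := exists_log_gt ((C + S.ncard) / δ)
  have hb := hC s h1 h2
  have hle := setSum_le_ncard hw hfin h1 h2
  have hlt : C + S.ncard < δ * Real.log (1 / (s - 1)) := by
    rw [div_lt_iff₀ hδ] at hs
    linarith
  have := (abs_le.mp hb).1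
  linarith

/-- A set of positive logarithmic density meets the complement of every finite set. -/
theorem HasLogDensity.exists_notMem (hw : IsWeight w) {S : Set P} {δ : ℝ} (hδ : 0 < δ)
    (hS : HasLogDensity w S δ) {T : Set P} (hT : T.Finite) : ∃ p, p ∈ S ∧ p ∉ T := by
  have hinf := (hS.diff_finite hw hT).infinite hw hδ
  obtain ⟨p, hp⟩ := hinf.nonempty
  exact ⟨p, hp.1, hp.2⟩

/-- Uniqueness of the logarithmic density. -/
theorem HasLogDensity.unique {S : Set P} {δ δ' : ℝ} (h : HasLogDensity w S δ)
    (h' : HasLogDensity w S δ') : δ = δ' := by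
  obtain ⟨C, hC⟩ := h
  obtain ⟨C', hC'⟩ := h'
  by_contra hne
  have hpos : 0 < |δ - δ'| := abs_pos.mpr (sub_ne_zero.mpr hne)
  obtain ⟨s, h1, h2, hs⟩ := exists_log_gt ((C + C') / |δ - δ'|)
  have hb := hC s h1 h2
  have hb' := hC' s h1 h2
  rw [div_lt_iff₀ hpos] at hs
  have hL : 0 ≤ Real.log (1 / (s - 1)) := by
    apply Real.log_nonneg
    rw [le_div_iff₀ (by linarith)]
    linarith
  have : |δ - δ'| * Real.log (1 / (s - 1)) ≤ C + C' := by
    rw [← abs_of_nonneg hL, ← abs_mul]
    have e : (δ - δ') * Real.log (1 / (s - 1)) =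
        (setSum w S s - δ' * Real.log (1 / (s - 1))) -
          (setSum w S s - δ * Real.log (1 / (s - 1))) := by ring
    rw [e]
    exact (abs_sub _ _).trans (by linarith)
  linarith [mul_comm (Real.log (1 / (s - 1))) |δ - δ'|]

end Fermat.Agent.Cheb.Dens
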