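import Mathlib
import Fermat.Agent.S14.EulerProduct
import Fermat.Agent.S14.SecondGlue

/-!
# Chebotarev (generator form), node Z1: the prime zeta sum of a number field

For a number field `K` and real `s > 1` let `primeSum K s = ∑_𝔭 N(𝔭)^(-s)` (sum over the nonzero
prime ideals of `𝓞 K`).  From the Euler product of the Dedekind zeta function
(`Fermat.Agent.S14.ideal_eulerProduct_hasProd`) and its simple pole at `s = 1`
(`NumberField.tendsto_sub_one_mul_dedekindZeta_nhdsGT`) we get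

* `summable_primeTerm` : the prime sum converges for `s > 1`;
* `hasProd_zetaN` : `‖ζ_K(s)‖ = ∏_𝔭 (1 - N(𝔭)^(-s))⁻¹`;
* `log_zetaN_eq` : `log ‖ζ_K(s)‖ = ∑_𝔭 -log (1 - N(𝔭)^(-s))`;
* `abs_log_zetaN_sub_primeSum_le` : `|log ‖ζ_K(s)‖ - primeSum K s| ≤ 2 * primeSum K 2`;
* `exists_abs_log_zetaN_sub_log_le` : `log ‖ζ_K(s)‖ = log (1/(s-1)) + O(1)` on `(1, 2]`;
* `exists_primeSum_sub_log_le` : **`primeSum K s = log (1/(s-1)) + O(1)` on `(1, 2]`.**
-/

set_option autoImplicit false

open NumberField IsDedekindDomain Filter Topology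

namespace Fermat.Agent.Cheb

open Fermat.Agent.S14 Fermat.Agent.S14.Second

variable (K : Type*) [Field K] [NumberField K]

/-- The term `N(𝔭)^(-s)` of the prime zeta sum. -/
noncomputable def primeTerm (s : ℝ) (v : HeightOneSpectrum (𝓞 K)) : ℝ :=
  (Ideal.absNorm v.asIdeal : ℝ) ^ (-s)

theorem primeTerm_eq_nrm (s : ℝ) (v : HeightOneSpectrum (𝓞 K)) :
    primeTerm K s v = nrm K v ^ (-s) := rfl

theorem primeTerm_pos (s : ℝ) (v : HeightOneSpectrum (𝓞 K)) : 0 < primeTerm K s v :=
  xs_pos K v s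

theorem primeTerm_le_half {s : ℝ} (hs : 1 ≤ s) (v : HeightOneSpectrum (𝓞 K)) :
    primeTerm K s v ≤ 1 / 2 :=
  xs_le_half K v hs

theorem primeTerm_lt_one {s : ℝ} (hs : 1 ≤ s) (v : HeightOneSpectrum (𝓞 K)) :
    primeTerm K s v < 1 :=
  xs_lt_one K v hs

/-- `s ↦ N(𝔭)^(-s)` is decreasing. -/
theorem primeTerm_anti {s t : ℝ} (hst : s ≤ t) (v : HeightOneSpectrum (𝓞 K)) :
    primeTerm K t v ≤ primeTerm K s v := by
  unfold primeTerm
  have h1 : (1 : ℝ) ≤ (Ideal.absNorm v.asIdeal : ℝ) := by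
    have := two_le_nrm K v
    unfold nrm at this
    linarith
  exact Real.rpow_le_rpow_of_exponent_le h1 (by linarith)

/-- `N(𝔭)^(-s)² ≤ N(𝔭)^(-2)` for `s ≥ 1`. -/
theorem primeTerm_sq_le {s : ℝ} (hs : 1 ≤ s) (v : HeightOneSpectrum (𝓞 K)) :
    primeTerm K s v ^ 2 ≤ primeTerm K 2 v := by
  have h0 : (0 : ℝ) ≤ (Ideal.absNorm v.asIdeal : ℝ) := Nat.cast_nonneg _
  have h : primeTerm K s v ^ 2 = primeTerm K (2 * s) v := by
    unfold primeTerm
    rw [← Real.rpow_natCast, ← Real.rpow_mul h0]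
    congr 1
    push_cast
    ring
  rw [h]
  exact primeTerm_anti K (by linarith) v

/-- A nonzero prime ideal as a nonzero ideal. -/
noncomputable def primeToIdeal (v : HeightOneSpectrum (𝓞 K)) : nonZeroDivisors (Ideal (𝓞 K)) :=
  ⟨v.asIdeal, mem_nonZeroDivisors_of_ne_zero v.ne_bot⟩

theorem primeToIdeal_injective : Function.Injective (primeToIdeal K) := by
  intro v w hvw
  exact HeightOneSpectrum.ext (congrArg Subtype.val hvw)

/-- The prime zeta sum converges for `s > 1`. -/
theorem summable_primeTerm {s : ℝ} (hs : 1 < s) : Summable (primeTerm K s) := by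
  have h : Summable fun I : nonZeroDivisors (Ideal (𝓞 K)) =>
      ((Ideal.absNorm (I : Ideal (𝓞 K)) : ℝ)) ^ (-s) := summable_absNorm_rpow (F := K) hs
  have h2 := h.comp_injective (primeToIdeal_injective K)
  exact h2

/-- The prime zeta sum `∑_𝔭 N(𝔭)^(-s)`. -/
noncomputable def primeSum (s : ℝ) : ℝ := ∑' v : HeightOneSpectrum (𝓞 K), primeTerm K s v

theorem primeSum_nonneg (s : ℝ) : 0 ≤ primeSum K s :=
  tsum_nonneg fun v => (primeTerm_pos K s v).le

/-- The Dedekind zeta function at a real point, as a nonnegative real number. -/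
noncomputable def zetaN (s : ℝ) : ℝ := ‖dedekindZeta K s‖

/-- **Euler product** of the Dedekind zeta function at real `s > 1`. -/
theorem hasProd_zetaN {s : ℝ} (hs : 1 < s) :
    HasProd (fun v : HeightOneSpectrum (𝓞 K) => (1 - primeTerm K s v)⁻¹) (zetaN K s) :=
  hasProd_norm_dedekindZeta K (fun f hf => ideal_eulerProduct_hasProd f hf) hs

theorem one_le_zetaN {s : ℝ} (hs : 1 < s) : 1 ≤ zetaN K s :=
  one_le_of_hasProd (hasProd_zetaN K hs) fun v =>
    inv_one_sub_ge_one (primeTerm_pos K s v).le (primeTerm_lt_one K hs.le v)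

theorem zetaN_pos {s : ℝ} (hs : 1 < s) : 0 < zetaN K s :=
  lt_of_lt_of_le one_pos (one_le_zetaN K hs)

/-- `ζ_K` is decreasing on `(1, ∞)`. -/
theorem zetaN_anti {s t : ℝ} (hs : 1 < s) (hst : s ≤ t) : zetaN K t ≤ zetaN K s := by
  have ht : 1 < t := lt_of_lt_of_le hs hst
  refine le_of_tendsto_of_tendsto' (tendsto_of_hasProd (hasProd_zetaN K ht))
    (tendsto_of_hasProd (hasProd_zetaN K hs)) fun T => ?_
  refine Finset.prod_le_prod (fun v _ => ?_) (fun v _ => ?_)
  · have h2 := primeTerm_lt_one K ht.le v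
    exact (inv_pos.mpr (by linarith)).le
  · have h1 := primeTerm_anti K hst v
    have h2 := primeTerm_lt_one K hs.le v
    exact inv_anti₀ (by linarith) (by linarith)

/-- Elementary estimate: `|-log (1 - x) - x| ≤ 2 x²` for `0 ≤ x ≤ 1/2`. -/
theorem abs_neg_log_one_sub_sub_le {x : ℝ} (h0 : 0 ≤ x) (h1 : x ≤ 1 / 2) :
    |-Real.log (1 - x) - x| ≤ 2 * x ^ 2 := by
  have habs : |x| < 1 := by rw [abs_of_nonneg h0]; linarith
  have h := Real.abs_log_sub_add_sum_range_le habs 1
  simp only [Finset.range_one, Finset.sum_singleton, zero_add, pow_one, Nat.cast_zero,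
    div_one, abs_of_nonneg h0] at h
  have h2 : |-Real.log (1 - x) - x| = |x + Real.log (1 - x)| := by
    rw [← abs_neg]
    congr 1
    ring
  rw [h2]
  refine h.trans ?_
  rw [div_le_iff₀ (by linarith)]
  have hx2 : 0 ≤ x ^ 2 := sq_nonneg x
  have : x ^ (1 + 1) = x ^ 2 := by norm_num
  rw [this]
  nlinarith

/-- The logarithms of the Euler factors are summable. -/
theorem summable_neg_log_one_sub {s : ℝ} (hs : 1 < s) :
    Summable fun v : HeightOneSpectrum (𝓞 K) => -Real.log (1 - primeTerm K s v) := by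
  have h2 : Summable fun v : HeightOneSpectrum (𝓞 K) => 2 * primeTerm K s v :=
    (summable_primeTerm K hs).mul_left 2
  refine Summable.of_norm_bounded h2 fun v => ?_
  have h0 := (primeTerm_pos K s v).le
  have h1 := primeTerm_le_half K hs.le v
  have h3 := abs_neg_log_one_sub_sub_le h0 h1
  rw [Real.norm_eq_abs]
  have h4 : |-Real.log (1 - primeTerm K s v)| ≤
      |-Real.log (1 - primeTerm K s v) - primeTerm K s v| + |primeTerm K s v| := by
    have := abs_add_le (-Real.log (1 - primeTerm K s v) - primeTerm K s v) (primeTerm K s v)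
    simpa using this
  rw [abs_of_nonneg h0] at h4
  have h5 : 2 * primeTerm K s v ^ 2 ≤ primeTerm K s v := by nlinarith
  linarith

/-- **Euler product in logarithmic form.** -/
theorem log_zetaN_eq {s : ℝ} (hs : 1 < s) :
    Real.log (zetaN K s) = ∑' v : HeightOneSpectrum (𝓞 K), -Real.log (1 - primeTerm K s v) := by
  have hpos : ∀ v : HeightOneSpectrum (𝓞 K), 0 < (1 - primeTerm K s v)⁻¹ := fun v => by
    have := primeTerm_lt_one K hs.le v
    exact inv_pos.mpr (by linarith)
  have hsum : HasSum (fun v : HeightOneSpectrum (𝓞 K) => Real.log ((1 - primeTerm K s v)⁻¹))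
      (∑' v : HeightOneSpectrum (𝓞 K), -Real.log (1 - primeTerm K s v)) := by
    have := (summable_neg_log_one_sub K hs).hasSum
    refine this.congr_fun fun v => ?_
    rw [Real.log_inv]
  have hprod := Real.hasProd_of_hasSum_log hpos hsum
  have := (hasProd_zetaN K hs).unique hprod
  rw [this, Real.log_exp]

/-- `log ζ_K(s)` and the prime zeta sum differ by a bounded amount. -/
theorem abs_log_zetaN_sub_primeSum_le {s : ℝ} (hs : 1 < s) :
    |Real.log (zetaN K s) - primeSum K s| ≤ 2 * primeSum K 2 := by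
  rw [log_zetaN_eq K hs, primeSum, ← (summable_neg_log_one_sub K hs).tsum_sub
    (summable_primeTerm K hs)]
  have hb : ∀ v : HeightOneSpectrum (𝓞 K),
      ‖-Real.log (1 - primeTerm K s v) - primeTerm K s v‖ ≤ 2 * primeTerm K 2 v := fun v => by
    rw [Real.norm_eq_abs]
    refine (abs_neg_log_one_sub_sub_le (primeTerm_pos K s v).le
      (primeTerm_le_half K hs.le v)).trans ?_
    have := primeTerm_sq_le K hs.le v
    linarith
  have h2 : Summable fun v : HeightOneSpectrum (𝓞 K) => 2 * primeTerm K 2 v :=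
    (summable_primeTerm K (by norm_num : (1 : ℝ) < 2)).mul_left 2
  have := tsum_of_norm_bounded h2.hasSum hb
  rw [Real.norm_eq_abs] at this
  refine this.trans (le_of_eq ?_)
  rw [primeSum, tsum_mul_left]

/-- `log ζ_K(s) = log (1/(s-1)) + O(1)` on `(1, 2]`. -/
theorem exists_abs_log_zetaN_sub_log_le :
    ∃ C : ℝ, ∀ s : ℝ, 1 < s → s ≤ 2 → |Real.log (zetaN K s) - Real.log (1 / (s - 1))| ≤ C := by
  have hρ := dedekindZeta_residue_pos K
  set ρ := dedekindZeta_residue K with hρdef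
  have htend : Tendsto (fun s : ℝ => (s - 1) * zetaN K s) (𝓝[>] 1) (𝓝 ρ) :=
    tendsto_sub_one_mul_norm_dedekindZeta K
  -- near `1`: `(s - 1) ζ(s) ∈ [ρ/2, 2ρ]`
  have hev : ∀ᶠ s in 𝓝[>] (1 : ℝ), ρ / 2 < (s - 1) * zetaN K s ∧ (s - 1) * zetaN K s < 2 * ρ :=
    (htend.eventually (lt_mem_nhds (by linarith : ρ / 2 < ρ))).and
      (htend.eventually (gt_mem_nhds (by linarith : ρ < 2 * ρ)))
  obtain ⟨δ, hδ0, hδ⟩ : ∃ δ : ℝ, 0 < δ ∧ ∀ s : ℝ, 1 < s → s < 1 + δ →
      ρ / 2 < (s - 1) * zetaN K s ∧ (s - 1) * zetaN K s < 2 * ρ := by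
    rw [eventually_nhdsWithin_iff, Metric.eventually_nhds_iff] at hev
    obtain ⟨ε, hε, h⟩ := hev
    refine ⟨ε, hε, fun s hs1 hs2 => h ?_ hs1⟩
    rw [Real.dist_eq, abs_lt]
    constructor <;> linarith
  set δ' := min δ 1 with hδ'def
  have hδ'0 : 0 < δ' := lt_min hδ0 one_pos
  have hδ'1 : δ' ≤ 1 := min_le_right _ _
  have hδ'δ : δ' ≤ δ := min_le_left _ _
  -- the two bounds of `(s - 1) ζ(s)` on `(1, 2]`
  set a := min (ρ / 2) δ' with hadef
  set b := max (2 * ρ) (zetaN K (1 + δ')) with hbdef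
  have ha0 : 0 < a := lt_min (by linarith) hδ'0
  have hab : ∀ s : ℝ, 1 < s → s ≤ 2 → a ≤ (s - 1) * zetaN K s ∧ (s - 1) * zetaN K s ≤ b := by
    intro s hs1 hs2
    by_cases hsδ : s < 1 + δ'
    · obtain ⟨h1, h2⟩ := hδ s hs1 (by linarith)
      exact ⟨(min_le_left _ _).trans h1.le, h2.le.trans (le_max_left _ _)⟩
    · push_neg at hsδ
      have hz1 := one_le_zetaN K hs1
      have hz2 := zetaN_anti K (by linarith : (1 : ℝ) < 1 + δ') hsδ
      constructor
      · calc a ≤ δ' := min_le_right _ _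
          _ ≤ s - 1 := by linarith
          _ = (s - 1) * 1 := (mul_one _).symm
          _ ≤ (s - 1) * zetaN K s := by
              apply mul_le_mul_of_nonneg_left hz1; linarith
      · calc (s - 1) * zetaN K s ≤ 1 * zetaN K s := by
              apply mul_le_mul_of_nonneg_right (by linarith) (zetaN_pos K hs1).le
          _ = zetaN K s := one_mul _
          _ ≤ zetaN K (1 + δ') := hz2
          _ ≤ b := le_max_right _ _
  have hb0 : 0 < b := lt_of_lt_of_le (by linarith : 0 < 2 * ρ) (le_max_left _ _)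
  refine ⟨max |Real.log a| |Real.log b|, fun s hs1 hs2 => ?_⟩
  have hs0 : 0 < s - 1 := by linarith
  have hz := zetaN_pos K hs1
  obtain ⟨h1, h2⟩ := hab s hs1 hs2
  have hlog : Real.log (zetaN K s) - Real.log (1 / (s - 1)) = Real.log ((s - 1) * zetaN K s) := by
    rw [Real.log_mul hs0.ne' hz.ne', one_div, Real.log_inv]
    ring
  rw [hlog]
  have hpos : 0 < (s - 1) * zetaN K s := mul_pos hs0 hz
  have hl1 : Real.log a ≤ Real.log ((s - 1) * zetaN K s) := Real.log_le_log ha0 h1
  have hl2 : Real.log ((s - 1) * zetaN K s) ≤ Real.log b := Real.log_le_log hpos h2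
  rw [abs_le]
  constructor
  · have := neg_abs_le (Real.log a)
    have h3 : |Real.log a| ≤ max |Real.log a| |Real.log b| := le_max_left _ _
    linarith
  · have := le_abs_self (Real.log b)
    have h3 : |Real.log b| ≤ max |Real.log a| |Real.log b| := le_max_right _ _
    linarith

/-- **Z1**: the prime zeta sum of a number field is `log (1/(s-1)) + O(1)` on `(1, 2]`. -/
theorem exists_primeSum_sub_log_le :
    ∃ C : ℝ, ∀ s : ℝ, 1 < s → s ≤ 2 → |primeSum K s - Real.log (1 / (s - 1))| ≤ C := by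
  obtain ⟨C, hC⟩ := exists_abs_log_zetaN_sub_log_le K
  refine ⟨C + 2 * primeSum K 2, fun s hs1 hs2 => ?_⟩
  have h1 := hC s hs1 hs2
  have h2 := abs_log_zetaN_sub_primeSum_le K hs1
  have h3 : primeSum K s - Real.log (1 / (s - 1)) =
      (Real.log (zetaN K s) - Real.log (1 / (s - 1))) - (Real.log (zetaN K s) - primeSum K s) := by
    ring
  rw [h3]
  have := abs_sub (Real.log (zetaN K s) - Real.log (1 / (s - 1)))
    (Real.log (zetaN K s) - primeSum K s)
  linarith

end Fermat.Agent.Cheb
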