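import Fermat.Agent.Cheb.DegreeOne
import Fermat.Agent.Cheb.EulerProduct
import Fermat.Agent.Cheb.DensityCalc
import Fermat.Agent.S14.Defs

/-!
# Chebotarev track: the sets of primes used by nodes Z3 / Z4b / Z4 (shared definitions)

For number fields `K ⊆ F` (Type-level, `[Algebra K F]`):

* `SplitsCompletelyIn K F v` : every prime of `𝓞 F` above `v` has `e = f = 1`;
* `splSet K F` : the degree-one primes of `K` that split completely in `F`;
* `UnramIn K L v` : every prime of `𝓞 L` above `v` has trivial inertia group in `Gal(L/K)`;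
* `goodSet K L` : the degree-one primes of `K` unramified in `L`;
* `genSet K L` : the good primes whose Frobenius (`S14.frob`) generates `Gal(L/K)`;
* `isWeight_primeTerm` : `primeTerm K` is an admissible weight for the density calculus.
-/

set_option autoImplicit false

open IsDedekindDomain NumberField

namespace Fermat.Agent.Cheb

variable (K F : Type*) [Field K] [NumberField K] [Field F] [NumberField F] [Algebra K F]

/-- Every prime of `𝓞 F` above `v` has ramification index and inertia degree `1`. -/
def SplitsCompletelyIn (v : HeightOneSpectrum (𝓞 K)) : Prop :=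
  ∀ Q : Ideal (𝓞 F), Q.IsPrime → Q.LiesOver v.asIdeal →
    Q.ramificationIdx (𝓞 K) = 1 ∧ Q.inertiaDeg (𝓞 K) = 1

/-- `Spl(F/K)`: the degree-one primes of `K` that split completely in `F`. -/
def splSet : Set (HeightOneSpectrum (𝓞 K)) :=
  {v | DegOne.IsDegreeOne K v ∧ SplitsCompletelyIn K F v}

/-- `v` is unramified in `F`: all inertia groups above `v` are trivial. -/
def UnramIn (v : HeightOneSpectrum (𝓞 K)) : Prop :=
  ∀ Q : Ideal (𝓞 F), Q.IsPrime → Q.LiesOver v.asIdeal → Ideal.inertia Gal(F/K) Q = ⊥

/-- The degree-one primes of `K` that are unramified in `F`. -/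
def goodSet : Set (HeightOneSpectrum (𝓞 K)) :=
  {v | DegOne.IsDegreeOne K v ∧ UnramIn K F v}

/-- The good primes whose Frobenius generates `Gal(F/K)`. -/
def genSet [IsGalois K F] : Set (HeightOneSpectrum (𝓞 K)) :=
  {v | v ∈ goodSet K F ∧ Subgroup.zpowers (S14.frob K F v.asIdeal) = ⊤}

/-- `primeTerm K` is an admissible weight. -/
theorem isWeight_primeTerm : Dens.IsWeight (primeTerm K) where
  nonneg s _ _ v := (primeTerm_pos K s v).le
  le_one _ h1 _ v := (primeTerm_lt_one K h1.le v).le
  summable _ h1 _ := summable_primeTerm K h1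

/-- Node Z2 in the language of the density calculus. -/
theorem hasLogDensity_degreeOne_diff (T : Finset (HeightOneSpectrum (𝓞 K))) :
    Dens.HasLogDensity (primeTerm K) ({v | DegOne.IsDegreeOne K v} \ (T : Set _)) 1 := by
  obtain ⟨C, hC⟩ := DegOne.exists_abs_degreeOne_sub_log_le K (exists_primeSum_sub_log_le K) T
  refine ⟨C, fun s h1 h2 => ?_⟩
  rw [one_mul]
  exact hC s h1 h2

end Fermat.Agent.Cheb
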