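import Fermat.Agent.Cheb.SplitFrob
import Fermat.Agent.Cheb.PrimeSets
import Fermat.Agent.S14.FrobSplit

/-!
# Chebotarev (generator form), node Z4b in the shared language of `Cheb/PrimeSets.lean`

`K ⊆ L` number fields, `L/K` abelian, `E` an intermediate field, `v` a prime of `K` unramified in
`L` (all inertia groups above `v` trivial).  Then

  `v` splits completely in `E`  ⇔  the Frobenius `S14.frob K L v` fixes `E` pointwise.

* `unram_ramificationIdx_eq_one` : trivial inertia group ⇒ ramification index one;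
* `ramificationIdx_eq_one_of_unramIn` : a prime unramified in `L` is unramified in every
  intermediate field;
* `splitsCompletelyIn_iff_frob_mem_fixingSubgroup`, `mem_splSet_iff_frob_mem_fixingSubgroup` :
  node Z4b.
-/

set_option autoImplicit false
set_option linter.unusedSectionVars false
set_option linter.style.haveILetI false

open NumberField IsDedekindDomain

namespace Fermat.Agent.Cheb

section Ram

variable {K L : Type*} [Field K] [NumberField K] [Field L] [NumberField L] [Algebra K L]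
  [IsGalois K L]

/-- A prime of `𝓞 L` with trivial inertia group in `Gal(L/K)` has ramification index one over
`K`. -/
theorem unram_ramificationIdx_eq_one (p : Ideal (𝓞 K)) [p.IsPrime]
    (Q : Ideal (𝓞 L)) [Q.IsPrime] [Q.LiesOver p] (hin : Ideal.inertia Gal(L/K) Q = ⊥) :
    Q.ramificationIdx (𝓞 K) = 1 := by
  have h1 := Ideal.card_inertia_eq_ramificationIdxIn (G := Gal(L/K)) p Q
  rw [hin, Subgroup.card_bot] at h1
  rw [← Ideal.ramificationIdxIn_eq_ramificationIdx p Q Gal(L/K), ← h1]

end Ram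

section Main

variable {K L : Type*} [Field K] [NumberField K] [Field L] [NumberField L] [Algebra K L]
  [IsGalois K L]

/-- The subgroup `fixer K E L` of `Cheb/SplitFrob.lean` is the fixing subgroup of the intermediate
field `E`. -/
theorem fixer_eq_fixingSubgroup (E : IntermediateField K L) :
    fixer K E L = E.fixingSubgroup := by
  ext σ
  rw [mem_fixer_iff, IntermediateField.mem_fixingSubgroup_iff]
  constructor
  · intro h x hx
    exact h ⟨x, hx⟩
  · intro h x
    exact h x x.2

/-- A prime of `K` unramified in `L` is unramified in every intermediate field. -/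
theorem ramificationIdx_eq_one_of_unramIn (E : IntermediateField K L)
    {v : HeightOneSpectrum (𝓞 K)} (hv : UnramIn K L v) (Q' : Ideal (𝓞 E)) [hQ' : Q'.IsPrime]
    [hQ'v : Q'.LiesOver v.asIdeal] : Q'.ramificationIdx (𝓞 K) = 1 := by
  haveI := v.isPrime
  obtain ⟨Q'', -, hQ''p, hQ''⟩ := Ideal.exists_ideal_over_prime_of_isIntegral
    (S := 𝓞 L) Q' (⊥ : Ideal (𝓞 L)) (by simp)
  haveI : Q''.LiesOver Q' := ⟨hQ''.symm⟩
  haveI : Q''.LiesOver v.asIdeal := Ideal.LiesOver.trans Q'' Q' v.asIdeal
  have h1 := unram_ramificationIdx_eq_one v.asIdeal Q'' (hv Q'' hQ''p inferInstance)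
  have h2 : Q'.ramificationIdx (𝓞 K) ∣ Q''.ramificationIdx (𝓞 K) :=
    Ideal.ramificationIdx_below_dvd Q' Q''
  rw [h1] at h2
  exact Nat.dvd_one.mp h2

/-- For a prime `Q'` of `𝓞 E` above the nonzero prime `p` of `𝓞 K`: the residue fields have the
same cardinality iff the inertia degree is one. -/
theorem card_quotient_eq_iff_inertiaDeg_eq_one {E : Type*} [Field E] [NumberField E] [Algebra K E]
    (p : Ideal (𝓞 K)) [p.IsPrime] (hp0 : p ≠ ⊥) (Q' : Ideal (𝓞 E)) [Q'.IsPrime] [Q'.LiesOver p] :
    Nat.card (𝓞 E ⧸ Q') = Nat.card (𝓞 K ⧸ p) ↔ Q'.inertiaDeg (𝓞 K) = 1 := by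
  have h1 := S14.card_quotient_eq_absNorm_pow K E p Q'
  have h2 : Nat.card (𝓞 K ⧸ p) = Ideal.absNorm p := by
    rw [Ideal.absNorm_apply, Submodule.cardQuot_apply]
  have h3 : 1 < Ideal.absNorm p := S14.one_lt_absNorm_of_isPrime K p hp0
  rw [h1, h2]
  constructor
  · intro h
    have h4 : Ideal.absNorm p ^ Q'.inertiaDeg (𝓞 K) = Ideal.absNorm p ^ 1 := by rw [h, pow_one]
    exact Nat.pow_right_injective h3 h4
  · intro h
    rw [h, pow_one]

variable [IsMulCommutative Gal(L/K)]

/-- **Node Z4b.** `L/K` abelian, `v` a prime of `K` unramified in `L`, `E` an intermediate field: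
`v` splits completely in `E` iff the Frobenius of `v` in `Gal(L/K)` fixes `E` pointwise. -/
theorem splitsCompletelyIn_iff_frob_mem_fixingSubgroup (E : IntermediateField K L)
    {v : HeightOneSpectrum (𝓞 K)} (hv : UnramIn K L v) :
    SplitsCompletelyIn K E v ↔ S14.frob K L v.asIdeal ∈ E.fixingSubgroup := by
  haveI := v.isPrime
  have hv0 : v.asIdeal ≠ ⊥ := v.ne_bot
  have hcomm : ∀ a b : Gal(L/K), a * b = b * a := fun a b => mul_comm' a b
  -- the chosen prime above `v`
  set Q := S14.primeOver K L v.asIdeal with hQdef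
  have hQ0 : Q ≠ ⊥ := S14.primeOver_ne_bot K L v.asIdeal hv0
  have hin : Ideal.inertia Gal(L/K) Q = ⊥ := hv Q inferInstance inferInstance
  have hσ : IsArithFrobAt (𝓞 K) (S14.frob K L v.asIdeal) Q := S14.frob_spec K L v.asIdeal hv0
  have hQv : Q.under (𝓞 K) = v.asIdeal := (Ideal.over_def Q v.asIdeal).symm
  rw [← fixer_eq_fixingSubgroup, mem_fixer_iff_forall_card_quotient_eq E hcomm hQ0 hin hσ, hQv]
  constructor
  · intro h Q' hQ' hQ'v
    haveI : Q'.IsPrime := hQ'
    haveI : Q'.LiesOver v.asIdeal := ⟨hQ'v.symm⟩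
    have h1 := (h Q' hQ' inferInstance).2
    exact (card_quotient_eq_iff_inertiaDeg_eq_one v.asIdeal hv0 Q').mpr h1
  · intro h Q' hQ' hQ'v
    haveI : Q'.IsPrime := hQ'
    haveI : Q'.LiesOver v.asIdeal := hQ'v
    refine ⟨ramificationIdx_eq_one_of_unramIn E hv Q', ?_⟩
    exact (card_quotient_eq_iff_inertiaDeg_eq_one v.asIdeal hv0 Q').mp
      (h Q' hQ' (Ideal.over_def Q' v.asIdeal).symm)

/-- **Node Z4b**, in the shape consumed by `CycGen.hasLogDensity_generators`
(`U = goodSet K L`, `SplH H = splSet K (fixedField H)`, `fr v = S14.frob K L v.asIdeal`). -/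
theorem mem_splSet_iff_frob_mem_fixingSubgroup (E : IntermediateField K L)
    {v : HeightOneSpectrum (𝓞 K)} (hv : v ∈ goodSet K L) :
    v ∈ splSet K E ↔ S14.frob K L v.asIdeal ∈ E.fixingSubgroup := by
  rw [← splitsCompletelyIn_iff_frob_mem_fixingSubgroup E hv.2]
  exact ⟨fun h => h.2, fun h => ⟨hv.1, h⟩⟩

/-- **Node Z4b**, subgroup form: for a subgroup `H` of `Gal(L/K)`,
`v ∈ Spl(L^H/K) ⇔ Frob_v ∈ H`. -/
theorem mem_splSet_fixedField_iff_frob_mem (H : Subgroup Gal(L/K))
    {v : HeightOneSpectrum (𝓞 K)} (hv : v ∈ goodSet K L) :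
    v ∈ splSet K (IntermediateField.fixedField H) ↔ S14.frob K L v.asIdeal ∈ H := by
  rw [mem_splSet_iff_frob_mem_fixingSubgroup _ hv, IntermediateField.fixingSubgroup_fixedField]

end Main

end Fermat.Agent.Cheb
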