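import Fermat.Agent.Cheb.SplitDensity
import Fermat.Agent.Cheb.SplitFrobNF
import Fermat.Agent.Cheb.CyclicGenFinal

/-!
# Chebotarev, generator form: the unconditional statement

Assembly of the nodes of the programme: Z3 (`hasLogDensity_splSet`, density of the completely
split primes), Z4b (`mem_splSet_iff_frob_mem_fixingSubgroup`, splitting in an intermediate field
versus the Frobenius) and the final assembly `chebGen_of` give `ChebGen` with no hypothesis.
-/

set_option autoImplicit false

open IsDedekindDomain NumberField

namespace Fermat.Agent.Cheb

/-- Node Z3 in the shape consumed by the final assembly. -/
theorem splitDensityStatement : SplitDensityStatement := by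
  intro K M _ _ _ _ _ _
  exact hasLogDensity_splSet K M

/-- Node Z4b in the shape consumed by the final assembly. -/
theorem splitFrobStatement : SplitFrobStatement := by
  intro K L _ _ _ _ _ _ _ E v hv
  exact mem_splSet_iff_frob_mem_fixingSubgroup E hv

/-- The input of the Deuring reduction, unconditionally. -/
theorem cyclicGenFrob : CyclicGenFrob :=
  cyclicGenFrob_of splitDensityStatement splitFrobStatement

/-- **Chebotarev's density theorem, generator form**, unconditionally. -/
theorem chebGen : ChebGen :=
  chebGen_of splitDensityStatement splitFrobStatement

end Fermat.Agent.Cheb
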