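import Mathlib

/-!
# Chebotarev track, milestone 2, node A2: boundedness of a continuous logarithm

`E, Lf : ℝ → ℂ` with `E` continuous on `(1, 2]`, `exp (E s) = Lf s` there, and `Lf` Lipschitz at
`1⁺` with a NONZERO limit `L1` (`‖Lf s - L1‖ ≤ C (s - 1)`).  Then `E` is bounded on `(1, 2]`.

Proof: near `1` the function `G s = log (Lf s / L1)` is a continuous bounded logarithm of
`Lf s / L1`; `E - log L1 - G` is continuous with values in `2πiℤ` on the connected set `(1, 1 + δ]`,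
hence constant.  On `[1 + δ, 2]` use compactness.
-/

set_option autoImplicit false

open Set Complex

namespace Fermat.Agent.Cheb.LogBranch

/-- The integers form a discrete subset of `ℝ`. -/
theorem isDiscrete_range_intCast : IsDiscrete (Set.range ((↑) : ℤ → ℝ)) :=
  Int.isClosedEmbedding_coe_real.isEmbedding.isInducing.isDiscrete_range

/-- A continuous function on a preconnected set with values in `2πiℤ` is constant. -/
theorem eq_of_forall_exists_int_mul {S : Set ℝ} (hS : IsPreconnected S) {f : ℝ → ℂ}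
    (hf : ContinuousOn f S) (hint : ∀ s ∈ S, ∃ n : ℤ, f s = n * (2 * Real.pi * I))
    {x y : ℝ} (hx : x ∈ S) (hy : y ∈ S) : f x = f y := by
  have h2pi : (2 * Real.pi * I : ℂ) ≠ 0 := Complex.two_pi_I_ne_zero
  set h : ℝ → ℝ := fun s => (f s / (2 * Real.pi * I)).re with hh
  have hcont : ContinuousOn h S :=
    Complex.continuous_re.comp_continuousOn (hf.div_const _)
  have hmaps : MapsTo h S (Set.range ((↑) : ℤ → ℝ)) := by
    intro s hs
    obtain ⟨n, hn⟩ := hint s hs
    refine ⟨n, ?_⟩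
    simp only [hh]
    rw [hn, mul_div_cancel_right₀ _ h2pi]
    simp
  have hconst := hS.constant_of_mapsTo isDiscrete_range_intCast hcont hmaps hx hy
  have hrec : ∀ s ∈ S, f s = (h s : ℂ) * (2 * Real.pi * I) := by
    intro s hs
    obtain ⟨n, hn⟩ := hint s hs
    simp only [hh]
    rw [hn, mul_div_cancel_right₀ _ h2pi]
    simp
  rw [hrec x hx, hrec y hy, hconst]

/-- **Node A2.** A continuous logarithm of a function which is Lipschitz at `1⁺` with nonzero
limit is bounded on `(1, 2]`. -/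
theorem exists_norm_le (E Lf : ℝ → ℂ) (L1 : ℂ) (C : ℝ)
    (hE : ContinuousOn E (Set.Ioc 1 2))
    (hexp : ∀ s ∈ Set.Ioc (1 : ℝ) 2, Complex.exp (E s) = Lf s)
    (hLip : ∀ s ∈ Set.Ioc (1 : ℝ) 2, ‖Lf s - L1‖ ≤ C * (s - 1))
    (hL1 : L1 ≠ 0) : ∃ B, ∀ s ∈ Set.Ioc (1 : ℝ) 2, ‖E s‖ ≤ B := by
  have hL1pos : 0 < ‖L1‖ := norm_pos_iff.mpr hL1
  -- the radius `δ`
  set C' : ℝ := max C 0 with hC'
  have hC'0 : 0 ≤ C' := le_max_right _ _
  have hCC' : C ≤ C' := le_max_left _ _
  set δ : ℝ := min 1 (‖L1‖ / (2 * (C' + 1))) with hδ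
  have hδpos : 0 < δ := lt_min one_pos (div_pos hL1pos (by positivity))
  have hδ1 : δ ≤ 1 := min_le_left _ _
  have hδ2 : C' * δ ≤ ‖L1‖ / 2 := by
    have h1 : δ ≤ ‖L1‖ / (2 * (C' + 1)) := min_le_right _ _
    have h2 : C' * δ ≤ C' * (‖L1‖ / (2 * (C' + 1))) := mul_le_mul_of_nonneg_left h1 hC'0
    have h3 : C' * (‖L1‖ / (2 * (C' + 1))) ≤ ‖L1‖ / 2 := by
      rw [← mul_div_assoc, div_le_div_iff₀ (by positivity) (by positivity)]
      nlinarith [hL1pos.le, hC'0]
    exact h2.trans h3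
  set J : Set ℝ := Set.Ioc 1 (1 + δ) with hJ
  have hJsub : J ⊆ Set.Ioc 1 2 := fun s hs => ⟨hs.1, hs.2.trans (by linarith)⟩
  -- `Lf` is continuous
  have hLfcont : ContinuousOn Lf (Set.Ioc 1 2) :=
    (Complex.continuous_exp.comp_continuousOn hE).congr fun s hs => (hexp s hs).symm
  -- near `1`
  have hz : ∀ s ∈ J, ‖Lf s / L1 - 1‖ ≤ 1 / 2 := by
    intro s hs
    have h1 : Lf s / L1 - 1 = (Lf s - L1) / L1 := by field_simp
    rw [h1, norm_div, div_le_iff₀ hL1pos]
    have h2 := hLip s (hJsub hs)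
    have h3 : C * (s - 1) ≤ C' * δ := by
      have hs1 : 0 ≤ s - 1 := by linarith [hs.1]
      have hs2 : s - 1 ≤ δ := by linarith [hs.2]
      exact (mul_le_mul_of_nonneg_right hCC' hs1).trans (mul_le_mul_of_nonneg_left hs2 hC'0)
    linarith
  set G : ℝ → ℂ := fun s => Complex.log (Lf s / L1) with hG
  have hslit : ∀ s ∈ J, Lf s / L1 ∈ Complex.slitPlane := by
    intro s hs
    have := Complex.mem_slitPlane_of_norm_lt_one (z := Lf s / L1 - 1)
      ((hz s hs).trans_lt (by norm_num))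
    rwa [add_sub_cancel] at this
  have hGcont : ContinuousOn G J :=
    ((hLfcont.mono hJsub).div_const L1).clog hslit
  have hGbound : ∀ s ∈ J, ‖G s‖ ≤ 3 / 4 := by
    intro s hs
    have h1 := Complex.norm_log_one_add_half_le_self (hz s hs)
    rw [add_sub_cancel] at h1
    calc ‖G s‖ ≤ 3 / 2 * ‖Lf s / L1 - 1‖ := h1
      _ ≤ 3 / 2 * (1 / 2) := mul_le_mul_of_nonneg_left (hz s hs) (by norm_num)
      _ = 3 / 4 := by norm_num
  -- the difference `E - log L1 - G` takes values in `2πiℤ`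
  set D : ℝ → ℂ := fun s => E s - Complex.log L1 - G s with hD
  have hDcont : ContinuousOn D J :=
    ((hE.mono hJsub).sub continuousOn_const).sub hGcont
  have hDint : ∀ s ∈ J, ∃ n : ℤ, D s = n * (2 * Real.pi * I) := by
    intro s hs
    rw [← Complex.exp_eq_one_iff]
    have hne : Lf s / L1 ≠ 0 := Complex.slitPlane_ne_zero (hslit s hs)
    simp only [hD, hG]
    rw [Complex.exp_sub, Complex.exp_sub, hexp s (hJsub hs), Complex.exp_log hL1,
      Complex.exp_log hne, div_self hne]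
  have hs0 : (1 + δ) ∈ J := ⟨by linarith, le_refl _⟩
  have hDconst : ∀ s ∈ J, D s = D (1 + δ) := fun s hs =>
    eq_of_forall_exists_int_mul isPreconnected_Ioc hDcont hDint hs hs0
  -- bound near `1`
  have hB1 : ∀ s ∈ J, ‖E s‖ ≤ ‖D (1 + δ)‖ + ‖Complex.log L1‖ + 3 / 4 := by
    intro s hs
    have h1 : E s = D (1 + δ) + Complex.log L1 + G s := by
      rw [← hDconst s hs]
      simp only [hD]
      ring
    rw [h1]
    calc ‖D (1 + δ) + Complex.log L1 + G s‖ ≤ ‖D (1 + δ) + Complex.log L1‖ + ‖G s‖ :=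
          norm_add_le _ _
      _ ≤ ‖D (1 + δ)‖ + ‖Complex.log L1‖ + 3 / 4 :=
          add_le_add (norm_add_le _ _) (hGbound s hs)
  -- bound away from `1`
  have hIcc : Set.Icc (1 + δ) 2 ⊆ Set.Ioc 1 2 := fun s hs => ⟨by linarith [hs.1], hs.2⟩
  obtain ⟨B2, hB2⟩ := isCompact_Icc.exists_bound_of_continuousOn (hE.mono hIcc)
  refine ⟨max (‖D (1 + δ)‖ + ‖Complex.log L1‖ + 3 / 4) B2, fun s hs => ?_⟩
  rcases le_or_gt s (1 + δ) with h | h
  · exact (hB1 s ⟨hs.1, h⟩).trans (le_max_left _ _)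
  · exact (hB2 s ⟨h.le, hs.2⟩).trans (le_max_right _ _)

end Fermat.Agent.Cheb.LogBranch
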