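import Mathlib

/-!
# Chebotarev track (milestone 2, node A1): Dirichlet series with small partial sums at `s = 1`

Let `f : ℕ → ℂ` have partial sums `‖∑_{k ≤ n} f k‖ ≤ C n ^ r` with `0 ≤ r < 1`, and assume that the
`L`-series of `f` converges for real `s > 1`.  Then `LSeries f` is Lipschitz at `1` from the right:
there are `L1 : ℂ` and `C'` such that `‖LSeries f s - L1‖ ≤ C' (s - 1)` for `1 < s ≤ 2`
(`exists_norm_LSeries_sub_le`).  The number `L1 = ∫_{t > 1} (∑_{k ≤ t} f k) t ^ (-2)` is the value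
at `1` of the (conditionally convergent) Dirichlet series.

The proof uses Mathlib's Abel summation formula `LSeries_eq_mul_integral`.
-/

set_option autoImplicit false

open Finset Filter MeasureTheory Topology

namespace Fermat.Agent.Cheb.Lip

variable (f : ℕ → ℂ)

/-- The partial sums of `f` as a function of a real variable. -/
noncomputable def psum (t : ℝ) : ℂ := ∑ k ∈ Icc 1 ⌊t⌋₊, f k

theorem measurable_psum : Measurable (psum f) :=
  (measurable_from_nat (f := fun n : ℕ => ∑ k ∈ Icc 1 n, f k)).comp Nat.measurable_floor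

variable {f}

theorem norm_psum_le {r C : ℝ} (hr0 : 0 ≤ r)
    (hC : ∀ n : ℕ, 1 ≤ n → ‖∑ k ∈ Icc 1 n, f k‖ ≤ C * (n : ℝ) ^ r) {t : ℝ} (ht : 1 < t) :
    ‖psum f t‖ ≤ C * t ^ r := by
  have hC0 : 0 ≤ C := by
    have := (norm_nonneg _).trans (hC 1 le_rfl)
    simpa using this
  have ht0 : 0 < t := zero_lt_one.trans ht
  have hfl : 1 ≤ ⌊t⌋₊ := Nat.le_floor (by simpa using ht.le)
  refine (hC _ hfl).trans ?_
  gcongr
  exact Nat.floor_le ht0.le

variable (f)

/-- The integrand of the Abel summation formula, with the power written as a real number. -/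
noncomputable def abelTerm (s t : ℝ) : ℂ := psum f t * ((t ^ (-(s + 1)) : ℝ) : ℂ)

theorem abelTerm_eq (s : ℝ) {t : ℝ} (ht : 0 < t) :
    abelTerm f s t = (∑ k ∈ Icc 1 ⌊t⌋₊, f k) * (t : ℂ) ^ (-((s : ℂ) + 1)) := by
  unfold abelTerm psum
  rw [Complex.ofReal_cpow ht.le]
  congr 2
  push_cast
  ring

theorem measurable_abelTerm (s : ℝ) : Measurable (abelTerm f s) := by
  unfold abelTerm
  refine (measurable_psum f).mul ?_
  exact Complex.measurable_ofReal.comp (measurable_id.pow_const _)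

variable {f}

theorem norm_abelTerm_le {r C : ℝ} (hr0 : 0 ≤ r)
    (hC : ∀ n : ℕ, 1 ≤ n → ‖∑ k ∈ Icc 1 n, f k‖ ≤ C * (n : ℝ) ^ r) (s : ℝ) {t : ℝ} (ht : 1 < t) :
    ‖abelTerm f s t‖ ≤ C * t ^ (r - s - 1) := by
  have ht0 : 0 < t := zero_lt_one.trans ht
  unfold abelTerm
  rw [norm_mul, Complex.norm_real, Real.norm_of_nonneg (Real.rpow_nonneg ht0.le _)]
  calc ‖psum f t‖ * t ^ (-(s + 1)) ≤ (C * t ^ r) * t ^ (-(s + 1)) := by
        gcongr
        exact norm_psum_le hr0 hC ht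
    _ = C * t ^ (r - s - 1) := by
        rw [mul_assoc, ← Real.rpow_add ht0]
        congr 2
        ring

theorem integrableOn_abelTerm {r C : ℝ} (hr0 : 0 ≤ r)
    (hC : ∀ n : ℕ, 1 ≤ n → ‖∑ k ∈ Icc 1 n, f k‖ ≤ C * (n : ℝ) ^ r) {s : ℝ} (hs : r < s) :
    IntegrableOn (abelTerm f s) (Set.Ioi 1) := by
  have ha : r - s - 1 < -1 := by linarith
  have hint : IntegrableOn (fun t : ℝ => C * t ^ (r - s - 1)) (Set.Ioi 1) :=
    (integrableOn_Ioi_rpow_of_lt ha zero_lt_one).const_mul C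
  refine Integrable.mono' hint (measurable_abelTerm f s).aestronglyMeasurable ?_
  refine (ae_restrict_mem measurableSet_Ioi).mono fun t ht => ?_
  exact norm_abelTerm_le hr0 hC s ht

theorem norm_integral_abelTerm_le {r C : ℝ} (hr0 : 0 ≤ r)
    (hC : ∀ n : ℕ, 1 ≤ n → ‖∑ k ∈ Icc 1 n, f k‖ ≤ C * (n : ℝ) ^ r) {s : ℝ} (hs : r < s) :
    ‖∫ t in Set.Ioi (1 : ℝ), abelTerm f s t‖ ≤ C / (s - r) := by
  have ha : r - s - 1 < -1 := by linarith
  have hint : IntegrableOn (fun t : ℝ => C * t ^ (r - s - 1)) (Set.Ioi 1) :=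
    (integrableOn_Ioi_rpow_of_lt ha zero_lt_one).const_mul C
  have hbound : ‖∫ t in Set.Ioi (1 : ℝ), abelTerm f s t‖ ≤
      ∫ t in Set.Ioi (1 : ℝ), C * t ^ (r - s - 1) := by
    refine norm_integral_le_of_norm_le hint ?_
    refine (ae_restrict_mem measurableSet_Ioi).mono fun t ht => ?_
    exact norm_abelTerm_le hr0 hC s ht
  rw [integral_const_mul, integral_Ioi_rpow_of_lt ha zero_lt_one, Real.one_rpow] at hbound
  refine hbound.trans (le_of_eq ?_)
  have : r - s - 1 + 1 = -(s - r) := by ring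
  rw [this, neg_div_neg_eq, mul_one_div]

/-- Abel summation (Mathlib's `LSeries_eq_mul_integral`) in terms of `abelTerm`. -/
theorem LSeries_eq_mul_integral_abelTerm {r C : ℝ} (hr0 : 0 ≤ r) (hr1 : r < 1)
    (hC : ∀ n : ℕ, 1 ≤ n → ‖∑ k ∈ Icc 1 n, f k‖ ≤ C * (n : ℝ) ^ r)
    {s : ℝ} (hs : 1 < s) (hS : LSeriesSummable f s) :
    LSeries f s = (s : ℂ) * ∫ t in Set.Ioi (1 : ℝ), abelTerm f s t := by
  have hC0 : 0 ≤ C := by
    have := (norm_nonneg _).trans (hC 1 le_rfl)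
    simpa using this
  have hO : (fun n : ℕ => ∑ k ∈ Icc 1 n, f k) =O[atTop] fun n => (n : ℝ) ^ r := by
    refine Asymptotics.IsBigO.of_bound C (eventually_atTop.mpr ⟨1, fun n hn => ?_⟩)
    rw [Real.norm_of_nonneg (by positivity)]
    exact hC n hn
  have hsr : r < ((s : ℂ)).re := by simpa using hr1.trans hs
  rw [LSeries_eq_mul_integral f hr0 hsr hS hO]
  congr 1
  refine setIntegral_congr_fun measurableSet_Ioi fun t ht => ?_
  exact (abelTerm_eq f s (zero_lt_one.trans ht)).symm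

/-- Elementary estimate: `|t^(-(s+1)) - t^(-2)| ≤ (s - 1) t^(ε - 2) / ε` for `t > 1`, `s ≥ 1`. -/
theorem abs_rpow_sub_rpow_le {s ε t : ℝ} (hs : 1 ≤ s) (hε : 0 < ε) (ht : 1 < t) :
    |t ^ (-(s + 1)) - t ^ (-(1 + 1 : ℝ))| ≤ (s - 1) * (t ^ (ε - 2) / ε) := by
  have ht0 : 0 < t := zero_lt_one.trans ht
  have h1 : t ^ (-(s + 1)) = t ^ (-(1 + 1 : ℝ)) * t ^ (-(s - 1)) := by
    rw [← Real.rpow_add ht0]
    congr 1
    ring
  have hlog : 0 ≤ Real.log t := Real.log_nonneg ht.le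
  have h2 : t ^ (-(s - 1)) ≤ 1 :=
    Real.rpow_le_one_of_one_le_of_nonpos ht.le (by linarith)
  have h3 : 1 - t ^ (-(s - 1)) ≤ (s - 1) * Real.log t := by
    rw [Real.rpow_def_of_pos ht0]
    have := Real.add_one_le_exp (Real.log t * -(s - 1))
    linarith
  have h4 : Real.log t ≤ t ^ ε / ε := Real.log_le_rpow_div ht0.le hε
  have h5 : 0 ≤ t ^ (-(1 + 1 : ℝ)) := Real.rpow_nonneg ht0.le _
  have h6 : t ^ (-(1 + 1 : ℝ)) * (t ^ ε / ε) = t ^ (ε - 2) / ε := by
    rw [← mul_div_assoc, ← Real.rpow_add ht0]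
    congr 2
    ring
  rw [h1, abs_sub_comm, abs_of_nonneg (by nlinarith)]
  calc t ^ (-(1 + 1 : ℝ)) - t ^ (-(1 + 1 : ℝ)) * t ^ (-(s - 1))
      = t ^ (-(1 + 1 : ℝ)) * (1 - t ^ (-(s - 1))) := by ring
    _ ≤ t ^ (-(1 + 1 : ℝ)) * ((s - 1) * (t ^ ε / ε)) := by
        refine mul_le_mul_of_nonneg_left (h3.trans ?_) h5
        exact mul_le_mul_of_nonneg_left h4 (by linarith)
    _ = (s - 1) * (t ^ (ε - 2) / ε) := by
        rw [← h6]
        ring

/-- **A1**: a Dirichlet series whose coefficient partial sums are `O(n ^ r)`, `r < 1`, is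
Lipschitz at `s = 1` from the right. -/
theorem exists_norm_LSeries_sub_le (f : ℕ → ℂ) {r C : ℝ} (hr0 : 0 ≤ r) (hr1 : r < 1)
    (hC : ∀ n : ℕ, 1 ≤ n → ‖∑ k ∈ Icc 1 n, f k‖ ≤ C * (n : ℝ) ^ r)
    (hS : ∀ s : ℝ, 1 < s → LSeriesSummable f s) :
    ∃ (L1 : ℂ) (C' : ℝ), ∀ s : ℝ, 1 < s → s ≤ 2 → ‖LSeries f s - L1‖ ≤ C' * (s - 1) := by
  have hC0 : 0 ≤ C := by
    have := (norm_nonneg _).trans (hC 1 le_rfl)
    simpa using this
  set ε : ℝ := (1 - r) / 2 with hεdef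
  have hε : 0 < ε := by rw [hεdef]; linarith
  have h1r : 0 < 1 - r := by linarith
  refine ⟨∫ t in Set.Ioi (1 : ℝ), abelTerm f 1 t, C / (1 - r) + C / ε * (1 / ε), fun s hs hs2 => ?_⟩
  have hs0 : 0 ≤ s - 1 := by linarith
  have hint_s := integrableOn_abelTerm hr0 hC (hr1.trans hs)
  have hint_1 := integrableOn_abelTerm hr0 hC hr1
  rw [LSeries_eq_mul_integral_abelTerm hr0 hr1 hC hs (hS s hs)]
  have hsplit : (s : ℂ) * (∫ t in Set.Ioi (1 : ℝ), abelTerm f s t) -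
      (∫ t in Set.Ioi (1 : ℝ), abelTerm f 1 t) =
      ((s - 1 : ℝ) : ℂ) * (∫ t in Set.Ioi (1 : ℝ), abelTerm f s t) +
        ∫ t in Set.Ioi (1 : ℝ), (abelTerm f s t - abelTerm f 1 t) := by
    rw [integral_sub hint_s hint_1]
    push_cast
    ring
  rw [hsplit]
  refine (norm_add_le _ _).trans ?_
  have hb1 : ‖((s - 1 : ℝ) : ℂ) * ∫ t in Set.Ioi (1 : ℝ), abelTerm f s t‖ ≤
      C / (1 - r) * (s - 1) := by
    rw [norm_mul, Complex.norm_real, Real.norm_of_nonneg hs0, mul_comm]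
    refine mul_le_mul_of_nonneg_right ((norm_integral_abelTerm_le hr0 hC (hr1.trans hs)).trans ?_)
      hs0
    exact div_le_div_of_nonneg_left hC0 h1r (by linarith)
  -- the second term
  have ha : r + ε - 2 < -1 := by rw [hεdef]; linarith
  have hintg : IntegrableOn (fun t : ℝ => (s - 1) * (C / ε) * t ^ (r + ε - 2)) (Set.Ioi 1) :=
    (integrableOn_Ioi_rpow_of_lt ha zero_lt_one).const_mul _
  have hb2 : ‖∫ t in Set.Ioi (1 : ℝ), (abelTerm f s t - abelTerm f 1 t)‖ ≤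
      ∫ t in Set.Ioi (1 : ℝ), (s - 1) * (C / ε) * t ^ (r + ε - 2) := by
    refine norm_integral_le_of_norm_le hintg ?_
    refine (ae_restrict_mem measurableSet_Ioi).mono fun t ht => ?_
    have ht1 : (1 : ℝ) < t := ht
    have ht0 : 0 < t := zero_lt_one.trans ht1
    have e : abelTerm f s t - abelTerm f 1 t =
        psum f t * (((t ^ (-(s + 1)) - t ^ (-(1 + 1 : ℝ)) : ℝ)) : ℂ) := by
      unfold abelTerm
      push_cast
      ring
    rw [e, norm_mul, Complex.norm_real, Real.norm_eq_abs]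
    calc ‖psum f t‖ * |t ^ (-(s + 1)) - t ^ (-(1 + 1 : ℝ))|
        ≤ (C * t ^ r) * ((s - 1) * (t ^ (ε - 2) / ε)) :=
          mul_le_mul (norm_psum_le hr0 hC ht1) (abs_rpow_sub_rpow_le hs.le hε ht1) (abs_nonneg _)
            (mul_nonneg hC0 (Real.rpow_nonneg ht0.le _))
      _ = (s - 1) * (C / ε) * t ^ (r + ε - 2) := by
          have : t ^ (r + ε - 2) = t ^ r * t ^ (ε - 2) := by
            rw [← Real.rpow_add ht0]
            congr 1
            ring
          rw [this]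
          field_simp
  rw [integral_const_mul, integral_Ioi_rpow_of_lt ha zero_lt_one, Real.one_rpow] at hb2
  have hval : -1 / (r + ε - 2 + 1) = 1 / ε := by
    have : r + ε - 2 + 1 = -ε := by rw [hεdef]; ring
    rw [this, neg_div_neg_eq]
  rw [hval] at hb2
  calc ‖((s - 1 : ℝ) : ℂ) * ∫ t in Set.Ioi (1 : ℝ), abelTerm f s t‖ +
        ‖∫ t in Set.Ioi (1 : ℝ), (abelTerm f s t - abelTerm f 1 t)‖
      ≤ C / (1 - r) * (s - 1) + (s - 1) * (C / ε) * (1 / ε) := add_le_add hb1 hb2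
    _ = (C / (1 - r) + C / ε * (1 / ε)) * (s - 1) := by ring

end Fermat.Agent.Cheb.Lip
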