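import Mathlib
import Fermat.Agent.CFT.Global.Second.IdealLSeries
import Fermat.Agent.Cheb.EulerProduct
import Fermat.Agent.Cheb.LSeriesLip

/-!
# Chebotarev track (milestone 2, node A3): the complex logarithm of an Euler product

`K` a number field, `ψ : Ideal (𝓞 K) →*₀ ℂ` completely multiplicative with `‖ψ I‖ ≤ 1`, real `s > 1`,
`x_v(s) = N(v)^(-s) = primeTerm K s v`.

* `eulerArg ψ s v = ψ(v) x_v(s)`, `charPrimeSum ψ s = ∑_v ψ(v) x_v(s)`;
* `eulerLog ψ s = ∑_v -log (1 - ψ(v) x_v(s))` (principal branch);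
* `cexp_eulerLog` : `exp (eulerLog ψ s) = ∑_I ψ(I) N(I)^(-s)` (`= CFT.Second.gLSeries (res ψ) s`);
* `norm_eulerLog_sub_charPrimeSum_le` : `‖eulerLog ψ s - charPrimeSum ψ s‖ ≤ primeSum K 2`;
* `continuousOn_eulerLog` : `eulerLog ψ` is continuous on `(1, ∞)`;
* `exists_norm_gLSeries_sub_le` : if the partial sums of `g` over the ideals of norm `≤ n` are
  `O(n ^ r)`, `r < 1`, then `gLSeries g` is Lipschitz at `s = 1` from the right.
-/

set_option autoImplicit false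

open NumberField IsDedekindDomain Filter Topology

namespace Fermat.Agent.Cheb

open Fermat.Agent.S14 Fermat.Agent.S14.Second Fermat.Agent.CFT.Second

variable {K : Type*} [Field K] [NumberField K]

/-! ### Lipschitz continuity at `1` of ideal `L`-series -/

/-- If the partial sums of `g` over the ideals of norm `≤ n` are `O(n ^ r)` with `r < 1`, then
`gLSeries g` is Lipschitz at `s = 1` from the right. -/
theorem exists_norm_gLSeries_sub_le {g : nonZeroDivisors (Ideal (𝓞 K)) → ℂ} (hg : ∀ I, ‖g I‖ ≤ 1)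
    {r C : ℝ} (hr0 : 0 ≤ r) (hr1 : r < 1)
    (hC : ∀ n : ℕ, 1 ≤ n → ‖∑ I ∈ idealsLE K n, g I‖ ≤ C * (n : ℝ) ^ r) :
    ∃ (L1 : ℂ) (C' : ℝ), ∀ s : ℝ, 1 < s → s ≤ 2 → ‖gLSeries g s - L1‖ ≤ C' * (s - 1) := by
  obtain ⟨L1, C', h⟩ := Lip.exists_norm_LSeries_sub_le (gCoeff g) hr0 hr1
    (fun n hn => by rw [sum_gCoeff]; exact hC n hn)
    (fun s hs => lseriesSummable_gCoeff hg (by simpa using hs))
  refine ⟨L1, C', fun s hs hs2 => ?_⟩
  rw [gLSeries_eq_LSeries hg hs]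
  exact h s hs hs2

/-! ### The complex logarithm of the Euler product -/

variable (ψ : Ideal (𝓞 K) →*₀ ℂ)

/-- `ψ(v) N(v)^(-s)`. -/
noncomputable def eulerArg (s : ℝ) (v : HeightOneSpectrum (𝓞 K)) : ℂ :=
  ψ v.asIdeal * ((primeTerm K s v : ℝ) : ℂ)

/-- The twisted prime zeta sum `∑_v ψ(v) N(v)^(-s)`. -/
noncomputable def charPrimeSum (s : ℝ) : ℂ := ∑' v : HeightOneSpectrum (𝓞 K), eulerArg ψ s v

/-- The logarithm of the Euler factor at `v`. -/
noncomputable def eulerLogTerm (s : ℝ) (v : HeightOneSpectrum (𝓞 K)) : ℂ :=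
  -Complex.log (1 - eulerArg ψ s v)

/-- The logarithm `∑_v -log (1 - ψ(v) N(v)^(-s))` of the Euler product. -/
noncomputable def eulerLog (s : ℝ) : ℂ := ∑' v : HeightOneSpectrum (𝓞 K), eulerLogTerm ψ s v

variable {ψ}

theorem norm_eulerArg_le (hψ : ∀ I, ‖ψ I‖ ≤ 1) (s : ℝ) (v : HeightOneSpectrum (𝓞 K)) :
    ‖eulerArg ψ s v‖ ≤ primeTerm K s v := by
  unfold eulerArg
  rw [norm_mul, Complex.norm_real, Real.norm_of_nonneg (primeTerm_pos K s v).le]
  calc ‖ψ v.asIdeal‖ * primeTerm K s v ≤ 1 * primeTerm K s v :=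
        mul_le_mul_of_nonneg_right (hψ _) (primeTerm_pos K s v).le
    _ = primeTerm K s v := one_mul _

theorem norm_eulerArg_le_half (hψ : ∀ I, ‖ψ I‖ ≤ 1) {s : ℝ} (hs : 1 ≤ s)
    (v : HeightOneSpectrum (𝓞 K)) : ‖eulerArg ψ s v‖ ≤ 1 / 2 :=
  (norm_eulerArg_le hψ s v).trans (primeTerm_le_half K hs v)

theorem norm_eulerArg_lt_one (hψ : ∀ I, ‖ψ I‖ ≤ 1) {s : ℝ} (hs : 1 ≤ s)
    (v : HeightOneSpectrum (𝓞 K)) : ‖eulerArg ψ s v‖ < 1 :=
  (norm_eulerArg_le_half hψ hs v).trans_lt (by norm_num)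

theorem summable_eulerArg (hψ : ∀ I, ‖ψ I‖ ≤ 1) {s : ℝ} (hs : 1 < s) :
    Summable (eulerArg ψ s) :=
  Summable.of_norm_bounded (summable_primeTerm K hs) (norm_eulerArg_le hψ s)

theorem norm_eulerLogTerm_le (hψ : ∀ I, ‖ψ I‖ ≤ 1) {s : ℝ} (hs : 1 ≤ s)
    (v : HeightOneSpectrum (𝓞 K)) : ‖eulerLogTerm ψ s v‖ ≤ 3 / 2 * primeTerm K s v := by
  unfold eulerLogTerm
  rw [norm_neg, sub_eq_add_neg]
  have h := Complex.norm_log_one_add_half_le_self (z := -eulerArg ψ s v)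
    (by rw [norm_neg]; exact norm_eulerArg_le_half hψ hs v)
  rw [norm_neg] at h
  refine h.trans ?_
  have := norm_eulerArg_le hψ s v
  linarith

theorem summable_eulerLogTerm (hψ : ∀ I, ‖ψ I‖ ≤ 1) {s : ℝ} (hs : 1 < s) :
    Summable (eulerLogTerm ψ s) :=
  Summable.of_norm_bounded ((summable_primeTerm K hs).mul_left (3 / 2))
    (norm_eulerLogTerm_le hψ hs.le)

theorem one_sub_eulerArg_ne_zero (hψ : ∀ I, ‖ψ I‖ ≤ 1) {s : ℝ} (hs : 1 ≤ s)
    (v : HeightOneSpectrum (𝓞 K)) : 1 - eulerArg ψ s v ≠ 0 := by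
  intro h
  have h1 : eulerArg ψ s v = 1 := (sub_eq_zero.mp h).symm
  have h2 := norm_eulerArg_lt_one hψ hs v
  rw [h1, norm_one] at h2
  exact lt_irrefl _ h2

/-- **The exponential of `eulerLog` is the `L`-series.** -/
theorem cexp_eulerLog (hψ : ∀ I, ‖ψ I‖ ≤ 1) {s : ℝ} (hs : 1 < s) :
    Complex.exp (eulerLog ψ s) = gLSeries (res ψ) s := by
  have h1 : HasProd (Complex.exp ∘ eulerLogTerm ψ s) (Complex.exp (eulerLog ψ s)) :=
    (summable_eulerLogTerm hψ hs).hasSum.cexp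
  have h2 : HasProd (fun v : HeightOneSpectrum (𝓞 K) => (1 - eulerArg ψ s v)⁻¹)
      (gLSeries (res ψ) s) := hasProd_gLSeries hψ hs
  have h3 : Complex.exp ∘ eulerLogTerm ψ s =
      fun v : HeightOneSpectrum (𝓞 K) => (1 - eulerArg ψ s v)⁻¹ := by
    funext v
    simp only [Function.comp_apply, eulerLogTerm]
    rw [Complex.exp_neg, Complex.exp_log (one_sub_eulerArg_ne_zero hψ hs.le v)]
  rw [h3] at h1
  exact h1.unique h2

theorem norm_eulerLogTerm_sub_eulerArg_le (hψ : ∀ I, ‖ψ I‖ ≤ 1) {s : ℝ} (hs : 1 ≤ s)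
    (v : HeightOneSpectrum (𝓞 K)) :
    ‖eulerLogTerm ψ s v - eulerArg ψ s v‖ ≤ primeTerm K 2 v := by
  have hlt : ‖-eulerArg ψ s v‖ < 1 := by rw [norm_neg]; exact norm_eulerArg_lt_one hψ hs v
  have h := Complex.norm_log_one_add_sub_self_le hlt
  rw [norm_neg] at h
  have e : eulerLogTerm ψ s v - eulerArg ψ s v =
      -(Complex.log (1 + -eulerArg ψ s v) - -eulerArg ψ s v) := by
    unfold eulerLogTerm
    rw [← sub_eq_add_neg]
    ring
  rw [e, norm_neg]
  refine h.trans ?_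
  have hz := norm_eulerArg_le_half hψ hs v
  have hz0 := norm_nonneg (eulerArg ψ s v)
  have hinv : (1 - ‖eulerArg ψ s v‖)⁻¹ ≤ 2 := by
    rw [inv_le_comm₀ (by linarith) (by norm_num)]
    linarith
  have hsq : ‖eulerArg ψ s v‖ ^ 2 ≤ primeTerm K s v ^ 2 :=
    pow_le_pow_left₀ hz0 (norm_eulerArg_le hψ s v) 2
  calc ‖eulerArg ψ s v‖ ^ 2 * (1 - ‖eulerArg ψ s v‖)⁻¹ / 2
      ≤ ‖eulerArg ψ s v‖ ^ 2 * 2 / 2 := by
        gcongr
    _ = ‖eulerArg ψ s v‖ ^ 2 := by ring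
    _ ≤ primeTerm K s v ^ 2 := hsq
    _ ≤ primeTerm K 2 v := primeTerm_sq_le K hs v

/-- `eulerLog ψ s` and the twisted prime sum differ by a bounded amount. -/
theorem norm_eulerLog_sub_charPrimeSum_le (hψ : ∀ I, ‖ψ I‖ ≤ 1) {s : ℝ} (hs : 1 < s) :
    ‖eulerLog ψ s - charPrimeSum ψ s‖ ≤ primeSum K 2 := by
  unfold eulerLog charPrimeSum
  rw [← (summable_eulerLogTerm hψ hs).tsum_sub (summable_eulerArg hψ hs)]
  exact tsum_of_norm_bounded (summable_primeTerm K (by norm_num : (1 : ℝ) < 2)).hasSum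
    (norm_eulerLogTerm_sub_eulerArg_le hψ hs.le)

/-- The norm of the twisted prime sum is at most `‖eulerLog‖` plus a constant. -/
theorem norm_charPrimeSum_le (hψ : ∀ I, ‖ψ I‖ ≤ 1) {s : ℝ} (hs : 1 < s) :
    ‖charPrimeSum ψ s‖ ≤ ‖eulerLog ψ s‖ + primeSum K 2 := by
  have h := norm_eulerLog_sub_charPrimeSum_le hψ hs
  have h2 : charPrimeSum ψ s = eulerLog ψ s - (eulerLog ψ s - charPrimeSum ψ s) := by ring
  rw [h2]
  exact (norm_sub_le _ _).trans (by linarith)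

/-! ### Continuity -/

theorem continuous_primeTerm (v : HeightOneSpectrum (𝓞 K)) :
    Continuous fun s : ℝ => primeTerm K s v := by
  unfold primeTerm
  have h0 : ((Ideal.absNorm v.asIdeal : ℕ) : ℝ) ≠ 0 := by
    have := two_le_nrm K v
    unfold nrm at this
    intro h
    rw [h] at this
    linarith
  exact (Real.continuous_const_rpow h0).comp continuous_neg

theorem continuous_eulerArg (ψ : Ideal (𝓞 K) →*₀ ℂ) (v : HeightOneSpectrum (𝓞 K)) :
    Continuous fun s : ℝ => eulerArg ψ s v := by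
  unfold eulerArg
  exact continuous_const.mul (Complex.continuous_ofReal.comp (continuous_primeTerm v))

theorem continuousOn_eulerLogTerm (hψ : ∀ I, ‖ψ I‖ ≤ 1) (v : HeightOneSpectrum (𝓞 K)) :
    ContinuousOn (fun s : ℝ => eulerLogTerm ψ s v) (Set.Ici 1) := by
  unfold eulerLogTerm
  refine ContinuousOn.neg ?_
  refine ContinuousOn.clog (continuous_const.sub (continuous_eulerArg ψ v)).continuousOn ?_
  intro s hs
  rw [sub_eq_add_neg]
  apply Complex.mem_slitPlane_of_norm_lt_one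
  rw [norm_neg]
  exact norm_eulerArg_lt_one hψ hs v

/-- `eulerLog ψ` is continuous on `(1, ∞)`. -/
theorem continuousOn_eulerLog (hψ : ∀ I, ‖ψ I‖ ≤ 1) :
    ContinuousOn (eulerLog ψ) (Set.Ioi 1) := by
  rw [isOpen_Ioi.continuousOn_iff]
  intro s₀ hs₀
  have hs₀' : (1 : ℝ) < s₀ := hs₀
  set a : ℝ := (1 + s₀) / 2 with ha
  have ha1 : 1 < a := by rw [ha]; linarith
  have has : a < s₀ := by rw [ha]; linarith
  have hcont : ContinuousOn (fun s : ℝ => ∑' v : HeightOneSpectrum (𝓞 K), eulerLogTerm ψ s v)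
      (Set.Ioi a) := by
    refine continuousOn_tsum (u := fun v => 3 / 2 * primeTerm K a v) (fun v => ?_)
      ((summable_primeTerm K ha1).mul_left _) (fun v s hs => ?_)
    · exact (continuousOn_eulerLogTerm hψ v).mono fun s hs => le_of_lt (ha1.trans hs)
    · have hs' : a < s := hs
      refine (norm_eulerLogTerm_le hψ (ha1.trans hs').le v).trans ?_
      have := primeTerm_anti K hs'.le v
      linarith
  exact hcont.continuousAt (Ioi_mem_nhds has)

end Fermat.Agent.Cheb
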