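import Mathlib
import Fermat.Agent.CFT.Global.Second.SecondIdealFinal
import Fermat.Agent.Cheb.ComplexEuler
import Fermat.Agent.Cheb.DensityCalc

/-!
# Chebotarev track (milestone 2, node A4): non-vanishing of `L(1, χ)`

Setting of the second inequality (`CFT.Second.card_le_finrank_of_ideal_map`): `K ⊆ L` number fields,
`m ≠ ⊥` an ideal of `𝓞 K`, `A` a finite abelian group, `c : Ideal (𝓞 K) → A` multiplicative on the
nonzero ideals prime to `m`, trivial on the principal ideals `(α)`, `α ≡ 1 mod m`, trivial on the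
norms of the primes of `L` prime to `m`, and surjective.

For a character `χ` of `A` let `classL c χ s = ∑_I χ(c I) N(I)^(-s)` (sum over the nonzero ideals
prime to `m`).  For `χ ≠ 1`:

* `exists_norm_classL_sub_le` : `classL c χ` is Lipschitz at `s = 1` from the right, with limit `L1`;
* `classL_limit_ne_zero` : `L1 ≠ 0`.
-/

set_option autoImplicit false
set_option linter.unusedSectionVars false

open NumberField IsDedekindDomain Filter Topology nonZeroDivisors

open Fermat.Agent.S14 Fermat.Agent.S14.Second Fermat.Agent.CFT.Second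

namespace Fermat.Agent.Cheb

/-! ### Two facts on the Dedekind zeta function -/

section Zeta

variable (K : Type*) [Field K] [NumberField K]

/-- `(s - 1) ζ_K(s)` is bounded on `(1, 2]`. -/
theorem exists_sub_one_mul_zetaN_le :
    ∃ D : ℝ, ∀ s : ℝ, 1 < s → s ≤ 2 → (s - 1) * zetaN K s ≤ D := by
  obtain ⟨C, hC⟩ := exists_abs_log_zetaN_sub_log_le K
  refine ⟨Real.exp C, fun s hs hs2 => ?_⟩
  have hs0 : 0 < s - 1 := by linarith
  have hz := zetaN_pos K hs
  have h := (abs_le.mp (hC s hs hs2)).2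
  have hlog : Real.log (zetaN K s) - Real.log (1 / (s - 1)) = Real.log ((s - 1) * zetaN K s) := by
    rw [Real.log_mul hs0.ne' hz.ne', one_div, Real.log_inv]
    ring
  rw [hlog] at h
  have hpos : 0 < (s - 1) * zetaN K s := mul_pos hs0 hz
  calc (s - 1) * zetaN K s = Real.exp (Real.log ((s - 1) * zetaN K s)) := (Real.exp_log hpos).symm
    _ ≤ Real.exp C := Real.exp_le_exp.mpr h

/-- `ζ_K` is unbounded on `(1, 2]`. -/
theorem exists_lt_zetaN (D : ℝ) : ∃ s : ℝ, 1 < s ∧ s ≤ 2 ∧ D < zetaN K s := by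
  obtain ⟨C, hC⟩ := exists_abs_log_zetaN_sub_log_le K
  obtain ⟨s, hs, hs2, hlt⟩ := Dens.exists_log_gt (C + Real.log (max D 1))
  refine ⟨s, hs, hs2, ?_⟩
  have h := (abs_le.mp (hC s hs hs2)).1
  have hz := zetaN_pos K hs
  have h1 : Real.log (max D 1) < Real.log (zetaN K s) := by linarith
  have h2 : max D 1 < zetaN K s :=
    (Real.log_lt_log_iff (lt_of_lt_of_le one_pos (le_max_right _ _)) hz).mp h1
  exact lt_of_le_of_lt (le_max_left _ _) h2

end Zeta

/-! ### The class `L`-series -/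

section ClassL

variable {K : Type*} [Field K] [NumberField K] {m : Ideal (𝓞 K)}
  {A : Type*} [CommGroup A] [Finite A] (c : Ideal (𝓞 K) → A) (hc1 : c ⊤ = 1)
  (hcmul : ∀ I J : Ideal (𝓞 K), I ≠ ⊥ → J ≠ ⊥ → IsCoprime I m → IsCoprime J m →
    c (I * J) = c I * c J)

/-- The `L`-series `∑_I χ(c I) N(I)^(-s)` over the nonzero ideals prime to `m`. -/
noncomputable def classL (χ : A →* ℂˣ) (s : ℝ) : ℂ :=
  gLSeries (res (idealChar m c hc1 hcmul χ)) s

variable (hcP : ∀ α : 𝓞 K, α ≠ 0 → α - 1 ∈ m → c (Ideal.span {α}) = 1)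
  (hsurj : ∀ a : A, ∃ I : Ideal (𝓞 K), I ≠ ⊥ ∧ IsCoprime I m ∧ c I = a)

include hcP hsurj in
/-- **Lipschitz continuity at `1`** of the `L`-series of a nontrivial character. -/
theorem exists_norm_classL_sub_le (hm : m ≠ ⊥) {χ : A →* ℂˣ} (hχ : χ ≠ 1) :
    ∃ (L1 : ℂ) (C' : ℝ), ∀ s : ℝ, 1 < s → s ≤ 2 →
      ‖classL c hc1 hcmul χ s - L1‖ ≤ C' * (s - 1) := by
  classical
  set ψ : Ideal (𝓞 K) →*₀ ℂ := idealChar m c hc1 hcmul χ with hψ
  have hψle : ∀ I, ‖ψ I‖ ≤ 1 := fun I => norm_idealChar_le m c hc1 hcmul χ I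
  obtain ⟨a, ha⟩ : ∃ a : A, χ a ≠ 1 := by
    by_contra hcon
    push Not at hcon
    exact hχ (MonoidHom.ext fun a => hcon a)
  obtain ⟨I, hI0, hIm, hIa⟩ := hsurj a
  obtain ⟨C, hC⟩ := rayBound_of_ne_bot hm ψ
    (fun J hJ => by
      rw [hψ, idealChar_apply, if_neg]
      exact fun h => hJ h.2)
    (fun α hα0 hα => by
      have hne : Ideal.span {α} ≠ (⊥ : Ideal (𝓞 K)) := by
        rw [Ne, Ideal.span_singleton_eq_bot]; exact hα0
      have hcop : IsCoprime (Ideal.span {α}) m := by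
        rw [Ideal.isCoprime_iff_exists]
        refine ⟨α, Ideal.mem_span_singleton_self α, -(α - 1), m.neg_mem hα, by ring⟩
      rw [hψ, idealChar_apply, if_pos ⟨hne, hcop⟩, hcP α hα0 hα, map_one, Units.val_one])
    ⟨I, hI0, hIm, by
      rw [hψ, idealChar_apply, if_pos ⟨hI0, hIm⟩, hIa]
      intro h
      exact ha (Units.ext h)⟩
  have hd : (1 : ℝ) ≤ (Module.finrank ℚ K : ℝ) := by
    exact_mod_cast (Module.finrank_pos : 0 < Module.finrank ℚ K)
  have hd0 : (0 : ℝ) < (Module.finrank ℚ K : ℝ) := zero_lt_one.trans_le hd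
  have hr0 : (0 : ℝ) ≤ 1 - 1 / (Module.finrank ℚ K : ℝ) := by
    rw [sub_nonneg, div_le_one hd0]; exact hd
  have hr1 : 1 - 1 / (Module.finrank ℚ K : ℝ) < 1 := by
    have : 0 < 1 / (Module.finrank ℚ K : ℝ) := by positivity
    linarith
  exact exists_norm_gLSeries_sub_le (g := res ψ) (fun J => hψle J) hr0 hr1 hC

include hcP hsurj in
/-- The `L`-series of a nontrivial character is bounded on `(1, 2]`. -/
theorem exists_norm_classL_le (hm : m ≠ ⊥) {χ : A →* ℂˣ} (hχ : χ ≠ 1) :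
    ∃ B : ℝ, ∀ s : ℝ, 1 < s → s ≤ 2 → ‖classL c hc1 hcmul χ s‖ ≤ B := by
  obtain ⟨L1, C', h⟩ := exists_norm_classL_sub_le c hc1 hcmul hcP hsurj hm hχ
  refine ⟨‖L1‖ + |C'|, fun s hs hs2 => ?_⟩
  have h1 := h s hs hs2
  have h2 : classL c hc1 hcmul χ s = (classL c hc1 hcmul χ s - L1) + L1 := by ring
  rw [h2]
  refine (norm_add_le _ _).trans ?_
  have h3 : C' * (s - 1) ≤ |C'| := by
    calc C' * (s - 1) ≤ |C'| * (s - 1) :=
          mul_le_mul_of_nonneg_right (le_abs_self _) (by linarith)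
      _ ≤ |C'| * 1 := mul_le_mul_of_nonneg_left (by linarith) (abs_nonneg _)
      _ = |C'| := mul_one _
  linarith

variable {L : Type*} [Field L] [NumberField L] [Algebra K L]
  (hcN : ∀ w : HeightOneSpectrum (𝓞 L), IsCoprime (w.under (𝓞 K)).asIdeal m →
    c (Ideal.relNorm (𝓞 K) w.asIdeal) = 1)

include hcP hsurj hcN in
/-- **Non-vanishing at `1`**: the limit at `1` of the `L`-series of a nontrivial character is not
zero. -/
theorem classL_limit_ne_zero (hm : m ≠ ⊥) {χ₀ : A →* ℂˣ} (hχ₀ : χ₀ ≠ 1) {L1 : ℂ} {C' : ℝ}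
    (hLip : ∀ s : ℝ, 1 < s → s ≤ 2 → ‖classL c hc1 hcmul χ₀ s - L1‖ ≤ C' * (s - 1)) :
    L1 ≠ 0 := by
  classical
  intro hL1
  have : Fintype (A →* ℂˣ) := Fintype.ofFinite _
  set S := badPrimes m hm with hS
  set ψ : (A →* ℂˣ) → (Ideal (𝓞 K) →*₀ ℂ) := fun χ => idealChar m c hc1 hcmul χ with hψ
  have hψle : ∀ χ I, ‖ψ χ I‖ ≤ 1 := fun χ I => norm_idealChar_le m c hc1 hcmul χ I
  set h := Nat.card A with hh
  set n := Module.finrank K L with hn
  have hh0 : 0 < h := Nat.card_pos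
  -- the main inequality
  have hmain : ∀ s : ℝ, 1 < s →
      zetaN L s ^ h ≤ (∏ χ : A →* ℂˣ, ‖classL c hc1 hcmul χ s‖) ^ n *
        (zetaN K 2 * 2 ^ S.card) ^ (n * h) := by
    intro s hs
    refine main_ineqA K L S (fun v => c v.asIdeal)
      (fun s => ‖dedekindZeta K s‖) (fun s => ‖dedekindZeta L s‖)
      (fun χ s => ‖gLSeries (res (ψ χ)) s‖)
      (fun s hs => hasProd_norm_dedekindZeta K (fun f hf => ideal_eulerProduct_hasProd f hf) hs)
      (fun s hs => hasProd_norm_dedekindZeta L (fun f hf => ideal_eulerProduct_hasProd f hf) hs)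
      ?_ ?_ hs
    · intro χ s hs
      have h := hasProd_norm_gLSeries (hψle χ) hs
      convert h using 2 with v
      rw [hψ, idealChar_prime (hm := hm)]
      by_cases hv : v ∈ S
      · rw [if_pos hv, if_pos hv, zero_mul, sub_zero, inv_one, norm_one]
      · rw [if_neg hv, if_neg hv]
    · intro w hw hf
      have hcop : IsCoprime (w.under (𝓞 K)).asIdeal m := (not_mem_badPrimes_iff hm _).mp hw
      have hPmax : w.asIdeal.IsMaximal := w.isMaximal
      have hpmax : (w.under (𝓞 K)).asIdeal.IsMaximal := (w.under (𝓞 K)).isMaximal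
      have hlies : w.asIdeal.LiesOver (w.under (𝓞 K)).asIdeal := ⟨rfl⟩
      have hrel := Ideal.relNorm_eq_pow_of_isMaximal w.asIdeal (w.under (𝓞 K)).asIdeal
      rw [hf, pow_one] at hrel
      have := hcN w hcop
      rw [hrel] at this
      exact this
  -- bounds for the factors
  have hB' : ∀ χ : A →* ℂˣ, ∃ B : ℝ, χ ≠ 1 → ∀ s, 1 < s → s ≤ 2 →
      ‖classL c hc1 hcmul χ s‖ ≤ B := by
    intro χ
    by_cases hχ : χ = 1
    · exact ⟨0, fun h => absurd hχ h⟩
    · obtain ⟨B, hBχ⟩ := exists_norm_classL_le c hc1 hcmul hcP hsurj hm hχ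
      exact ⟨B, fun _ => hBχ⟩
  choose Bf hBf using hB'
  set B : ℝ := 1 + ∑ χ : A →* ℂˣ, |Bf χ| with hBdef
  have hB1 : 1 ≤ B := by
    have : 0 ≤ ∑ χ : A →* ℂˣ, |Bf χ| := Finset.sum_nonneg fun _ _ => abs_nonneg _
    linarith
  have hBle : ∀ χ : A →* ℂˣ, χ ≠ 1 → ∀ s, 1 < s → s ≤ 2 → ‖classL c hc1 hcmul χ s‖ ≤ B := by
    intro χ hχ s hs hs2
    refine (hBf χ hχ s hs hs2).trans ((le_abs_self _).trans ?_)
    have : |Bf χ| ≤ ∑ χ : A →* ℂˣ, |Bf χ| :=
      Finset.single_le_sum (f := fun χ => |Bf χ|) (fun _ _ => abs_nonneg _) (Finset.mem_univ χ)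
    linarith
  obtain ⟨DF, hDF⟩ := exists_sub_one_mul_zetaN_le K
  have hC'0 : 0 ≤ C' := by
    have h1 := hLip 2 (by norm_num) le_rfl
    have h2 := (norm_nonneg _).trans h1
    norm_num at h2
    exact h2
  set N := Fintype.card (A →* ℂˣ) with hN
  -- the product over the characters is bounded
  have hprod : ∀ s, 1 < s → s ≤ 2 →
      ∏ χ : A →* ℂˣ, ‖classL c hc1 hcmul χ s‖ ≤ DF * C' * B ^ N := by
    intro s hs hs2
    have hs0 : 0 < s - 1 := by linarith
    rw [← Finset.mul_prod_erase Finset.univ _ (Finset.mem_univ (1 : A →* ℂˣ)),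
      ← Finset.mul_prod_erase (Finset.univ.erase (1 : A →* ℂˣ)) _
        (Finset.mem_erase.mpr ⟨hχ₀, Finset.mem_univ χ₀⟩)]
    have h1 : ‖classL c hc1 hcmul 1 s‖ ≤ zetaN K s := by
      have := nLA_one_le K S (fun v => c v.asIdeal) (fun s => ‖dedekindZeta K s‖)
        (fun χ s => ‖gLSeries (res (ψ χ)) s‖)
        (fun s hs => hasProd_norm_dedekindZeta K (fun f hf => ideal_eulerProduct_hasProd f hf) hs)
        (by
          intro χ s hs
          have h := hasProd_norm_gLSeries (hψle χ) hs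
          convert h using 2 with v
          rw [hψ, idealChar_prime (hm := hm)]
          by_cases hv : v ∈ S
          · rw [if_pos hv, if_pos hv, zero_mul, sub_zero, inv_one, norm_one]
          · rw [if_neg hv, if_neg hv]) hs
      exact this
    have h2 : ‖classL c hc1 hcmul χ₀ s‖ ≤ C' * (s - 1) := by
      have := hLip s hs hs2
      rwa [hL1, sub_zero] at this
    have h3 : ∏ χ ∈ (Finset.univ.erase (1 : A →* ℂˣ)).erase χ₀, ‖classL c hc1 hcmul χ s‖ ≤
        B ^ N := by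
      calc ∏ χ ∈ (Finset.univ.erase (1 : A →* ℂˣ)).erase χ₀, ‖classL c hc1 hcmul χ s‖
          ≤ ∏ _χ ∈ (Finset.univ.erase (1 : A →* ℂˣ)).erase χ₀, B :=
            Finset.prod_le_prod (fun χ _ => norm_nonneg _) (fun χ hχ =>
              hBle χ (Finset.ne_of_mem_erase (Finset.mem_of_mem_erase hχ)) s hs hs2)
        _ = B ^ ((Finset.univ.erase (1 : A →* ℂˣ)).erase χ₀).card := Finset.prod_const _
        _ ≤ B ^ N := by
            refine pow_le_pow_right₀ hB1 ?_
            rw [hN, ← Finset.card_univ]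
            exact Finset.card_le_card (fun χ _ => Finset.mem_univ χ)
    have hz0 : 0 ≤ zetaN K s := (zetaN_pos K hs).le
    have hP0 : 0 ≤ ∏ χ ∈ (Finset.univ.erase (1 : A →* ℂˣ)).erase χ₀,
        ‖classL c hc1 hcmul χ s‖ := Finset.prod_nonneg fun χ _ => norm_nonneg _
    have hBN : 0 ≤ B ^ N := pow_nonneg (zero_le_one.trans hB1) _
    calc ‖classL c hc1 hcmul 1 s‖ * (‖classL c hc1 hcmul χ₀ s‖ *
          ∏ χ ∈ (Finset.univ.erase (1 : A →* ℂˣ)).erase χ₀, ‖classL c hc1 hcmul χ s‖)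
        ≤ zetaN K s * ((C' * (s - 1)) * B ^ N) := by
          refine mul_le_mul h1 ?_ (mul_nonneg (norm_nonneg _) hP0) hz0
          exact mul_le_mul h2 h3 hP0 (mul_nonneg hC'0 hs0.le)
      _ = ((s - 1) * zetaN K s) * C' * B ^ N := by ring
      _ ≤ DF * C' * B ^ N := by
          refine mul_le_mul_of_nonneg_right ?_ hBN
          exact mul_le_mul_of_nonneg_right (hDF s hs hs2) hC'0
  -- hence `ζ_L` is bounded on `(1, 2]`
  set D' : ℝ := (DF * C' * B ^ N) ^ n * (zetaN K 2 * 2 ^ S.card) ^ (n * h) with hD'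
  obtain ⟨s, hs, hs2, hlt⟩ := exists_lt_zetaN L D'
  have hz1 : 1 ≤ zetaN L s := one_le_zetaN L hs
  have hle : zetaN L s ≤ zetaN L s ^ h := by
    calc zetaN L s = zetaN L s ^ 1 := (pow_one _).symm
      _ ≤ zetaN L s ^ h := pow_le_pow_right₀ hz1 hh0
  have hP0 : 0 ≤ ∏ χ : A →* ℂˣ, ‖classL c hc1 hcmul χ s‖ :=
    Finset.prod_nonneg fun χ _ => norm_nonneg _
  have hK0 : 0 ≤ (zetaN K 2 * 2 ^ S.card) ^ (n * h) :=
    pow_nonneg (mul_nonneg (zetaN_pos K (by norm_num)).le (by positivity)) _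
  have hfin : zetaN L s ^ h ≤ D' :=
    (hmain s hs).trans (mul_le_mul_of_nonneg_right
      (pow_le_pow_left₀ hP0 (hprod s hs hs2) n) hK0)
  linarith

end ClassL

end Fermat.Agent.Cheb
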