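import Fermat.Agent.Cheb.PrimeSets

/-!
# Chebotarev track: the prime weights of a number field (glue of Z1, Z2 and the density calculus)

For a number field `K` the weights `primeTerm K s v = N(v)^(-s)` on the nonzero primes of `𝓞 K`
are admissible in the sense of `Dens.IsWeight`, and **unconditionally**

* `hasLogDensity_univ` : the set of all primes has logarithmic density `1`;
* `hasLogDensity_isDegreeOne` : the degree-one primes have logarithmic density `1`;
* `hasLogDensity_not_isDegreeOne` : the primes of degree `≥ 2` have logarithmic density `0`;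
* `HasLogDensity.inter_isDegreeOne` : intersecting with the degree-one primes does not change the
  logarithmic density.
-/

set_option autoImplicit false

open NumberField IsDedekindDomain

namespace Fermat.Agent.Cheb

open Fermat.Agent.Cheb.Dens Fermat.Agent.Cheb.DegOne

variable (K : Type*) [Field K] [NumberField K]

theorem setSum_primeTerm_univ (s : ℝ) : setSum (primeTerm K) Set.univ s = primeSum K s := by
  unfold setSum primeSum
  rw [Set.indicator_univ]

/-- **Z1 in density language**: the set of all primes has logarithmic density `1`. -/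
theorem hasLogDensity_univ : HasLogDensity (primeTerm K) Set.univ 1 := by
  obtain ⟨C, hC⟩ := exists_primeSum_sub_log_le K
  refine ⟨C, fun s h1 h2 => ?_⟩
  rw [setSum_primeTerm_univ, one_mul]
  exact hC s h1 h2

/-- The degree-one primes have logarithmic density `1`. -/
theorem hasLogDensity_isDegreeOne :
    HasLogDensity (primeTerm K) {v : HeightOneSpectrum (𝓞 K) | IsDegreeOne K v} 1 := by
  have h := hasLogDensity_degreeOne_diff K ∅
  simpa using h

/-- The primes of degree `≥ 2` have logarithmic density `0` (indeed a bounded sum). -/
theorem hasLogDensity_not_isDegreeOne :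
    HasLogDensity (primeTerm K) {v : HeightOneSpectrum (𝓞 K) | ¬ IsDegreeOne K v} 0 := by
  refine ⟨higherDegreeBound K, fun s h1 h2 => ?_⟩
  rw [zero_mul, sub_zero, abs_of_nonneg (setSum_nonneg (isWeight_primeTerm K) _ h1 h2)]
  exact tsum_indicator_not_isDegreeOne_le K h1

variable {K}

/-- Intersecting with the degree-one primes does not change the logarithmic density. -/
theorem HasLogDensity.inter_isDegreeOne {S : Set (HeightOneSpectrum (𝓞 K))} {δ : ℝ}
    (hS : HasLogDensity (primeTerm K) S δ) :
    HasLogDensity (primeTerm K) (S ∩ {v | IsDegreeOne K v}) δ := by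
  classical
  have hw := isWeight_primeTerm K
  -- `1_{S ∩ D} = 1_S - 1_{S ∩ Dᶜ}`
  have hsub : HasLogDensity (primeTerm K) (S ∩ {v | ¬ IsDegreeOne K v}) 0 := by
    obtain ⟨C, hC⟩ := hasLogDensity_not_isDegreeOne K
    refine ⟨C, fun s h1 h2 => ?_⟩
    have h0 := hC s h1 h2
    rw [zero_mul, sub_zero] at h0 ⊢
    rw [abs_of_nonneg (setSum_nonneg hw _ h1 h2)] at h0 ⊢
    exact (setSum_mono hw Set.inter_subset_right h1 h2).trans h0
  have key := hasLogDensity_of_indicator_eq hw (Finset.univ : Finset (Fin 2))
    (fun i => if i = 0 then S else S ∩ {v | ¬ IsDegreeOne K v})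
    (fun i => if i = 0 then 1 else -1)
    (fun i => if i = 0 then δ else 0) (S ∩ {v | IsDegreeOne K v}) ?_ ?_
  · simpa [Fin.sum_univ_two] using key
  · intro v
    simp only [Fin.sum_univ_two]
    by_cases hvS : v ∈ S <;> by_cases hvD : IsDegreeOne K v <;> simp [hvS, hvD]
  · intro i _
    fin_cases i
    · simpa using hS
    · simpa using hsub

/-- A set of primes containing all but finitely many degree-one primes has density `1`. -/
theorem hasLogDensity_one_of_finite_diff {S : Set (HeightOneSpectrum (𝓞 K))}
    (hS : ({v : HeightOneSpectrum (𝓞 K) | IsDegreeOne K v} \ S).Finite) :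
    HasLogDensity (primeTerm K) (S ∩ {v | IsDegreeOne K v}) 1 := by
  have h := (hasLogDensity_isDegreeOne K).inter_of_finite_diff (isWeight_primeTerm K) hS
  rwa [Set.inter_comm] at h

end Fermat.Agent.Cheb
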