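import Mathlib
import Fermat.Agent.Cheb.NonVanish
import Fermat.Agent.Cheb.LogBranch
import Fermat.Agent.Cheb.CharOrth
import Fermat.Agent.Cheb.PrimeWeight

/-!
# Chebotarev track (milestone 2, node A6): the class density theorem

Setting of the second inequality (`CFT.Second.card_le_finrank_of_ideal_map`): `K ⊆ L` number fields,
`m ≠ ⊥` an ideal of `𝓞 K`, `A` a finite abelian group, `c : Ideal (𝓞 K) → A` multiplicative on the
nonzero ideals prime to `m`, trivial on the principal ideals `(α)`, `α ≡ 1 mod m`, trivial on the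
norms of the primes of `L` prime to `m`, and surjective.

**Theorem** (`hasLogDensity_class`): for every `a : A` the set of primes `v` of `K` prime to `m` with
`c v = a` has logarithmic (Dirichlet) density `1 / #A`.

Corollaries: the same for the degree-one primes (`hasLogDensity_class_degreeOne`), and the existence
of a degree-one prime of class `a` outside any finite set (`exists_prime_class_notMem`).

With `c` the Artin symbol of an abelian extension `L / K` (Artin reciprocity gives the hypothesis on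
principal ideals) this is Chebotarev's density theorem for abelian extensions, in its exact form.
-/

set_option autoImplicit false
set_option linter.unusedSectionVars false

open NumberField IsDedekindDomain Filter Topology nonZeroDivisors

open Fermat.Agent.S14 Fermat.Agent.S14.Second Fermat.Agent.CFT.Second

namespace Fermat.Agent.Cheb

open Fermat.Agent.Cheb.Dens

section

variable {K : Type*} [Field K] [NumberField K] {m : Ideal (𝓞 K)}
  {A : Type*} [CommGroup A] [Finite A] (c : Ideal (𝓞 K) → A) (hc1 : c ⊤ = 1)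
  (hcmul : ∀ I J : Ideal (𝓞 K), I ≠ ⊥ → J ≠ ⊥ → IsCoprime I m → IsCoprime J m →
    c (I * J) = c I * c J)
  (hcP : ∀ α : 𝓞 K, α ≠ 0 → α - 1 ∈ m → c (Ideal.span {α}) = 1)
  (hsurj : ∀ a : A, ∃ I : Ideal (𝓞 K), I ≠ ⊥ ∧ IsCoprime I m ∧ c I = a)
  {L : Type*} [Field L] [NumberField L] [Algebra K L]
  (hcN : ∀ w : HeightOneSpectrum (𝓞 L), IsCoprime (w.under (𝓞 K)).asIdeal m →
    c (Ideal.relNorm (𝓞 K) w.asIdeal) = 1)

/-- The primes of `K` prime to `m`. -/
def coprimeSet (m : Ideal (𝓞 K)) : Set (HeightOneSpectrum (𝓞 K)) :=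
  {v | IsCoprime v.asIdeal m}

theorem finite_compl_coprimeSet (hm : m ≠ ⊥) : ((coprimeSet m)ᶜ).Finite := by
  refine (badPrimes m hm).finite_toSet.subset fun v hv => ?_
  rw [Finset.mem_coe]
  by_contra h
  exact hv ((not_mem_badPrimes_iff hm v).mp h)

/-- The primes prime to `m` have logarithmic density `1`. -/
theorem hasLogDensity_coprimeSet (hm : m ≠ ⊥) :
    HasLogDensity (primeTerm K) (coprimeSet m) 1 := by
  have h := (hasLogDensity_univ K).diff_finite (isWeight_primeTerm K)
    (finite_compl_coprimeSet (m := m) hm)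
  have e : (Set.univ : Set (HeightOneSpectrum (𝓞 K))) \ (coprimeSet m)ᶜ = coprimeSet m := by
    ext v
    simp
  rwa [e] at h

/-- The twisted sum of the class density lemma is `charPrimeSum` of the ideal character. -/
theorem tsum_indicator_coprimeSet_eq (hm : m ≠ ⊥) (χ : A →* ℂˣ) (s : ℝ) :
    ∑' v, (coprimeSet m).indicator
      (fun v : HeightOneSpectrum (𝓞 K) =>
        ((χ (c v.asIdeal) : ℂˣ) : ℂ) * ((primeTerm K s v : ℝ) : ℂ)) v =
      charPrimeSum (idealChar m c hc1 hcmul χ) s := by
  classical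
  unfold charPrimeSum
  refine tsum_congr fun v => ?_
  unfold eulerArg
  rw [idealChar_prime (hm := hm)]
  by_cases hv : v ∈ badPrimes m hm
  · have hv' : v ∉ coprimeSet m := fun h => (not_mem_badPrimes_iff hm v).mpr h hv
    rw [Set.indicator_of_notMem hv', if_pos hv, zero_mul]
  · have hv' : v ∈ coprimeSet m := (not_mem_badPrimes_iff hm v).mp hv
    rw [Set.indicator_of_mem hv', if_neg hv]

include hcP hsurj hcN in
/-- The twisted prime sums of the nontrivial characters are bounded on `(1, 2]`. -/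
theorem exists_norm_charPrimeSum_le (hm : m ≠ ⊥) {χ : A →* ℂˣ} (hχ : χ ≠ 1) :
    ∃ C : ℝ, ∀ s : ℝ, 1 < s → s ≤ 2 →
      ‖charPrimeSum (idealChar m c hc1 hcmul χ) s‖ ≤ C := by
  set ψ : Ideal (𝓞 K) →*₀ ℂ := idealChar m c hc1 hcmul χ with hψ
  have hψle : ∀ I, ‖ψ I‖ ≤ 1 := fun I => norm_idealChar_le m c hc1 hcmul χ I
  obtain ⟨L1, C', hLip⟩ := exists_norm_classL_sub_le c hc1 hcmul hcP hsurj hm hχ
  have hL1 : L1 ≠ 0 := classL_limit_ne_zero c hc1 hcmul hcP hsurj hcN hm hχ hLip
  obtain ⟨B, hB⟩ := LogBranch.exists_norm_le (eulerLog ψ) (classL c hc1 hcmul χ) L1 C'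
    ((continuousOn_eulerLog hψle).mono fun s hs => hs.1)
    (fun s hs => cexp_eulerLog hψle hs.1)
    (fun s hs => hLip s hs.1 hs.2) hL1
  refine ⟨B + primeSum K 2, fun s hs hs2 => ?_⟩
  have h1 := norm_charPrimeSum_le hψle hs
  have h2 := hB s ⟨hs, hs2⟩
  linarith

include hc1 hcmul hcP hsurj hcN in
/-- **The class density theorem**: every class of primes has logarithmic density `1 / #A`. -/
theorem hasLogDensity_class (hm : m ≠ ⊥) (a : A) :
    HasLogDensity (primeTerm K)
      {v : HeightOneSpectrum (𝓞 K) | IsCoprime v.asIdeal m ∧ c v.asIdeal = a}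
      (1 / (Nat.card A : ℝ)) := by
  classical
  have : Fintype (A →* ℂˣ) := Fintype.ofFinite _
  refine CharOrth.hasLogDensity_class (isWeight_primeTerm K) (coprimeSet m)
    (fun v => c v.asIdeal) (hasLogDensity_coprimeSet hm) (fun χ hχ => ?_) a
  obtain ⟨C, hC⟩ := exists_norm_charPrimeSum_le c hc1 hcmul hcP hsurj hcN hm hχ
  refine ⟨C, fun s hs hs2 => ?_⟩
  rw [tsum_indicator_coprimeSet_eq c hc1 hcmul hm χ s]
  exact hC s hs hs2

include hc1 hcmul hcP hsurj hcN in
/-- The class density theorem for the degree-one primes. -/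
theorem hasLogDensity_class_degreeOne (hm : m ≠ ⊥) (a : A) :
    HasLogDensity (primeTerm K)
      ({v : HeightOneSpectrum (𝓞 K) | IsCoprime v.asIdeal m ∧ c v.asIdeal = a} ∩
        {v | DegOne.IsDegreeOne K v})
      (1 / (Nat.card A : ℝ)) :=
  Fermat.Agent.Cheb.HasLogDensity.inter_isDegreeOne
    (hasLogDensity_class c hc1 hcmul hcP hsurj hcN hm a)

include hc1 hcmul hcP hsurj hcN in
/-- **Existence**: outside any finite set of primes there is a degree-one prime, prime to `m`, of
any given class. -/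
theorem exists_prime_class_notMem (hm : m ≠ ⊥) (a : A)
    {T : Set (HeightOneSpectrum (𝓞 K))} (hT : T.Finite) :
    ∃ v : HeightOneSpectrum (𝓞 K), IsCoprime v.asIdeal m ∧ c v.asIdeal = a ∧
      DegOne.IsDegreeOne K v ∧ v ∉ T := by
  have hpos : (0 : ℝ) < 1 / (Nat.card A : ℝ) := by
    have : (0 : ℝ) < Nat.card A := by exact_mod_cast Nat.card_pos
    positivity
  obtain ⟨v, hv, hvT⟩ := Dens.HasLogDensity.exists_notMem (isWeight_primeTerm K) hpos
    (hasLogDensity_class_degreeOne c hc1 hcmul hcP hsurj hcN hm a) hT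
  exact ⟨v, hv.1.1, hv.1.2, hv.2, hvT⟩

end

end Fermat.Agent.Cheb
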