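import Fermat.Agent.Cheb.CyclicGen
import Fermat.Agent.Cheb.PrimeSets

/-!
# Chebotarev track, node Z4 (number-field form)

`L/K` a cyclic Galois extension of number fields.  In hypothesis form over

* (Z3) `splSet K E` has logarithmic density `1/[E:K]` for every intermediate field `E`,
* (Z4b) for a good prime `v`: `v ∈ splSet K E ↔ frob K L v ∈ Gal(L/E)`,
* (F) only finitely many primes of `K` ramify in `L`,

the set `genSet K L` of degree-one primes of `K`, unramified in `L`, whose Frobenius generates
`Gal(L/K)` has logarithmic density `φ(n)/n`, `n = [L:K]`; in particular it meets the complement of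
every finite set of primes.
-/

set_option autoImplicit false

open IsDedekindDomain NumberField

namespace Fermat.Agent.Cheb

open Dens

open scoped IsMulCommutative

variable (K L : Type*) [Field K] [NumberField K] [Field L] [NumberField L] [Algebra K L]
  [IsGalois K L] [IsCyclic Gal(L/K)]

/-- **Node Z4** (hypothesis form): the primes whose Frobenius generates the cyclic group
`Gal(L/K)` have logarithmic density `φ(n)/n`. -/
theorem hasLogDensity_genSet_of
    (hZ3 : ∀ E : IntermediateField K L,
      HasLogDensity (primeTerm K) (splSet K E) (1 / (Module.finrank K E : ℝ)))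
    (hZ4b : ∀ E : IntermediateField K L, ∀ v ∈ goodSet K L,
      (v ∈ splSet K E ↔ S14.frob K L v.asIdeal ∈ E.fixingSubgroup))
    (hF : {v : HeightOneSpectrum (𝓞 K) | ¬ UnramIn K L v}.Finite) :
    HasLogDensity (primeTerm K) (genSet K L)
      ((Nat.totient (Module.finrank K L) : ℝ) / (Module.finrank K L : ℝ)) := by
  have key := CycGen.hasLogDensity_generators (isWeight_primeTerm K)
    (fun v : HeightOneSpectrum (𝓞 K) => S14.frob K L v.asIdeal) (goodSet K L)
    (fun H : Subgroup Gal(L/K) => splSet K (IntermediateField.fixedField H)) ?_ ?_ ?_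
  · rw [IsGalois.card_aut_eq_finrank] at key
    exact key
  · intro H
    have h := hZ3 (IntermediateField.fixedField H)
    rwa [IntermediateField.finrank_eq_fixingSubgroup_index,
      IntermediateField.fixingSubgroup_fixedField] at h
  · intro H
    refine hF.subset ?_
    rintro v ⟨hv1, hv2⟩ hunr
    exact hv2 ⟨hv1.1, hunr⟩
  · intro H v hv
    have h := hZ4b (IntermediateField.fixedField H) v hv
    rwa [IntermediateField.fixingSubgroup_fixedField] at h

/-- **Node Z4**, existence form: outside every finite set of primes of `K` there is a degree-one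
prime, unramified in `L`, whose Frobenius generates `Gal(L/K)`. -/
theorem exists_mem_genSet_notMem_of
    (hZ3 : ∀ E : IntermediateField K L,
      HasLogDensity (primeTerm K) (splSet K E) (1 / (Module.finrank K E : ℝ)))
    (hZ4b : ∀ E : IntermediateField K L, ∀ v ∈ goodSet K L,
      (v ∈ splSet K E ↔ S14.frob K L v.asIdeal ∈ E.fixingSubgroup))
    (hF : {v : HeightOneSpectrum (𝓞 K) | ¬ UnramIn K L v}.Finite)
    {T : Set (HeightOneSpectrum (𝓞 K))} (hT : T.Finite) :
    ∃ v, v ∈ genSet K L ∧ v ∉ T := by
  have hpos : 0 < (Nat.totient (Module.finrank K L) : ℝ) / (Module.finrank K L : ℝ) := by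
    have hn0 : 0 < Module.finrank K L := Module.finrank_pos
    exact div_pos (by exact_mod_cast Nat.totient_pos.mpr hn0) (by exact_mod_cast hn0)
  exact (hasLogDensity_genSet_of K L hZ3 hZ4b hF).exists_notMem (isWeight_primeTerm K) hpos hT

end Fermat.Agent.Cheb
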