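import Fermat.Agent.Cheb.Deuring
import Fermat.Agent.Cheb.CyclicGenNF
import Fermat.Agent.S14.FrobBasic

/-!
# T3 (Chebotarev track): from node Z4 (number-field form) to the Prelude-side generator form

`GenSetMeets` is the conclusion of `exists_mem_genSet_notMem_of` (`CyclicGenNF.lean`) for all
cyclic extensions `L/K` of number fields: `genSet K L` meets the complement of every finite set of
primes of `K`.

* `cyclicGenFrob_of_genSetMeets : GenSetMeets → CyclicGenFrob`;
* `chebGen_of_genSetMeets : GenSetMeets → ChebGen`;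
* `genSetMeets_of` : `GenSetMeets` from the three hypotheses (Z3), (Z4b), (F) of `CyclicGenNF.lean`
  (for all cyclic `L/K`).
-/

set_option autoImplicit false
set_option linter.unusedSectionVars false
set_option linter.style.haveILetI false

open IsDedekindDomain NumberField

namespace Fermat.Agent.Cheb

/-- Node Z4, existence form, for all cyclic extensions of number fields. -/
def GenSetMeets : Prop :=
  ∀ (K L : Type) [Field K] [NumberField K] [Field L] [NumberField L] [Algebra K L] [IsGalois K L]
    [IsCyclic Gal(L/K)] (T : Set (HeightOneSpectrum (𝓞 K))), T.Finite →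
    ∃ v, v ∈ genSet K L ∧ v ∉ T

/-- Only finitely many primes of a number field have their norm in a given finite set. -/
theorem finite_setOf_absNorm_mem (K : Type*) [Field K] [NumberField K] (T : Finset ℕ) :
    {v : HeightOneSpectrum (𝓞 K) | Ideal.absNorm v.asIdeal ∈ T}.Finite := by
  have h1 : {I : Ideal (𝓞 K) | Ideal.absNorm I ∈ T}.Finite := by
    have h2 : {I : Ideal (𝓞 K) | Ideal.absNorm I ∈ T} =
        ⋃ n ∈ T, {I : Ideal (𝓞 K) | Ideal.absNorm I = n} := by
      ext I
      simp
    rw [h2]
    exact Set.Finite.biUnion T.finite_toSet (fun n _ => Ideal.finite_setOfPred_absNorm_eq n)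
  refine Set.Finite.of_injOn (f := HeightOneSpectrum.asIdeal) (fun v hv => hv) ?_ h1
  intro v _ w _ h
  exact HeightOneSpectrum.ext h

theorem cyclicGenFrob_of_genSetMeets (H : GenSetMeets) : CyclicGenFrob := by
  intro K L _ _ _ _ _ _ _ T
  obtain ⟨v, hv, hvT⟩ := H K L _ (finite_setOf_absNorm_mem K T)
  obtain ⟨⟨hdeg, -⟩, hgen⟩ := hv
  haveI : v.asIdeal.IsPrime := v.isPrime
  have hcard : Nat.card (𝓞 K ⧸ (S14.primeOver K L v.asIdeal).under (𝓞 K)) =
      Ideal.absNorm v.asIdeal := by
    rw [← Ideal.over_def (S14.primeOver K L v.asIdeal) v.asIdeal, Ideal.absNorm_apply,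
      Submodule.cardQuot_apply]
  refine ⟨S14.primeOver K L v.asIdeal, S14.frob K L v.asIdeal, inferInstance, ?_, ?_,
    S14.frob_spec K L v.asIdeal v.ne_bot, hgen⟩
  · rw [hcard]
    exact hdeg
  · rw [hcard]
    exact hvT

theorem chebGen_of_genSetMeets (H : GenSetMeets) : ChebGen :=
  chebGen_of_cyclicGenFrob (cyclicGenFrob_of_genSetMeets H)

open Dens in
/-- `GenSetMeets` from the hypotheses (Z3), (Z4b), (F) of `CyclicGenNF.lean`. -/
theorem genSetMeets_of
    (hZ3 : ∀ (K L : Type) [Field K] [NumberField K] [Field L] [NumberField L] [Algebra K L]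
      [IsGalois K L] (E : IntermediateField K L),
      HasLogDensity (primeTerm K) (splSet K E) (1 / (Module.finrank K E : ℝ)))
    (hZ4b : ∀ (K L : Type) [Field K] [NumberField K] [Field L] [NumberField L] [Algebra K L]
      [IsGalois K L] (E : IntermediateField K L), ∀ v ∈ goodSet K L,
      (v ∈ splSet K E ↔ S14.frob K L v.asIdeal ∈ E.fixingSubgroup))
    (hF : ∀ (K L : Type) [Field K] [NumberField K] [Field L] [NumberField L] [Algebra K L]
      [IsGalois K L], {v : HeightOneSpectrum (𝓞 K) | ¬ UnramIn K L v}.Finite) :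
    GenSetMeets := by
  intro K L _ _ _ _ _ _ _ T hT
  exact exists_mem_genSet_notMem_of K L (hZ3 K L) (hZ4b K L) (hF K L) hT

end Fermat.Agent.Cheb
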