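import Fermat.Agent.Cheb.DensityCalc

/-!
# Chebotarev track, node Z4 (abstract form): generators of a cyclic group

Abstract assembly: `G` a finite cyclic group of order `n`, `fr : P → G` a "Frobenius" map on an
index type `P` with weights `w`, `U ⊆ P` the "good" indices, and for every subgroup `H` a set
`SplH H ⊆ P` of logarithmic density `1 / [G : H]` such that for `v ∈ U` one has
`v ∈ SplH H ↔ fr v ∈ H` and `SplH H \ U` is finite.  Then the set of `v ∈ U` with `fr v` a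
generator of `G` has logarithmic density `φ(n) / n`; in particular it meets the complement of
every finite set.

The proof is inclusion–exclusion over the subgroups `{g | g ^ (n / d) = 1}` of index `d`, for the
squarefree divisors `d` of `n`.
-/

set_option autoImplicit false

namespace Fermat.Agent.Cheb.CycGen

open Fermat.Agent.Cheb.Dens

/-! ### Arithmetic of divisors -/

theorem dvd_div_iff_dvd_cofactor {o c d : ℕ} (ho : 0 < o) (hd : d ∣ o * c) :
    o ∣ o * c / d ↔ d ∣ c := by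
  rw [Nat.dvd_div_iff_mul_dvd hd, mul_comm d o]
  exact Nat.mul_dvd_mul_iff_left ho

theorem eq_iff_forall_not_dvd_div {o n : ℕ} (hn : 0 < n) (ho : o ∣ n) :
    o = n ↔ ∀ ℓ ∈ n.primeFactors, ¬ o ∣ n / ℓ := by
  obtain ⟨c, rfl⟩ := ho
  have ho0 : 0 < o := Nat.pos_of_mul_pos_right hn
  have hc0 : 0 < c := Nat.pos_of_mul_pos_left hn
  constructor
  · intro h ℓ hℓ hdvd
    have hℓp := Nat.prime_of_mem_primeFactors hℓ
    have hℓn := Nat.dvd_of_mem_primeFactors hℓ
    rw [dvd_div_iff_dvd_cofactor ho0 hℓn] at hdvd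
    have hc1 : c = 1 := by
      have : o * c = o * 1 := by rw [mul_one]; exact h.symm
      exact Nat.eq_of_mul_eq_mul_left ho0 this
    rw [hc1] at hdvd
    exact hℓp.one_lt.ne' (Nat.dvd_one.mp hdvd)
  · intro h
    by_contra hne
    have hc1 : c ≠ 1 := fun hc => hne (by rw [hc, mul_one])
    obtain ⟨ℓ, hℓp, hℓc⟩ := Nat.exists_prime_and_dvd hc1
    have hℓn : ℓ ∣ o * c := dvd_mul_of_dvd_right hℓc o
    have hmem : ℓ ∈ (o * c).primeFactors := Nat.mem_primeFactors.mpr ⟨hℓp, hℓn, hn.ne'⟩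
    exact h ℓ hmem ((dvd_div_iff_dvd_cofactor ho0 hℓn).mpr hℓc)

theorem prod_dvd_of_subset_primeFactors {n : ℕ} {t : Finset ℕ} (ht : t ⊆ n.primeFactors) :
    ∏ ℓ ∈ t, ℓ ∣ n :=
  Finset.prod_primes_dvd n (fun _ hℓ => (Nat.prime_of_mem_primeFactors (ht hℓ)).prime)
    (fun _ hℓ => Nat.dvd_of_mem_primeFactors (ht hℓ))

theorem forall_dvd_div_iff {o n : ℕ} (hn : 0 < n) (ho : o ∣ n) {t : Finset ℕ}
    (ht : t ⊆ n.primeFactors) :
    (∀ ℓ ∈ t, o ∣ n / ℓ) ↔ o ∣ n / ∏ ℓ ∈ t, ℓ := by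
  obtain ⟨c, rfl⟩ := ho
  have ho0 : 0 < o := Nat.pos_of_mul_pos_right hn
  rw [dvd_div_iff_dvd_cofactor ho0 (prod_dvd_of_subset_primeFactors ht)]
  constructor
  · intro h
    refine Finset.prod_primes_dvd c (fun ℓ hℓ => (Nat.prime_of_mem_primeFactors (ht hℓ)).prime)
      (fun ℓ hℓ => ?_)
    exact (dvd_div_iff_dvd_cofactor ho0 (Nat.dvd_of_mem_primeFactors (ht hℓ))).mp (h ℓ hℓ)
  · intro h ℓ hℓ
    rw [dvd_div_iff_dvd_cofactor ho0 (Nat.dvd_of_mem_primeFactors (ht hℓ))]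
    exact (Finset.dvd_prod_of_mem _ hℓ).trans h

/-- `∑_{t ⊆ primeFactors n} (-1)^{#t} / ∏ t = φ(n) / n`. -/
theorem sum_powerset_primeFactors (n : ℕ) (hn : 0 < n) :
    ∑ t ∈ n.primeFactors.powerset, (-1 : ℝ) ^ t.card * (1 / ((∏ ℓ ∈ t, ℓ : ℕ) : ℝ)) =
      (n.totient : ℝ) / n := by
  have h1 : ∏ ℓ ∈ n.primeFactors, (1 - ((ℓ : ℝ))⁻¹) =
      ∑ t ∈ n.primeFactors.powerset, (-1 : ℝ) ^ t.card * (1 / ((∏ ℓ ∈ t, ℓ : ℕ) : ℝ)) := by
    rw [Finset.prod_sub]
    refine Finset.sum_congr rfl fun t _ => ?_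
    rw [Finset.prod_const_one, mul_one, Nat.cast_prod, one_div, Finset.prod_inv_distrib]
  rw [← h1]
  have h2 := Nat.totient_eq_mul_prod_factors n
  have h3 : ((n.totient : ℚ) : ℝ) = ((n : ℚ) * ∏ p ∈ n.primeFactors, (1 - (p : ℚ)⁻¹) : ℚ) := by
    rw [h2]
  push_cast at h3
  rw [h3, mul_div_assoc, mul_comm, div_mul_cancel₀]
  · exact_mod_cast hn.ne'

/-! ### The subgroups of a finite cyclic group -/

section Group

/-- The subgroup `{g | g ^ (n / d) = 1}`, of index `d` when `d ∣ n = #G`. -/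
noncomputable def divSubgroup (G : Type*) [CommGroup G] (d : ℕ) : Subgroup G :=
  (powMonoidHom (Nat.card G / d) : G →* G).ker

theorem mem_divSubgroup_iff {G : Type*} [CommGroup G] (d : ℕ) (g : G) :
    g ∈ divSubgroup G d ↔ orderOf g ∣ Nat.card G / d := by
  rw [divSubgroup, MonoidHom.mem_ker, powMonoidHom_apply, orderOf_dvd_iff_pow_eq_one]

variable {G : Type*} [CommGroup G] [Finite G]

theorem zpowers_eq_top_iff_orderOf (g : G) :
    Subgroup.zpowers g = ⊤ ↔ orderOf g = Nat.card G := by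
  constructor
  · intro h
    exact orderOf_eq_card_of_zpowers_eq_top h
  · intro h
    apply Subgroup.eq_top_of_card_eq
    rw [Nat.card_zpowers, h]

theorem zpowers_eq_top_iff_forall_notMem (g : G) :
    Subgroup.zpowers g = ⊤ ↔ ∀ ℓ ∈ (Nat.card G).primeFactors, g ∉ divSubgroup G ℓ := by
  rw [zpowers_eq_top_iff_orderOf,
    eq_iff_forall_not_dvd_div Nat.card_pos (orderOf_dvd_natCard g)]
  simp only [mem_divSubgroup_iff]

theorem forall_mem_divSubgroup_iff (g : G) {t : Finset ℕ} (ht : t ⊆ (Nat.card G).primeFactors) :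
    (∀ ℓ ∈ t, g ∈ divSubgroup G ℓ) ↔ g ∈ divSubgroup G (∏ ℓ ∈ t, ℓ) := by
  simp only [mem_divSubgroup_iff]
  exact forall_dvd_div_iff Nat.card_pos (orderOf_dvd_natCard g) ht

theorem totient_div_card_pos : 0 < (Nat.totient (Nat.card G) : ℝ) / (Nat.card G : ℝ) := by
  have hn0 : 0 < Nat.card G := Nat.card_pos
  exact div_pos (by exact_mod_cast Nat.totient_pos.mpr hn0) (by exact_mod_cast hn0)

variable [IsCyclic G]

theorem index_divSubgroup {d : ℕ} (hd : d ∣ Nat.card G) : (divSubgroup G d).index = d := by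
  have hn : 0 < Nat.card G := Nat.card_pos
  rw [divSubgroup, IsCyclic.index_powMonoidHom_ker]
  obtain ⟨c, hc⟩ := hd
  have hd0 : 0 < d := Nat.pos_of_mul_pos_right (hc ▸ hn)
  have hc0 : 0 < c := Nat.pos_of_mul_pos_left (hc ▸ hn)
  rw [hc, Nat.mul_div_cancel_left c hd0, Nat.gcd_eq_right (Dvd.intro_left d rfl),
    Nat.mul_div_cancel d hc0]

end Group

/-! ### The density of the generators -/

section Main

variable {P : Type*} {w : ℝ → P → ℝ} {G : Type*} [CommGroup G] [Finite G] [IsCyclic G]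

/-- **Node Z4, abstract form.** -/
theorem hasLogDensity_generators (hw : IsWeight w) (fr : P → G) (U : Set P)
    (SplH : Subgroup G → Set P)
    (hdens : ∀ H : Subgroup G, HasLogDensity w (SplH H) (1 / (H.index : ℝ)))
    (hfin : ∀ H : Subgroup G, (SplH H \ U).Finite)
    (hmem : ∀ H : Subgroup G, ∀ v ∈ U, (v ∈ SplH H ↔ fr v ∈ H)) :
    HasLogDensity w {v | v ∈ U ∧ Subgroup.zpowers (fr v) = ⊤}
      ((Nat.totient (Nat.card G) : ℝ) / (Nat.card G : ℝ)) := by
  classical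
  set n := Nat.card G with hn
  have hn0 : 0 < n := Nat.card_pos
  -- the sets `B t = {v ∈ U | fr v ∈ H_{∏ t}}`
  set B : Finset ℕ → Set P := fun t => SplH (divSubgroup G (∏ ℓ ∈ t, ℓ)) ∩ U with hB
  have hBdens : ∀ t ∈ n.primeFactors.powerset,
      HasLogDensity w (B t) (1 / ((∏ ℓ ∈ t, ℓ : ℕ) : ℝ)) := by
    intro t ht
    rw [Finset.mem_powerset] at ht
    have h := (hdens (divSubgroup G (∏ ℓ ∈ t, ℓ))).inter_of_finite_diff hw (hfin _)
    rwa [index_divSubgroup (prod_dvd_of_subset_primeFactors ht)] at h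
  have hBmem : ∀ t, ∀ v, v ∈ B t ↔ v ∈ U ∧ fr v ∈ divSubgroup G (∏ ℓ ∈ t, ℓ) := by
    intro t v
    constructor
    · rintro ⟨h1, h2⟩
      exact ⟨h2, (hmem _ v h2).mp h1⟩
    · rintro ⟨h1, h2⟩
      exact ⟨(hmem _ v h1).mpr h2, h1⟩
  rw [← sum_powerset_primeFactors n hn0]
  refine hasLogDensity_of_indicator_eq hw n.primeFactors.powerset B
    (fun t => (-1 : ℝ) ^ t.card) (fun t => 1 / ((∏ ℓ ∈ t, ℓ : ℕ) : ℝ)) _ ?_ hBdens
  intro v
  -- pointwise inclusion–exclusion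
  by_cases hvU : v ∈ U
  swap
  · rw [Set.indicator_of_notMem (fun h => hvU h.1)]
    symm
    refine Finset.sum_eq_zero fun t _ => ?_
    rw [Set.indicator_of_notMem (fun h => hvU ((hBmem t v).mp h).1), mul_zero]
  -- `x ℓ = 1` if `fr v ∈ H_ℓ`
  set x : ℕ → ℝ := fun ℓ => if fr v ∈ divSubgroup G ℓ then 1 else 0 with hx
  have hprod : ∀ t ∈ n.primeFactors.powerset,
      (B t).indicator (fun _ => (1 : ℝ)) v = ∏ ℓ ∈ t, x ℓ := by
    intro t ht
    rw [Finset.mem_powerset] at ht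
    by_cases h : fr v ∈ divSubgroup G (∏ ℓ ∈ t, ℓ)
    · rw [Set.indicator_of_mem ((hBmem t v).mpr ⟨hvU, h⟩)]
      symm
      refine Finset.prod_eq_one fun ℓ hℓ => ?_
      simp only [hx]
      rw [if_pos (((forall_mem_divSubgroup_iff (fr v) ht).mpr h) ℓ hℓ)]
    · rw [Set.indicator_of_notMem (fun h' => h ((hBmem t v).mp h').2)]
      symm
      have : ¬ ∀ ℓ ∈ t, fr v ∈ divSubgroup G ℓ := fun h' =>
        h ((forall_mem_divSubgroup_iff (fr v) ht).mp h')
      push Not at this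
      obtain ⟨ℓ, hℓ, hℓ'⟩ := this
      refine Finset.prod_eq_zero hℓ ?_
      simp only [hx]
      rw [if_neg hℓ']
  have hrhs : ∑ t ∈ n.primeFactors.powerset,
      (-1 : ℝ) ^ t.card * (B t).indicator (fun _ => (1 : ℝ)) v =
        ∏ ℓ ∈ n.primeFactors, (1 - x ℓ) := by
    rw [Finset.prod_sub]
    refine Finset.sum_congr rfl fun t ht => ?_
    rw [hprod t ht, Finset.prod_const_one, mul_one]
  rw [hrhs]
  by_cases hgen : Subgroup.zpowers (fr v) = ⊤
  · rw [Set.indicator_of_mem (show v ∈ {v | v ∈ U ∧ Subgroup.zpowers (fr v) = ⊤} from ⟨hvU, hgen⟩)]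
    symm
    refine Finset.prod_eq_one fun ℓ hℓ => ?_
    simp only [hx]
    rw [if_neg ((zpowers_eq_top_iff_forall_notMem (fr v)).mp hgen ℓ hℓ), sub_zero]
  · rw [Set.indicator_of_notMem (fun h => hgen h.2)]
    symm
    have : ¬ ∀ ℓ ∈ n.primeFactors, fr v ∉ divSubgroup G ℓ := fun h =>
      hgen ((zpowers_eq_top_iff_forall_notMem (fr v)).mpr h)
    push Not at this
    obtain ⟨ℓ, hℓ, hℓ'⟩ := this
    refine Finset.prod_eq_zero hℓ ?_
    simp only [hx]
    rw [if_pos hℓ', sub_self]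

/-- **Node Z4, abstract form, existence corollary**: outside every finite set there is a good
index whose Frobenius generates `G`. -/
theorem exists_generator_notMem (hw : IsWeight w) (fr : P → G) (U : Set P)
    (SplH : Subgroup G → Set P)
    (hdens : ∀ H : Subgroup G, HasLogDensity w (SplH H) (1 / (H.index : ℝ)))
    (hfin : ∀ H : Subgroup G, (SplH H \ U).Finite)
    (hmem : ∀ H : Subgroup G, ∀ v ∈ U, (v ∈ SplH H ↔ fr v ∈ H))
    {T : Set P} (hT : T.Finite) :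
    ∃ v, v ∈ U ∧ Subgroup.zpowers (fr v) = ⊤ ∧ v ∉ T := by
  obtain ⟨v, hv, hvT⟩ := (hasLogDensity_generators hw fr U SplH hdens hfin hmem).exists_notMem hw
    totient_div_card_pos hT
  exact ⟨v, hv.1, hv.2, hvT⟩

end Main

end Fermat.Agent.Cheb.CycGen
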