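import Mathlib

/-!
# T3 (Chebotarev, generator form) — node Z4a: cyclic group theory

For a finite cyclic group `G` of order `n` and `H d := {x ^ d}` (the subgroup of `d`-th powers, of
index `gcd n d`):

* `zpowers_eq_top_iff_forall_prime`: `g` generates `G` iff `g ∉ H ℓ` for all primes `ℓ ∣ n`;
* `mem_powSub_prod_iff`: for a set `D` of prime divisors of `n`, `g ∈ H (∏ D) ↔ ∀ ℓ ∈ D, g ∈ H ℓ`;
* `indicator_generator_eq_sum`: the inclusion–exclusion identity
  `1_{g generates} = Σ_{D ⊆ primeFactors n} (-1)^|D| 1_{g ∈ H (∏ D)}` in any commutative ring;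
* `sum_powerset_primeFactors_inv`: `Σ_{D ⊆ primeFactors n} (-1)^|D| / ∏ D = φ(n) / n`.
-/

set_option autoImplicit false
set_option linter.unusedSectionVars false

open Finset

namespace Fermat.Agent.Cheb

section CyclicGroup

variable (G : Type*) [CommGroup G]

/-- The subgroup of `d`-th powers. -/
abbrev powSub (d : ℕ) : Subgroup G := (powMonoidHom d : G →* G).range

variable {G}

lemma mem_powSub_iff {d : ℕ} {g : G} : g ∈ powSub G d ↔ ∃ x : G, x ^ d = g := Iff.rfl

lemma powSub_le_of_dvd {a b : ℕ} (h : a ∣ b) : powSub G b ≤ powSub G a := by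
  rintro _ ⟨x, rfl⟩
  obtain ⟨c, rfl⟩ := h
  exact ⟨x ^ c, by simp [powMonoidHom_apply, ← pow_mul, mul_comm]⟩

variable [IsCyclic G] [Finite G]

variable (G) in
lemma index_powSub_of_dvd {d : ℕ} (hd : d ∣ Nat.card G) : (powSub G d).index = d := by
  rw [IsCyclic.index_powMonoidHom_range, Nat.gcd_eq_right hd]

variable (G) in
lemma card_powSub_of_dvd {d : ℕ} (hd : d ∣ Nat.card G) :
    Nat.card (powSub G d) = Nat.card G / d := by
  rw [IsCyclic.card_powMonoidHom_range, Nat.gcd_eq_right hd]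

/-- In terms of a generator `γ`: `γ ^ k` is a `d`-th power iff `d ∣ k` (for `d ∣ n`). -/
lemma pow_mem_powSub_iff {γ : G} (hγ : ∀ x : G, x ∈ Subgroup.zpowers γ) {d : ℕ}
    (hd : d ∣ Nat.card G) (k : ℕ) : γ ^ k ∈ powSub G d ↔ d ∣ k := by
  have hord : orderOf γ = Nat.card G := orderOf_eq_card_of_forall_mem_zpowers hγ
  constructor
  · rintro ⟨x, hx⟩
    obtain ⟨j, rfl⟩ : ∃ j : ℕ, γ ^ j = x := by
      have := hγ x
      rwa [← mem_powers_iff_mem_zpowers] at this
    have h1 : γ ^ (j * d) = γ ^ k := by rw [pow_mul]; exact hx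
    rw [pow_eq_pow_iff_modEq, hord] at h1
    have h2 : j * d ≡ k [MOD d] := h1.of_dvd hd
    have h3 : j * d ≡ 0 [MOD d] := (Nat.modEq_zero_iff_dvd).2 (dvd_mul_left d j)
    exact (Nat.modEq_zero_iff_dvd).1 (h2.symm.trans h3)
  · rintro ⟨m, rfl⟩
    exact ⟨γ ^ m, by simp [powMonoidHom_apply, ← pow_mul, mul_comm]⟩

/-- `γ ^ k` generates iff `k` is prime to `n`. -/
lemma zpowers_pow_eq_top_iff {γ : G} (hγ : ∀ x : G, x ∈ Subgroup.zpowers γ) (k : ℕ) :
    Subgroup.zpowers (γ ^ k) = ⊤ ↔ Nat.Coprime (Nat.card G) k := by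
  have hord : orderOf γ = Nat.card G := orderOf_eq_card_of_forall_mem_zpowers hγ
  have hpos : 0 < Nat.card G := Nat.card_pos
  constructor
  · intro h
    have h1 := orderOf_eq_card_of_zpowers_eq_top h
    rw [orderOf_pow, hord] at h1
    have hg : 0 < (Nat.card G).gcd k := Nat.gcd_pos_of_pos_left _ hpos
    have h2 : (Nat.card G).gcd k ∣ Nat.card G := Nat.gcd_dvd_left _ _
    obtain ⟨c, hc⟩ := h2
    have h3 : Nat.card G / (Nat.card G).gcd k = c := Nat.div_eq_of_eq_mul_right hg hc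
    rw [h3] at h1
    have h4 : (Nat.card G).gcd k * c = 1 * c := by rw [← hc, one_mul, h1]
    have hcpos : 0 < c := by
      rcases Nat.eq_zero_or_pos c with h0 | h0
      · rw [h0, mul_zero] at hc; omega
      · exact h0
    exact Nat.eq_of_mul_eq_mul_right hcpos h4
  · intro h
    have h1 : orderOf (γ ^ k) = Nat.card G := by
      rw [orderOf_pow, hord, h, Nat.div_one]
    rw [Subgroup.eq_top_iff']
    intro x
    have h2 : Nat.card (Subgroup.zpowers (γ ^ k)) = Nat.card G := by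
      rw [Nat.card_zpowers, h1]
    have h3 : Subgroup.zpowers (γ ^ k) = ⊤ := Subgroup.eq_top_of_card_eq _ h2
    rw [h3]
    exact Subgroup.mem_top x


/-- **Generator criterion**: `g` generates the finite cyclic group `G` iff it is not an `ℓ`-th
power for any prime `ℓ` dividing the order of `G`. -/
theorem zpowers_eq_top_iff_forall_prime (g : G) :
    Subgroup.zpowers g = ⊤ ↔ ∀ ℓ : ℕ, ℓ.Prime → ℓ ∣ Nat.card G → g ∉ powSub G ℓ := by
  obtain ⟨γ, hγ⟩ := IsCyclic.exists_generator (α := G)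
  obtain ⟨k, rfl⟩ : ∃ k : ℕ, γ ^ k = g := by
    have := hγ g
    rwa [← mem_powers_iff_mem_zpowers] at this
  rw [zpowers_pow_eq_top_iff hγ]
  constructor
  · intro h ℓ hℓ hℓn hmem
    rw [pow_mem_powSub_iff hγ hℓn] at hmem
    have := Nat.dvd_gcd hℓn hmem
    rw [h.gcd_eq_one] at this
    exact hℓ.one_lt.ne' (Nat.dvd_one.1 this)
  · intro h
    refine Nat.coprime_of_dvd' fun ℓ hℓ hℓn hℓk => ?_
    exact absurd ((pow_mem_powSub_iff hγ hℓn k).2 hℓk) (h ℓ hℓ hℓn)

/-- For a set `D` of primes dividing the order, being a `∏ D`-th power means being an `ℓ`-th power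
for all `ℓ ∈ D`. -/
theorem mem_powSub_prod_iff (g : G) (D : Finset ℕ) (hD : D ⊆ (Nat.card G).primeFactors) :
    g ∈ powSub G (∏ ℓ ∈ D, ℓ) ↔ ∀ ℓ ∈ D, g ∈ powSub G ℓ := by
  obtain ⟨γ, hγ⟩ := IsCyclic.exists_generator (α := G)
  obtain ⟨k, rfl⟩ : ∃ k : ℕ, γ ^ k = g := by
    have := hγ g
    rwa [← mem_powers_iff_mem_zpowers] at this
  have hprime : ∀ ℓ ∈ D, ℓ.Prime := fun ℓ hℓ => Nat.prime_of_mem_primeFactors (hD hℓ)
  have hdvd : ∀ ℓ ∈ D, ℓ ∣ Nat.card G := fun ℓ hℓ => Nat.dvd_of_mem_primeFactors (hD hℓ)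
  have hprod : (∏ ℓ ∈ D, ℓ) ∣ Nat.card G := by
    refine dvd_trans ?_ (Nat.prod_primeFactors_dvd (Nat.card G))
    exact Finset.prod_dvd_prod_of_subset _ _ _ hD
  rw [pow_mem_powSub_iff hγ hprod]
  constructor
  · intro h ℓ hℓ
    rw [pow_mem_powSub_iff hγ (hdvd ℓ hℓ)]
    exact dvd_trans (Finset.dvd_prod_of_mem _ hℓ) h
  · intro h
    refine Finset.prod_primes_dvd k (fun ℓ hℓ => (hprime ℓ hℓ).prime) fun ℓ hℓ => ?_
    exact (pow_mem_powSub_iff hγ (hdvd ℓ hℓ) k).1 (h ℓ hℓ)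

variable (G) in
/-- The subgroup of `∏ D`-th powers has index `∏ D`. -/
theorem index_powSub_prod (D : Finset ℕ) (hD : D ⊆ (Nat.card G).primeFactors) :
    (powSub G (∏ ℓ ∈ D, ℓ)).index = ∏ ℓ ∈ D, ℓ := by
  refine index_powSub_of_dvd G ?_
  refine dvd_trans ?_ (Nat.prod_primeFactors_dvd (Nat.card G))
  exact Finset.prod_dvd_prod_of_subset _ _ _ hD

/-- **Inclusion–exclusion**: the indicator of the generators of a finite cyclic group, in any
commutative ring. -/
theorem indicator_generator_eq_sum {R : Type*} [CommRing R] (g : G)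
    [Decidable (Subgroup.zpowers g = ⊤)] [∀ d : ℕ, Decidable (g ∈ powSub G d)] :
    (if Subgroup.zpowers g = ⊤ then (1 : R) else 0) =
      ∑ D ∈ (Nat.card G).primeFactors.powerset,
        (-1 : R) ^ D.card * (if g ∈ powSub G (∏ ℓ ∈ D, ℓ) then (1 : R) else 0) := by
  classical
  have h1 : (if Subgroup.zpowers g = ⊤ then (1 : R) else 0) =
      ∏ ℓ ∈ (Nat.card G).primeFactors, ((1 : R) - (if g ∈ powSub G ℓ then (1 : R) else 0)) := by
    by_cases hg : Subgroup.zpowers g = ⊤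
    · rw [if_pos hg]
      symm
      refine Finset.prod_eq_one fun ℓ hℓ => ?_
      rw [if_neg ((zpowers_eq_top_iff_forall_prime g).1 hg ℓ (Nat.prime_of_mem_primeFactors hℓ)
        (Nat.dvd_of_mem_primeFactors hℓ)), sub_zero]
    · rw [if_neg hg]
      symm
      rw [zpowers_eq_top_iff_forall_prime] at hg
      push Not at hg
      obtain ⟨ℓ, hℓ, hℓn, hmem⟩ := hg
      have hℓmem : ℓ ∈ (Nat.card G).primeFactors :=
        Nat.mem_primeFactors.2 ⟨hℓ, hℓn, Nat.card_pos.ne'⟩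
      refine Finset.prod_eq_zero hℓmem ?_
      rw [if_pos hmem, sub_self]
  rw [h1, Finset.prod_sub]
  refine Finset.sum_congr rfl fun D hD => ?_
  rw [Finset.mem_powerset] at hD
  rw [Finset.prod_const_one, mul_one]
  congr 1
  by_cases h : g ∈ powSub G (∏ ℓ ∈ D, ℓ)
  · rw [if_pos h]
    refine Finset.prod_eq_one fun ℓ hℓ => ?_
    rw [if_pos ((mem_powSub_prod_iff g D hD).1 h ℓ hℓ)]
  · rw [if_neg h]
    rw [mem_powSub_prod_iff g D hD] at h
    push Not at h
    obtain ⟨ℓ, hℓ, hmem⟩ := h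
    refine Finset.prod_eq_zero hℓ ?_
    rw [if_neg hmem]

variable (G) in
/-- Uniqueness: a subgroup of index `d` of a finite cyclic group is the subgroup of `d`-th
powers. -/
theorem eq_powSub_of_index_eq (H : Subgroup G) {d : ℕ} (hd : H.index = d) :
    H = powSub G d := by
  have hdn : d ∣ Nat.card G := hd ▸ Subgroup.index_dvd_card H
  have hle : powSub G d ≤ H := by
    rintro _ ⟨x, rfl⟩
    rw [powMonoidHom_apply, ← hd]
    exact Subgroup.pow_index_mem H x
  have hdpos : 0 < d := by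
    rw [← hd]
    exact Nat.pos_of_ne_zero Subgroup.index_ne_zero_of_finite
  have hcard : Nat.card H = Nat.card G / d := by
    have h := Subgroup.card_mul_index H
    rw [hd] at h
    exact (Nat.div_eq_of_eq_mul_left hdpos h.symm).symm
  refine (Subgroup.eq_of_le_of_card_ge hle ?_).symm
  rw [hcard, card_powSub_of_dvd G hdn]

/-- An element lies in the subgroup of index `∏ D` iff it is an `ℓ`-th power for all `ℓ ∈ D`. -/
theorem mem_of_index_eq_prod_iff (H : Subgroup G) (D : Finset ℕ)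
    (hD : D ⊆ (Nat.card G).primeFactors) (hH : H.index = ∏ ℓ ∈ D, ℓ) (g : G) :
    g ∈ H ↔ ∀ ℓ ∈ D, g ∈ powSub G ℓ := by
  rw [eq_powSub_of_index_eq G H hH]
  exact mem_powSub_prod_iff g D hD

/-- **Inclusion–exclusion, subgroup form**: for any family `H D` of subgroups with
`(H D).index = ∏ D`, the indicator of the generators is `Σ_D (-1)^|D| 1_{H D}`. -/
theorem indicator_generator_eq_sum_of_index {R : Type*} [CommRing R] (g : G)
    (H : Finset ℕ → Subgroup G)
    (hH : ∀ D ∈ (Nat.card G).primeFactors.powerset, (H D).index = ∏ ℓ ∈ D, ℓ)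
    [Decidable (Subgroup.zpowers g = ⊤)] [∀ D : Finset ℕ, Decidable (g ∈ H D)] :
    (if Subgroup.zpowers g = ⊤ then (1 : R) else 0) =
      ∑ D ∈ (Nat.card G).primeFactors.powerset,
        (-1 : R) ^ D.card * (if g ∈ H D then (1 : R) else 0) := by
  classical
  rw [indicator_generator_eq_sum (R := R) g]
  refine Finset.sum_congr rfl fun D hD => ?_
  have hiff : g ∈ powSub G (∏ ℓ ∈ D, ℓ) ↔ g ∈ H D := by
    rw [← eq_powSub_of_index_eq G (H D) (hH D hD)]
  congr 1
  exact if_congr hiff rfl rfl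

end CyclicGroup

section Totient

/-- `Σ_{D ⊆ primeFactors n} (-1)^|D| / ∏ D = φ(n) / n`. -/
theorem sum_powerset_primeFactors_inv_rat (n : ℕ) (hn : n ≠ 0) :
    ∑ D ∈ n.primeFactors.powerset, (-1 : ℚ) ^ D.card * ((∏ ℓ ∈ D, ℓ : ℕ) : ℚ)⁻¹ =
      (n.totient : ℚ) / n := by
  rw [Nat.totient_eq_mul_prod_factors, mul_div_assoc, mul_comm, div_mul_cancel₀]
  · rw [Finset.prod_sub]
    refine Finset.sum_congr rfl fun D _ => ?_
    rw [Finset.prod_const_one, mul_one, Nat.cast_prod, Finset.prod_inv_distrib]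
  · exact_mod_cast hn

/-- Real version of `sum_powerset_primeFactors_inv_rat`. -/
theorem sum_powerset_primeFactors_inv_real (n : ℕ) (hn : n ≠ 0) :
    ∑ D ∈ n.primeFactors.powerset, (-1 : ℝ) ^ D.card * ((∏ ℓ ∈ D, ℓ : ℕ) : ℝ)⁻¹ =
      (n.totient : ℝ) / n := by
  have h := congrArg (fun x : ℚ => (x : ℝ)) (sum_powerset_primeFactors_inv_rat n hn)
  simp only [Rat.cast_sum, Rat.cast_mul, Rat.cast_pow, Rat.cast_neg, Rat.cast_one, Rat.cast_inv,
    Rat.cast_natCast, Rat.cast_div] at h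
  exact h

/-- The error of an inclusion–exclusion combination against the main term `φ(n)/n · L` is bounded
by the sum of the errors of the individual terms against `L / ∏ D`. -/
theorem abs_sum_powerset_sub_le (n : ℕ) (hn : n ≠ 0) (x : Finset ℕ → ℝ) (L : ℝ) :
    |∑ D ∈ n.primeFactors.powerset, (-1 : ℝ) ^ D.card * x D - (n.totient : ℝ) / n * L| ≤
      ∑ D ∈ n.primeFactors.powerset, |x D - ((∏ ℓ ∈ D, ℓ : ℕ) : ℝ)⁻¹ * L| := by
  rw [← sum_powerset_primeFactors_inv_real n hn, Finset.sum_mul, ← Finset.sum_sub_distrib]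
  refine (Finset.abs_sum_le_sum_abs _ _).trans (le_of_eq ?_)
  refine Finset.sum_congr rfl fun D _ => ?_
  rw [mul_assoc, ← mul_sub, abs_mul, abs_pow, abs_neg, abs_one, one_pow, one_mul]

end Totient

end Fermat.Agent.Cheb
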