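/-
Program C (Chebotarev, generator form), node Z2: **degree-one primes carry the whole prime zeta sum.**

`K` a number field, `v` ranging over the height-one primes of `𝓞 K`, `N v = absNorm v.asIdeal`.

* `natPrimeUnder K v`: the rational prime below `v`; at most `[K : ℚ]` primes lie over a given `p`
  (`card_filter_natPrimeUnder_le`);
* `summable_absNorm_rpow_neg`: `∑_v N(v)^{-s}` converges for `s > 1` (unconditional);
* `tsum_indicator_not_isDegreeOne_le`: the primes of residue degree `≥ 2` contribute at most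
  `[K : ℚ] · ∑_m m^{-2}` for every `s ≥ 1`;
* `exists_abs_degreeOne_sub_log_le`: if `∑_v N(v)^{-s} = log (1/(s-1)) + O(1)` on `(1,2]` (node Z1),
  the same holds for the sum over the degree-one primes outside any finite set `T`.
-/
import Mathlib

set_option autoImplicit false
set_option linter.unusedSectionVars false
set_option linter.style.haveILetI false
set_option linter.deprecated false

open NumberField IsDedekindDomain Ideal

noncomputable section

namespace Fermat.Agent.Cheb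

namespace DegOne

variable (K : Type*) [Field K] [NumberField K]

/-- A prime of `𝓞 K` has degree one if its absolute norm is a prime number. -/
def IsDegreeOne (v : HeightOneSpectrum (𝓞 K)) : Prop := (absNorm v.asIdeal).Prime

/-- The rational prime below a prime of `𝓞 K`. -/
def natPrimeUnder (v : HeightOneSpectrum (𝓞 K)) : ℕ :=
  haveI := v.isMaximal
  Classical.choose (exists_prime_and_absNorm_eq_pow v.asIdeal)

theorem natPrimeUnder_spec (v : HeightOneSpectrum (𝓞 K)) :
    ∃ n : ℕ, 0 < n ∧ ((natPrimeUnder K v : ℕ) : 𝓞 K) ∈ v.asIdeal ∧ (natPrimeUnder K v).Prime ∧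
      absNorm v.asIdeal = natPrimeUnder K v ^ n :=
  haveI := v.isMaximal
  Classical.choose_spec (exists_prime_and_absNorm_eq_pow v.asIdeal)

theorem natPrimeUnder_prime (v : HeightOneSpectrum (𝓞 K)) : (natPrimeUnder K v).Prime := by
  obtain ⟨n, -, -, h, -⟩ := natPrimeUnder_spec K v
  exact h

theorem natCast_natPrimeUnder_mem (v : HeightOneSpectrum (𝓞 K)) :
    ((natPrimeUnder K v : ℕ) : 𝓞 K) ∈ v.asIdeal := by
  obtain ⟨n, -, h, -, -⟩ := natPrimeUnder_spec K v
  exact h

/-- `N(v) = p ^ f` with `f ≥ 1`. -/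
theorem exists_absNorm_eq_pow (v : HeightOneSpectrum (𝓞 K)) :
    ∃ n : ℕ, 0 < n ∧ absNorm v.asIdeal = natPrimeUnder K v ^ n := by
  obtain ⟨n, hn, -, -, h⟩ := natPrimeUnder_spec K v
  exact ⟨n, hn, h⟩

/-- A prime which is not of degree one has `N(v) = p ^ f` with `f ≥ 2`. -/
theorem exists_absNorm_eq_pow_of_not_isDegreeOne {v : HeightOneSpectrum (𝓞 K)}
    (hv : ¬ IsDegreeOne K v) :
    ∃ n : ℕ, 2 ≤ n ∧ absNorm v.asIdeal = natPrimeUnder K v ^ n := by
  obtain ⟨n, hn, h⟩ := exists_absNorm_eq_pow K v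
  refine ⟨n, ?_, h⟩
  by_contra hlt
  have h1 : n = 1 := by omega
  apply hv
  unfold IsDegreeOne
  rw [h, h1, pow_one]
  exact natPrimeUnder_prime K v

/-- A degree-one prime has norm the prime below it. -/
theorem absNorm_eq_natPrimeUnder_of_isDegreeOne {v : HeightOneSpectrum (𝓞 K)}
    (hv : IsDegreeOne K v) : absNorm v.asIdeal = natPrimeUnder K v := by
  obtain ⟨n, hn, h⟩ := exists_absNorm_eq_pow K v
  unfold IsDegreeOne at hv
  rw [h] at hv ⊢
  have h1 : n = 1 := ((Nat.Prime.pow_eq_iff hv).1 rfl).2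
  rw [h1, pow_one]

theorem isDegreeOne_iff {v : HeightOneSpectrum (𝓞 K)} :
    IsDegreeOne K v ↔ absNorm v.asIdeal = natPrimeUnder K v :=
  ⟨absNorm_eq_natPrimeUnder_of_isDegreeOne K, fun h => by
    unfold IsDegreeOne; rw [h]; exact natPrimeUnder_prime K v⟩

theorem natPrimeUnder_le_absNorm (v : HeightOneSpectrum (𝓞 K)) :
    natPrimeUnder K v ≤ absNorm v.asIdeal := by
  obtain ⟨n, hn, h⟩ := exists_absNorm_eq_pow K v
  rw [h]
  exact Nat.le_self_pow hn.ne' _

/-- **At most `[K : ℚ]` primes lie over a rational prime.** -/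
theorem card_filter_natPrimeUnder_le (F : Finset (HeightOneSpectrum (𝓞 K))) (p : ℕ) :
    (F.filter (fun v => natPrimeUnder K v = p)).card ≤ Module.finrank ℚ K := by
  classical
  by_cases hp : p.Prime
  · have hp0 : Ideal.span {(p : ℤ)} ≠ ⊥ := by simpa using hp.ne_zero
    haveI hmax : (Ideal.span {(p : ℤ)}).IsMaximal :=
      ((Ideal.span_singleton_prime (by exact_mod_cast hp.ne_zero)).mpr
        (Nat.prime_iff_prime_int.mp hp)).isMaximal hp0
    refine le_trans ?_ (Ideal.card_primesOverFinset_le_finrank (𝓞 K) ℚ K hp0)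
    refine Finset.card_le_card_of_injOn (fun v => v.asIdeal) ?_ ?_
    · intro v hv
      rw [Finset.mem_coe, Finset.mem_filter] at hv
      rw [Finset.mem_coe, IsDedekindDomain.mem_primesOverFinset_iff hp0]
      refine ⟨v.isPrime, ⟨?_⟩⟩
      refine hmax.eq_of_le ?_ ?_
      · haveI := v.isPrime
        exact (Ideal.IsPrime.comap (algebraMap ℤ (𝓞 K))).ne_top
      · rw [Ideal.span_singleton_le_iff_mem, Ideal.under_def, Ideal.mem_comap]
        have h := natCast_natPrimeUnder_mem K v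
        rw [hv.2] at h
        simpa using h
    · intro v _ w _ h
      exact HeightOneSpectrum.ext h
  · have : F.filter (fun v => natPrimeUnder K v = p) = ∅ := by
      rw [Finset.filter_eq_empty_iff]
      intro v _ h
      exact hp (h ▸ natPrimeUnder_prime K v)
    rw [this, Finset.card_empty]
    exact Nat.zero_le _

/-- **Fibre bound**: a finite sum over primes of `𝓞 K` of terms bounded by a function of the
rational prime below is at most `[K : ℚ]` times the sum over the rational primes. -/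
theorem sum_le_finrank_mul_sum (F : Finset (HeightOneSpectrum (𝓞 K)))
    (w : HeightOneSpectrum (𝓞 K) → ℝ) (φ : ℕ → ℝ) (hφ : ∀ m, 0 ≤ φ m)
    (hw : ∀ v ∈ F, w v ≤ φ (natPrimeUnder K v)) :
    ∑ v ∈ F, w v ≤ (Module.finrank ℚ K : ℝ) * ∑ p ∈ F.image (natPrimeUnder K), φ p := by
  classical
  have h1 : ∑ v ∈ F, w v =
      ∑ p ∈ F.image (natPrimeUnder K), ∑ v ∈ F with natPrimeUnder K v = p, w v :=
    (Finset.sum_fiberwise_of_maps_to (fun v hv => Finset.mem_image_of_mem _ hv) _).symm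
  rw [h1, Finset.mul_sum]
  refine Finset.sum_le_sum fun p _ => ?_
  calc ∑ v ∈ F with natPrimeUnder K v = p, w v
      ≤ ∑ _v ∈ F with natPrimeUnder K _v = p, φ p := by
        refine Finset.sum_le_sum fun v hv => ?_
        rw [Finset.mem_filter] at hv
        rw [← hv.2]
        exact hw v hv.1
    _ = ((F.filter (fun v => natPrimeUnder K v = p)).card : ℝ) * φ p := by
        rw [Finset.sum_const, nsmul_eq_mul]
    _ ≤ (Module.finrank ℚ K : ℝ) * φ p := by
        refine mul_le_mul_of_nonneg_right ?_ (hφ p)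
        exact_mod_cast card_filter_natPrimeUnder_le K F p

theorem absNorm_pos (v : HeightOneSpectrum (𝓞 K)) : 0 < absNorm v.asIdeal := by
  obtain ⟨n, -, h⟩ := exists_absNorm_eq_pow K v
  rw [h]
  exact pow_pos (natPrimeUnder_prime K v).pos n

theorem term_nonneg (s : ℝ) (v : HeightOneSpectrum (𝓞 K)) :
    0 ≤ ((absNorm v.asIdeal : ℕ) : ℝ) ^ (-s) :=
  Real.rpow_nonneg (Nat.cast_nonneg _) _

theorem term_le_one {s : ℝ} (hs : 0 ≤ s) (v : HeightOneSpectrum (𝓞 K)) :
    ((absNorm v.asIdeal : ℕ) : ℝ) ^ (-s) ≤ 1 := by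
  have h1 : (1 : ℝ) ≤ ((absNorm v.asIdeal : ℕ) : ℝ) := by
    exact_mod_cast absNorm_pos K v
  exact Real.rpow_le_one_of_one_le_of_nonpos h1 (by linarith)

/-- `N(v)^{-s} ≤ p^{-s}` for `s ≥ 0`. -/
theorem term_le_natPrimeUnder_rpow {s : ℝ} (hs : 0 ≤ s) (v : HeightOneSpectrum (𝓞 K)) :
    ((absNorm v.asIdeal : ℕ) : ℝ) ^ (-s) ≤ ((natPrimeUnder K v : ℕ) : ℝ) ^ (-s) := by
  have hp : (0 : ℝ) < ((natPrimeUnder K v : ℕ) : ℝ) := by
    exact_mod_cast (natPrimeUnder_prime K v).pos
  have hle : ((natPrimeUnder K v : ℕ) : ℝ) ≤ ((absNorm v.asIdeal : ℕ) : ℝ) := by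
    exact_mod_cast natPrimeUnder_le_absNorm K v
  exact Real.rpow_le_rpow_of_nonpos hp hle (by linarith)

/-- `N(v)^{-s} ≤ p^{-2}` for `s ≥ 1` if `v` is not of degree one. -/
theorem term_le_natPrimeUnder_rpow_neg_two {s : ℝ} (hs : 1 ≤ s) {v : HeightOneSpectrum (𝓞 K)}
    (hv : ¬ IsDegreeOne K v) :
    ((absNorm v.asIdeal : ℕ) : ℝ) ^ (-s) ≤ ((natPrimeUnder K v : ℕ) : ℝ) ^ (-(2 : ℝ)) := by
  obtain ⟨n, hn, h⟩ := exists_absNorm_eq_pow_of_not_isDegreeOne K hv
  have hp1 : (1 : ℝ) ≤ ((natPrimeUnder K v : ℕ) : ℝ) := by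
    exact_mod_cast (natPrimeUnder_prime K v).one_le
  have hp0 : (0 : ℝ) < ((natPrimeUnder K v : ℕ) : ℝ) := by linarith
  have h2 : ((natPrimeUnder K v : ℕ) : ℝ) ^ (2 : ℕ) ≤ ((absNorm v.asIdeal : ℕ) : ℝ) := by
    rw [h]
    push_cast
    exact pow_le_pow_right₀ hp1 hn
  calc ((absNorm v.asIdeal : ℕ) : ℝ) ^ (-s)
      ≤ (((natPrimeUnder K v : ℕ) : ℝ) ^ (2 : ℕ)) ^ (-s) :=
        Real.rpow_le_rpow_of_nonpos (pow_pos hp0 2) h2 (by linarith)
    _ = ((natPrimeUnder K v : ℕ) : ℝ) ^ (-(2 * s)) := by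
        rw [← Real.rpow_natCast, ← Real.rpow_mul hp0.le]
        congr 1
        push_cast
        ring
    _ ≤ ((natPrimeUnder K v : ℕ) : ℝ) ^ (-(2 : ℝ)) :=
        Real.rpow_le_rpow_of_exponent_le hp1 (by linarith)

/-- **Convergence of the prime zeta sum** for `s > 1`. -/
theorem summable_absNorm_rpow_neg {s : ℝ} (hs : 1 < s) :
    Summable fun v : HeightOneSpectrum (𝓞 K) => ((absNorm v.asIdeal : ℕ) : ℝ) ^ (-s) := by
  have hφ : Summable fun m : ℕ => (m : ℝ) ^ (-s) := Real.summable_nat_rpow.2 (by linarith)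
  refine summable_of_sum_le (c := (Module.finrank ℚ K : ℝ) * ∑' m : ℕ, (m : ℝ) ^ (-s))
    (fun v => term_nonneg K s v) fun F => ?_
  refine (sum_le_finrank_mul_sum K F _ (fun m : ℕ => (m : ℝ) ^ (-s))
    (fun m => Real.rpow_nonneg (Nat.cast_nonneg _) _)
    (fun v _ => term_le_natPrimeUnder_rpow K (by linarith) v)).trans ?_
  refine mul_le_mul_of_nonneg_left ?_ (Nat.cast_nonneg _)
  exact hφ.sum_le_tsum _ (fun m _ => Real.rpow_nonneg (Nat.cast_nonneg _) _)

/-- The constant bounding the contribution of the primes of degree `≥ 2`. -/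
def higherDegreeBound : ℝ := (Module.finrank ℚ K : ℝ) * ∑' m : ℕ, (m : ℝ) ^ (-(2 : ℝ))

theorem higherDegreeBound_nonneg : 0 ≤ higherDegreeBound K :=
  mul_nonneg (Nat.cast_nonneg _) (tsum_nonneg fun _ => Real.rpow_nonneg (Nat.cast_nonneg _) _)

/-- **The primes of residue degree `≥ 2` contribute a bounded amount**, uniformly in `s ≥ 1`. -/
theorem sum_not_isDegreeOne_le {s : ℝ} (hs : 1 ≤ s) (F : Finset (HeightOneSpectrum (𝓞 K)))
    (hF : ∀ v ∈ F, ¬ IsDegreeOne K v) :
    ∑ v ∈ F, ((absNorm v.asIdeal : ℕ) : ℝ) ^ (-s) ≤ higherDegreeBound K := by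
  have hφ : Summable fun m : ℕ => (m : ℝ) ^ (-(2 : ℝ)) :=
    Real.summable_nat_rpow.2 (by norm_num)
  refine (sum_le_finrank_mul_sum K F _ (fun m : ℕ => (m : ℝ) ^ (-(2 : ℝ)))
    (fun m => Real.rpow_nonneg (Nat.cast_nonneg _) _)
    (fun v hv => term_le_natPrimeUnder_rpow_neg_two K hs (hF v hv))).trans ?_
  refine mul_le_mul_of_nonneg_left ?_ (Nat.cast_nonneg _)
  exact hφ.sum_le_tsum _ (fun m _ => Real.rpow_nonneg (Nat.cast_nonneg _) _)

theorem summable_indicator {s : ℝ} (hs : 1 < s) (A : Set (HeightOneSpectrum (𝓞 K))) :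
    Summable (A.indicator fun v : HeightOneSpectrum (𝓞 K) =>
      ((absNorm v.asIdeal : ℕ) : ℝ) ^ (-s)) :=
  (summable_absNorm_rpow_neg K hs).indicator A

theorem tsum_indicator_nonneg (s : ℝ) (A : Set (HeightOneSpectrum (𝓞 K))) :
    0 ≤ ∑' v, A.indicator (fun v : HeightOneSpectrum (𝓞 K) =>
      ((absNorm v.asIdeal : ℕ) : ℝ) ^ (-s)) v :=
  tsum_nonneg fun v => Set.indicator_nonneg (fun v _ => term_nonneg K s v) v

/-- **Node Z2, core**: `∑_{v not of degree one} N(v)^{-s} ≤ [K : ℚ] · ∑_m m^{-2}` for `s > 1`. -/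
theorem tsum_indicator_not_isDegreeOne_le {s : ℝ} (hs : 1 < s) :
    ∑' v, {v : HeightOneSpectrum (𝓞 K) | ¬ IsDegreeOne K v}.indicator
      (fun v => ((absNorm v.asIdeal : ℕ) : ℝ) ^ (-s)) v ≤ higherDegreeBound K := by
  classical
  refine (summable_indicator K hs _).tsum_le_of_sum_le fun F => ?_
  rw [Finset.sum_indicator_eq_sum_filter]
  refine sum_not_isDegreeOne_le K hs.le _ fun v hv => ?_
  exact (Finset.mem_filter.1 hv).2

/-- A finite set of primes contributes at most its cardinality. -/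
theorem tsum_indicator_finset_le {s : ℝ} (hs : 1 < s) (T : Finset (HeightOneSpectrum (𝓞 K)))
    (A : Set (HeightOneSpectrum (𝓞 K))) (hA : A ⊆ (T : Set (HeightOneSpectrum (𝓞 K)))) :
    ∑' v, A.indicator (fun v : HeightOneSpectrum (𝓞 K) =>
      ((absNorm v.asIdeal : ℕ) : ℝ) ^ (-s)) v ≤ T.card := by
  classical
  refine (summable_indicator K hs _).tsum_le_of_sum_le fun F => ?_
  rw [Finset.sum_indicator_eq_sum_filter]
  calc ∑ v ∈ F.filter (· ∈ A), ((absNorm v.asIdeal : ℕ) : ℝ) ^ (-s)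
      ≤ ∑ _v ∈ F.filter (· ∈ A), (1 : ℝ) :=
        Finset.sum_le_sum fun v _ => term_le_one K (by linarith) v
    _ = ((F.filter (· ∈ A)).card : ℝ) := by rw [Finset.sum_const, nsmul_eq_mul, mul_one]
    _ ≤ (T.card : ℝ) := by
        have : F.filter (· ∈ A) ⊆ T := fun v hv =>
          Finset.mem_coe.1 (hA (Finset.mem_filter.1 hv).2)
        exact_mod_cast Finset.card_le_card this

/-- **Node Z2**: if the prime zeta sum of `K` is `log (1/(s-1)) + O(1)` on `(1,2]` (node Z1), so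
is the sum over the degree-one primes outside any finite set `T`. -/
theorem exists_abs_degreeOne_sub_log_le
    (hZ1 : ∃ C : ℝ, ∀ s : ℝ, 1 < s → s ≤ 2 →
      |(∑' v : HeightOneSpectrum (𝓞 K), ((absNorm v.asIdeal : ℕ) : ℝ) ^ (-s)) -
        Real.log (1 / (s - 1))| ≤ C)
    (T : Finset (HeightOneSpectrum (𝓞 K))) :
    ∃ C : ℝ, ∀ s : ℝ, 1 < s → s ≤ 2 →
      |(∑' v, ({v : HeightOneSpectrum (𝓞 K) | IsDegreeOne K v} \ (T : Set _)).indicator
        (fun v => ((absNorm v.asIdeal : ℕ) : ℝ) ^ (-s)) v) - Real.log (1 / (s - 1))| ≤ C := by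
  classical
  obtain ⟨C, hC⟩ := hZ1
  refine ⟨C + higherDegreeBound K + T.card, fun s hs hs2 => ?_⟩
  set f : HeightOneSpectrum (𝓞 K) → ℝ := fun v => ((absNorm v.asIdeal : ℕ) : ℝ) ^ (-s) with hf
  set D : Set (HeightOneSpectrum (𝓞 K)) := {v | IsDegreeOne K v} with hD
  have hsplit : ∀ v, f v = (D \ (T : Set _)).indicator f v +
      ({v | ¬ IsDegreeOne K v} : Set _).indicator f v + (D ∩ (T : Set _)).indicator f v := by
    intro v
    by_cases h1 : IsDegreeOne K v
    · by_cases h2 : v ∈ (T : Set (HeightOneSpectrum (𝓞 K)))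
      · have a1 : v ∉ D \ (T : Set _) := fun h => h.2 h2
        have a2 : v ∉ ({v | ¬ IsDegreeOne K v} : Set _) := fun h => h h1
        have a3 : v ∈ D ∩ (T : Set _) := ⟨h1, h2⟩
        rw [Set.indicator_of_notMem a1, Set.indicator_of_notMem a2, Set.indicator_of_mem a3]
        ring
      · have a1 : v ∈ D \ (T : Set _) := ⟨h1, h2⟩
        have a2 : v ∉ ({v | ¬ IsDegreeOne K v} : Set _) := fun h => h h1
        have a3 : v ∉ D ∩ (T : Set _) := fun h => h2 h.2
        rw [Set.indicator_of_mem a1, Set.indicator_of_notMem a2, Set.indicator_of_notMem a3]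
        ring
    · have a1 : v ∉ D \ (T : Set _) := fun h => h1 h.1
      have a2 : v ∈ ({v | ¬ IsDegreeOne K v} : Set _) := h1
      have a3 : v ∉ D ∩ (T : Set _) := fun h => h1 h.1
      rw [Set.indicator_of_notMem a1, Set.indicator_of_mem a2, Set.indicator_of_notMem a3]
      ring
  have s1 := summable_indicator K hs (D \ (T : Set _))
  have s2 := summable_indicator K hs ({v | ¬ IsDegreeOne K v} : Set _)
  have s3 := summable_indicator K hs (D ∩ (T : Set _))
  have htot : ∑' v, f v = (∑' v, (D \ (T : Set _)).indicator f v) +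
      (∑' v, ({v | ¬ IsDegreeOne K v} : Set _).indicator f v) +
      ∑' v, (D ∩ (T : Set _)).indicator f v := by
    rw [← s1.tsum_add s2, ← (s1.add s2).tsum_add s3]
    exact tsum_congr hsplit
  have b2 := tsum_indicator_not_isDegreeOne_le K hs
  have n2 := tsum_indicator_nonneg K s ({v | ¬ IsDegreeOne K v} : Set _)
  have b3 := tsum_indicator_finset_le K hs T (D ∩ (T : Set _)) Set.inter_subset_right
  have n3 := tsum_indicator_nonneg K s (D ∩ (T : Set _))
  have h0 := hC s hs hs2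
  rw [abs_le] at h0 ⊢
  have hB := higherDegreeBound_nonneg K
  have hT : (0 : ℝ) ≤ T.card := Nat.cast_nonneg _
  constructor
  · linarith [h0.1, htot]
  · linarith [h0.2, htot]

end DegOne

end Fermat.Agent.Cheb
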