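import Fermat.Agent.Cheb.ChebGenMain
import Fermat.Agent.Cheb.FrobCompare

/-!
# Agreement on Frobenius lifts implies agreement everywhere: unconditional forms

The consumers of `Cheb/FrobCompare.lean` with the hypothesis `ChebGen` discharged by
`Fermat.Agent.Cheb.chebGen`.
-/

set_option autoImplicit false

namespace Fermat.Agent.Cheb

local notation "Qb" => AlgebraicClosure ℚ
local notation "GQ" => (AlgebraicClosure ℚ ≃ₐ[ℚ] AlgebraicClosure ℚ)

/-- Every `σ ∈ G_ℚ` agrees on a given finite extension `L` of `ℚ` with a power of a Frobenius lift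
at some prime `q` outside a given finite set `T`. -/
theorem exists_frobenius_pow_eq_on (L : IntermediateField ℚ Qb) [FiniteDimensional ℚ L] (σ : GQ)
    (T : Finset ℕ) :
    ∃ q : ℕ, q.Prime ∧ q ∉ T ∧ ∃ (P : ValuationSubring Qb) (φ : GQ) (k : ℕ),
      P.LiesOverPrime q ∧ P.IsFrobeniusAt φ q ∧ ∀ x ∈ L, σ x = (φ ^ k) x :=
  chebGen L inferInstance σ T

/-- Two residual representations whose characteristic polynomials agree on all Frobenius lifts at
the primes outside a finite set have the same characteristic polynomial everywhere. -/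
theorem residual_charpoly_eq_of_frobenius_main {k : Type} [Field k] (ρ₁ ρ₂ : ResidualGaloisRep k)
    (T : Finset ℕ)
    (h : ∀ q : ℕ, q.Prime → q ∉ T → ∀ P : ValuationSubring Qb, P.LiesOverPrime q →
      ∀ φ : GQ, P.IsFrobeniusAt φ q →
        LinearMap.charpoly (ρ₁.ρ φ) = LinearMap.charpoly (ρ₂.ρ φ)) (σ : GQ) :
    LinearMap.charpoly (ρ₁.ρ σ) = LinearMap.charpoly (ρ₂.ρ σ) :=
  residual_charpoly_eq_of_frobenius chebGen ρ₁ ρ₂ T h σ

/-- The same for adic representations over a local ring with `⋂ 𝔪ⁿ = 0`. -/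
theorem adic_charpoly_eq_of_frobenius_main {A : Type} [CommRing A] [IsLocalRing A]
    (hA : ⨅ n : ℕ, IsLocalRing.maximalIdeal A ^ n = ⊥) (ρ₁ ρ₂ : GaloisRepAdic A) (T : Finset ℕ)
    (h : ∀ q : ℕ, q.Prime → q ∉ T → ∀ P : ValuationSubring Qb, P.LiesOverPrime q →
      ∀ φ : GQ, P.IsFrobeniusAt φ q →
        LinearMap.charpoly (ρ₁.ρ φ) = LinearMap.charpoly (ρ₂.ρ φ)) (σ : GQ) :
    LinearMap.charpoly (ρ₁.ρ σ) = LinearMap.charpoly (ρ₂.ρ σ) :=
  adic_charpoly_eq_of_frobenius chebGen hA ρ₁ ρ₂ T h σ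

/-- The Noetherian case. -/
theorem adic_charpoly_eq_of_frobenius_of_noetherian_main {A : Type} [CommRing A] [IsLocalRing A]
    [IsNoetherianRing A] (ρ₁ ρ₂ : GaloisRepAdic A) (T : Finset ℕ)
    (h : ∀ q : ℕ, q.Prime → q ∉ T → ∀ P : ValuationSubring Qb, P.LiesOverPrime q →
      ∀ φ : GQ, P.IsFrobeniusAt φ q →
        LinearMap.charpoly (ρ₁.ρ φ) = LinearMap.charpoly (ρ₂.ρ φ)) (σ : GQ) :
    LinearMap.charpoly (ρ₁.ρ σ) = LinearMap.charpoly (ρ₂.ρ σ) :=
  adic_charpoly_eq_of_frobenius_of_noetherian chebGen ρ₁ ρ₂ T h σ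

end Fermat.Agent.Cheb
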