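import Fermat.Agent.Cheb.PrimeSets

/-!
# Chebotarev track, node ZR: only finitely many primes ramify

`K ⊆ M` number fields (as types, with `Algebra K M`).

* `dvd_differentIdeal_of_not_isUnramifiedAt` : a ramified prime divides the relative different;
* `finite_setOf_not_isUnramifiedAt`, `finite_setOf_ramificationIdx_ne_one` : finitely many primes
  of `M` are ramified over `K`;
* `finite_setOf_exists_ramificationIdx_ne_one` : finitely many primes of `K` ramify in `M`;
* `finite_setOf_exists_inertia_ne_bot` (Galois case): for all but finitely many primes `v` of `K`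
  all primes of `M` above `v` have trivial inertia group;
* `finite_setOf_not_unramIn` : `{v | ¬ UnramIn K L v}.Finite` (the hypothesis `hF` of
  `hasLogDensity_genSet_of`), `finite_degreeOne_diff_goodSet`, `finite_diff_goodSet`;
* `finite_setOf_natCast_mem`, `finite_setOf_natPrimeUnder_mem` : finitely many primes of `K` lie
  over a given finite set of rational primes.
-/

set_option autoImplicit false

open NumberField IsDedekindDomain

namespace Fermat.Agent.Cheb.Ram

attribute [local instance] FractionRing.liftAlgebra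

section General

variable (K M : Type*) [Field K] [NumberField K] [Field M] [NumberField M] [Algebra K M]

/-- A prime of `𝓞 M` which is ramified over `𝓞 K` divides the relative different. -/
theorem dvd_differentIdeal_of_not_isUnramifiedAt (Q : Ideal (𝓞 M)) [Q.IsPrime]
    (h : ¬ Algebra.IsUnramifiedAt (𝓞 K) Q) : Q ∣ differentIdeal (𝓞 K) (𝓞 M) := by
  by_contra hdvd
  exact h (not_dvd_differentIdeal_iff.mp hdvd)

/-- Only finitely many primes of `𝓞 M` divide the relative different. -/
theorem finite_setOf_dvd_differentIdeal :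
    {Q : HeightOneSpectrum (𝓞 M) | Q.asIdeal ∣ differentIdeal (𝓞 K) (𝓞 M)}.Finite :=
  Ideal.finite_factors differentIdeal_ne_bot

/-- Only finitely many primes of `𝓞 M` are ramified over `𝓞 K`. -/
theorem finite_setOf_not_isUnramifiedAt :
    {Q : HeightOneSpectrum (𝓞 M) | ¬ Algebra.IsUnramifiedAt (𝓞 K) Q.asIdeal}.Finite :=
  (finite_setOf_dvd_differentIdeal K M).subset fun Q hQ =>
    dvd_differentIdeal_of_not_isUnramifiedAt K M Q.asIdeal hQ

/-- Only finitely many primes of `𝓞 M` have ramification index `≠ 1` over `𝓞 K`. -/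
theorem finite_setOf_ramificationIdx_ne_one :
    {Q : HeightOneSpectrum (𝓞 M) | Q.asIdeal.ramificationIdx (𝓞 K) ≠ 1}.Finite :=
  (finite_setOf_not_isUnramifiedAt K M).subset fun _ hQ h =>
    hQ (Ideal.ramificationIdx_eq_one_iff.mpr h)

/-- A prime of `𝓞 M` over a nonzero prime of `𝓞 K`, as a height-one prime. -/
def primeAbove (v : HeightOneSpectrum (𝓞 K)) (Q : Ideal (𝓞 M)) [hQ : Q.IsPrime]
    [Q.LiesOver v.asIdeal] : HeightOneSpectrum (𝓞 M) :=
  ⟨Q, hQ, Ideal.ne_bot_of_liesOver_of_ne_bot v.ne_bot Q⟩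

omit [NumberField K] [NumberField M] in
/-- Two height-one primes of `𝓞 K` under the same prime of `𝓞 M` are equal. -/
theorem eq_of_liesOver {v v' : HeightOneSpectrum (𝓞 K)} (Q : Ideal (𝓞 M))
    (h : Q.LiesOver v.asIdeal) (h' : Q.LiesOver v'.asIdeal) : v = v' :=
  HeightOneSpectrum.ext ((Q.over_def v.asIdeal).trans (Q.over_def v'.asIdeal).symm)

omit [NumberField K] [NumberField M] in
/-- If the primes `Q` of `𝓞 M` with a property `C Q` are finitely many, so are the primes of `𝓞 K`
lying under such a `Q`. -/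
theorem finite_setOf_exists_liesOver {C : Ideal (𝓞 M) → Prop}
    (hC : {Q : HeightOneSpectrum (𝓞 M) | C Q.asIdeal}.Finite) :
    {v : HeightOneSpectrum (𝓞 K) | ∃ Q : Ideal (𝓞 M), Q.IsPrime ∧ Q.LiesOver v.asIdeal ∧ C Q}.Finite := by
  have hsub : {v : HeightOneSpectrum (𝓞 K) |
        ∃ Q : Ideal (𝓞 M), Q.IsPrime ∧ Q.LiesOver v.asIdeal ∧ C Q} ⊆
      ⋃ Q ∈ {Q : HeightOneSpectrum (𝓞 M) | C Q.asIdeal},
        {v : HeightOneSpectrum (𝓞 K) | Q.asIdeal.LiesOver v.asIdeal} := by
    rintro v ⟨Q, hQ, hQv, hCQ⟩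
    simp only [Set.mem_iUnion]
    exact ⟨primeAbove K M v Q, hCQ, hQv⟩
  refine (hC.biUnion fun Q _ => ?_).subset hsub
  exact Set.Subsingleton.finite fun v hv v' hv' => eq_of_liesOver K M Q.asIdeal hv hv'

/-- Only finitely many primes of `𝓞 K` ramify in `𝓞 M`. -/
theorem finite_setOf_exists_ramificationIdx_ne_one :
    {v : HeightOneSpectrum (𝓞 K) | ∃ Q : Ideal (𝓞 M), Q.IsPrime ∧ Q.LiesOver v.asIdeal ∧
      Q.ramificationIdx (𝓞 K) ≠ 1}.Finite :=
  finite_setOf_exists_liesOver K M (finite_setOf_ramificationIdx_ne_one K M)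

/-- Only finitely many primes of `𝓞 K` ramify in `𝓞 M` (`Algebra.IsUnramifiedAt` form). -/
theorem finite_setOf_exists_not_isUnramifiedAt :
    {v : HeightOneSpectrum (𝓞 K) | ∃ Q : HeightOneSpectrum (𝓞 M), Q.asIdeal.LiesOver v.asIdeal ∧
      ¬ Algebra.IsUnramifiedAt (𝓞 K) Q.asIdeal}.Finite := by
  refine (finite_setOf_exists_ramificationIdx_ne_one K M).subset ?_
  rintro v ⟨Q, hQv, hQ⟩
  exact ⟨Q.asIdeal, Q.isPrime, hQv, fun h => hQ (Ideal.ramificationIdx_eq_one_iff.mp h)⟩

end General

section Galois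

variable (K M : Type*) [Field K] [NumberField K] [Field M] [NumberField M] [Algebra K M]
  [IsGalois K M]

/-- In a Galois extension the inertia group has as many elements as the ramification index. -/
theorem card_inertia_eq_ramificationIdx (p : Ideal (𝓞 K)) [p.IsPrime] (Q : Ideal (𝓞 M))
    [Q.IsPrime] [Q.LiesOver p] :
    Nat.card (Q.inertia Gal(M/K)) = Q.ramificationIdx (𝓞 K) := by
  rw [Ideal.card_inertia_eq_ramificationIdxIn p Q,
    Ideal.ramificationIdxIn_eq_ramificationIdx p Q Gal(M/K)]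

/-- The inertia group is trivial iff the ramification index is one. -/
theorem inertia_eq_bot_iff (p : Ideal (𝓞 K)) [p.IsPrime] (Q : Ideal (𝓞 M))
    [Q.IsPrime] [Q.LiesOver p] :
    Q.inertia Gal(M/K) = ⊥ ↔ Q.ramificationIdx (𝓞 K) = 1 := by
  rw [← card_inertia_eq_ramificationIdx K M p Q, Subgroup.card_eq_one]

/-- The inertia group is trivial iff the prime is unramified. -/
theorem inertia_eq_bot_iff_isUnramifiedAt (p : Ideal (𝓞 K)) [p.IsPrime] (Q : Ideal (𝓞 M))
    [Q.IsPrime] [Q.LiesOver p] :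
    Q.inertia Gal(M/K) = ⊥ ↔ Algebra.IsUnramifiedAt (𝓞 K) Q := by
  rw [inertia_eq_bot_iff K M p Q, Ideal.ramificationIdx_eq_one_iff]

/-- **Galois case**: for all but finitely many primes `v` of `𝓞 K`, all primes of `𝓞 M` above `v`
have trivial inertia group. -/
theorem finite_setOf_exists_inertia_ne_bot :
    {v : HeightOneSpectrum (𝓞 K) | ∃ Q : Ideal (𝓞 M), Q.IsPrime ∧ Q.LiesOver v.asIdeal ∧
      Q.inertia Gal(M/K) ≠ ⊥}.Finite := by
  refine (finite_setOf_exists_ramificationIdx_ne_one K M).subset ?_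
  rintro v ⟨Q, hQ, hQv, hI⟩
  exact ⟨Q, hQ, hQv, fun h => hI ((inertia_eq_bot_iff K M v.asIdeal Q).mpr h)⟩

/-- **Galois case**, positive form: outside a finite set of primes of `𝓞 K` all inertia groups are
trivial (this is `Fermat.Agent.S14.FrobTower.IsUnramifiedAbove K M v.asIdeal`, unfolded). -/
theorem exists_finset_forall_inertia_eq_bot :
    ∃ T : Finset (HeightOneSpectrum (𝓞 K)), ∀ v : HeightOneSpectrum (𝓞 K), v ∉ T →
      ∀ Q : Ideal (𝓞 M), Q.IsPrime → Q.LiesOver v.asIdeal → Q.inertia Gal(M/K) = ⊥ := by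
  refine ⟨(finite_setOf_exists_inertia_ne_bot K M).toFinset, fun v hv Q hQ hQv => ?_⟩
  by_contra h
  exact hv ((Set.Finite.mem_toFinset _).mpr ⟨Q, hQ, hQv, h⟩)

/-- **Node (F)**: all but finitely many primes of `K` are unramified in the Galois extension `M`
(`UnramIn` of `Cheb/PrimeSets.lean`). -/
theorem finite_setOf_not_unramIn : {v : HeightOneSpectrum (𝓞 K) | ¬ UnramIn K M v}.Finite := by
  refine (finite_setOf_exists_inertia_ne_bot K M).subset ?_
  intro v hv
  simp only [Set.mem_ofPred_eq, UnramIn] at hv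
  push Not at hv
  obtain ⟨Q, hQ, hQv, hI⟩ := hv
  exact ⟨Q, hQ, hQv, hI⟩

/-- All but finitely many degree-one primes of `K` are good for `M`. -/
theorem finite_degreeOne_diff_goodSet :
    ({v : HeightOneSpectrum (𝓞 K) | DegOne.IsDegreeOne K v} \ goodSet K M).Finite :=
  (finite_setOf_not_unramIn K M).subset fun _ hv hu => hv.2 ⟨hv.1, hu⟩

/-- A set of degree-one primes of `K` has only finitely many elements outside `goodSet K M`. -/
theorem finite_diff_goodSet {S : Set (HeightOneSpectrum (𝓞 K))}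
    (hS : S ⊆ {v | DegOne.IsDegreeOne K v}) : (S \ goodSet K M).Finite :=
  (finite_degreeOne_diff_goodSet K M).subset fun _ hv => ⟨hS hv.1, hv.2⟩

end Galois

section Rational

variable (K : Type*) [Field K] [NumberField K]

/-- Only finitely many primes of `𝓞 K` contain a given nonzero natural number. -/
theorem finite_setOf_natCast_mem {n : ℕ} (hn : n ≠ 0) :
    {v : HeightOneSpectrum (𝓞 K) | ((n : ℕ) : 𝓞 K) ∈ v.asIdeal}.Finite := by
  have h0 : Ideal.span {((n : ℕ) : 𝓞 K)} ≠ ⊥ := by
    rw [Ne, Ideal.span_singleton_eq_bot]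
    exact_mod_cast hn
  refine (Ideal.finite_factors h0).subset fun v hv => ?_
  rw [Set.mem_ofPred_eq, Ideal.dvd_iff_le, Ideal.span_singleton_le_iff_mem]
  exact hv

/-- Only finitely many primes of `𝓞 K` lie over a rational prime in a given finite set. -/
theorem finite_setOf_natPrimeUnder_mem (T : Finset ℕ) :
    {v : HeightOneSpectrum (𝓞 K) | DegOne.natPrimeUnder K v ∈ T}.Finite := by
  have hsub : {v : HeightOneSpectrum (𝓞 K) | DegOne.natPrimeUnder K v ∈ T} ⊆
      ⋃ q ∈ {q : ℕ | q ∈ T ∧ q ≠ 0}, {v : HeightOneSpectrum (𝓞 K) | ((q : ℕ) : 𝓞 K) ∈ v.asIdeal} := by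
    intro v hv
    simp only [Set.mem_iUnion]
    exact ⟨DegOne.natPrimeUnder K v, ⟨hv, (DegOne.natPrimeUnder_prime K v).ne_zero⟩,
      DegOne.natCast_natPrimeUnder_mem K v⟩
  refine (Set.Finite.biUnion ?_ fun q hq => finite_setOf_natCast_mem K hq.2).subset hsub
  exact T.finite_toSet.subset fun q hq => hq.1

end Rational

end Fermat.Agent.Cheb.Ram
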