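import Fermat.Agent.Cheb.PrimeWeight
import Fermat.Agent.Cheb.SplitFibre

/-!
# Chebotarev programme, node Z3: the density of the primes that split completely

For a Galois extension `M/K` of number fields (Type-level), the set `splSet K M` of primes of
`K` of absolute degree one which split completely in `M` has logarithmic density `1/[M:K]`,
unconditionally:

* `hasLogDensity_splSet K M : HasLogDensity (primeTerm K) (splSet K M) (1 / [M:K])`.

Proof: the degree-one primes of `M` which are unramified over `K` have density `1` (node Z2 for
`M`, minus the finitely many ramified primes), they all lie over primes in `splSet K M`, with the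
same norm, and each prime in `splSet K M` has exactly `[M:K]` primes above it (node Z3a).

* `hasLogDensity_splSet_intermediate` : the form consumed by node Z4 (`hasLogDensity_genSet_of`):
  for `L/K` abelian, every intermediate field `E` has `splSet K E` of density `1/[E:K]`.
-/

set_option autoImplicit false
set_option linter.unusedSectionVars false

open NumberField IsDedekindDomain

namespace Fermat.Agent.Cheb

open Fermat.Agent.Cheb.Dens Fermat.Agent.Cheb.DegOne

section Basic

variable (K M : Type*) [Field K] [NumberField K] [Field M] [NumberField M] [Algebra K M]

theorem mem_splSet_iff_isSplit (v : HeightOneSpectrum (𝓞 K)) :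
    v ∈ splSet K M ↔ IsSplit K M v := Iff.rfl

theorem splSet_eq_setOf_isSplit :
    splSet K M = {v : HeightOneSpectrum (𝓞 K) | IsSplit K M v} := rfl

variable [IsGalois K M]

/-- The sum over the degree-one primes of `M` unramified over `K` is `[M:K]` times the sum over
the split primes of `K`. -/
theorem setSum_degreeOne_diff_ramified (s : ℝ) :
    setSum (primeTerm M)
        ({Q : HeightOneSpectrum (𝓞 M) | IsDegreeOne M Q} \
          ((finite_ramified_above K M).toFinset : Set (HeightOneSpectrum (𝓞 M)))) s =
      (Module.finrank K M : ℝ) * setSum (primeTerm K) (splSet K M) s := by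
  rw [Set.Finite.coe_toFinset]
  exact tsum_indicator_degOneUnram_eq K M (fun n : ℕ => (n : ℝ) ^ (-s))

/-- **Node Z3**: for `M/K` Galois, the primes of `K` of degree one that split completely in `M`
have logarithmic density `1/[M:K]`. -/
theorem hasLogDensity_splSet :
    HasLogDensity (primeTerm K) (splSet K M) (1 / (Module.finrank K M : ℝ)) := by
  obtain ⟨C, hC⟩ := hasLogDensity_degreeOne_diff M (finite_ramified_above K M).toFinset
  have hm : (0 : ℝ) < (Module.finrank K M : ℝ) := by exact_mod_cast Module.finrank_pos
  refine ⟨C / (Module.finrank K M : ℝ), fun s h1 h2 => ?_⟩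
  have h := hC s h1 h2
  rw [setSum_degreeOne_diff_ramified K M s, one_mul] at h
  have e : setSum (primeTerm K) (splSet K M) s -
      1 / (Module.finrank K M : ℝ) * Real.log (1 / (s - 1)) =
      ((Module.finrank K M : ℝ) * setSum (primeTerm K) (splSet K M) s -
        Real.log (1 / (s - 1))) / (Module.finrank K M : ℝ) := by
    field_simp
  rw [e, abs_div, abs_of_pos hm]
  exact div_le_div_of_nonneg_right h hm.le

/-- The split primes are infinite in number; indeed they avoid any finite set. -/
theorem exists_mem_splSet_notMem {T : Set (HeightOneSpectrum (𝓞 K))} (hT : T.Finite) :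
    ∃ v, v ∈ splSet K M ∧ v ∉ T := by
  have hpos : (0 : ℝ) < 1 / (Module.finrank K M : ℝ) := by
    have : (0 : ℝ) < (Module.finrank K M : ℝ) := by exact_mod_cast Module.finrank_pos
    positivity
  exact (hasLogDensity_splSet K M).exists_notMem (isWeight_primeTerm K) hpos hT

end Basic

section Intermediate

variable (K L : Type*) [Field K] [NumberField K] [Field L] [NumberField L] [Algebra K L]

/-- The form of node Z3 consumed by node Z4: every intermediate field `E` of `L/K` which is
Galois over `K` has `splSet K E` of logarithmic density `1/[E:K]`. -/
theorem hasLogDensity_splSet_of_isGalois (E : IntermediateField K L) [IsGalois K E] :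
    HasLogDensity (primeTerm K) (splSet K E) (1 / (Module.finrank K E : ℝ)) :=
  hasLogDensity_splSet K E

/-- For `L/K` abelian, all intermediate fields qualify. -/
theorem hasLogDensity_splSet_intermediate [IsAbelianGalois K L] (E : IntermediateField K L) :
    HasLogDensity (primeTerm K) (splSet K E) (1 / (Module.finrank K E : ℝ)) :=
  hasLogDensity_splSet K E

open scoped IsMulCommutative in
/-- For `L/K` cyclic, all intermediate fields qualify: exactly the hypothesis `hZ3` of
`hasLogDensity_genSet_of`. -/
theorem hasLogDensity_splSet_of_isCyclic [IsGalois K L] [IsCyclic Gal(L/K)]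
    (E : IntermediateField K L) :
    HasLogDensity (primeTerm K) (splSet K E) (1 / (Module.finrank K E : ℝ)) := by
  have : IsAbelianGalois K L := { }
  exact hasLogDensity_splSet K E

end Intermediate


end Fermat.Agent.Cheb
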