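import Mathlib

/-!
# Chebotarev (generator form), node Z4b: splitting in a subfield and the Frobenius element

`K ⊆ F ⊆ L` number fields, `L/K` Galois with group `G = Gal(L/K)`, `Q` a prime of `𝓞 L`, unramified
over `K` (trivial inertia group), `σ ∈ G` an arithmetic Frobenius at `Q` (Mathlib's
`IsArithFrobAt (𝓞 K) σ Q`).  Then

  `σ` fixes `F` pointwise  ⇔  the prime `Q ∩ 𝓞 F` has residue degree one over `Q ∩ 𝓞 K`.
-/

set_option autoImplicit false
set_option linter.unusedSectionVars false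
set_option linter.style.haveILetI false

open NumberField

namespace Fermat.Agent.Cheb

section Fixer

variable (K F L : Type*) [Field K] [Field F] [Field L] [Algebra F L] [Algebra K L]

/-- The subgroup `Gal(L/F)` of `Gal(L/K)`: the automorphisms fixing the image of `F` pointwise. -/
def fixer : Subgroup (L ≃ₐ[K] L) where
  carrier := {σ | ∀ x : F, σ (algebraMap F L x) = algebraMap F L x}
  one_mem' := fun _ => rfl
  mul_mem' := fun {a b} ha hb x => by
    rw [AlgEquiv.mul_apply, hb x, ha x]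
  inv_mem' := fun {a} ha x => by
    have h := ha x
    calc a⁻¹ (algebraMap F L x) = a⁻¹ (a (algebraMap F L x)) := by rw [h]
      _ = algebraMap F L x := a.symm_apply_apply _

variable {K F L}

theorem mem_fixer_iff {σ : L ≃ₐ[K] L} :
    σ ∈ fixer K F L ↔ ∀ x : F, σ (algebraMap F L x) = algebraMap F L x := Iff.rfl

end Fixer

section Tower

variable {K F L : Type*} [Field K] [Field F] [Field L] [NumberField K] [NumberField F]
  [NumberField L] [Algebra K F] [Algebra F L] [Algebra K L] [IsScalarTower K F L] [IsGalois K L]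

/-- The action of `Gal(L/K)` on `𝓞 L`, in coordinates. -/
theorem coe_smul_ringOfIntegers (σ : L ≃ₐ[K] L) (x : 𝓞 L) : ((σ • x : 𝓞 L) : L) = σ (x : L) := rfl

theorem finite_quotient_of_ne_bot {M : Type*} [Field M] [NumberField M] {I : Ideal (𝓞 M)}
    (hI : I ≠ ⊥) : Finite (𝓞 M ⧸ I) :=
  Ideal.finiteQuotientOfFreeOfNeBot I hI

/-- In a finite field `k` all of whose elements satisfy `y ^ q = y` (`q ≥ 2`), there are at most
`q` elements. -/
theorem card_le_of_forall_pow_eq {k : Type*} [Field k] [Finite k] {q : ℕ} (hq : 1 < q)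
    (h : ∀ y : k, y ^ q = y) : Nat.card k ≤ q := by
  classical
  have := Fintype.ofFinite k
  have hne : (Polynomial.X ^ q - Polynomial.X : Polynomial k) ≠ 0 :=
    FiniteField.X_pow_card_sub_X_ne_zero k hq
  have hsub : (Finset.univ : Finset k) ⊆
      (Polynomial.X ^ q - Polynomial.X : Polynomial k).roots.toFinset := by
    intro y _
    rw [Multiset.mem_toFinset, Polynomial.mem_roots hne]
    simp [h y]
  calc Nat.card k = (Finset.univ : Finset k).card := by
        rw [Nat.card_eq_fintype_card, Finset.card_univ]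
    _ ≤ (Polynomial.X ^ q - Polynomial.X : Polynomial k).roots.toFinset.card :=
        Finset.card_le_card hsub
    _ ≤ Multiset.card (Polynomial.X ^ q - Polynomial.X : Polynomial k).roots :=
        Multiset.toFinset_card_le _
    _ ≤ (Polynomial.X ^ q - Polynomial.X : Polynomial k).natDegree := Polynomial.card_roots' _
    _ = q := FiniteField.X_pow_card_sub_X_natDegree_eq k hq

variable (F) in
/-- If the Frobenius `σ` at `Q` fixes `F` pointwise, the prime `Q ∩ 𝓞 F` has the same residue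
field as `Q ∩ 𝓞 K`. -/
theorem card_quotient_under_eq_of_mem_fixer {Q : Ideal (𝓞 L)} [Q.IsPrime] (hQ0 : Q ≠ ⊥)
    {σ : L ≃ₐ[K] L} (hσ : IsArithFrobAt (𝓞 K) σ Q) (hfix : σ ∈ fixer K F L) :
    Nat.card (𝓞 F ⧸ Q.under (𝓞 F)) = Nat.card (𝓞 K ⧸ Q.under (𝓞 K)) := by
  have hQF0 : Q.under (𝓞 F) ≠ ⊥ := Ideal.under_ne_bot (𝓞 F) hQ0
  have hQK0 : Q.under (𝓞 K) ≠ ⊥ := Ideal.under_ne_bot (𝓞 K) hQ0
  have := finite_quotient_of_ne_bot hQF0
  have := finite_quotient_of_ne_bot hQK0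
  have hmaxF : (Q.under (𝓞 F)).IsMaximal := Ring.DimensionLEOne.maximalOfPrime hQF0 inferInstance
  have hmaxK : (Q.under (𝓞 K)).IsMaximal := Ring.DimensionLEOne.maximalOfPrime hQK0 inferInstance
  letI := Ideal.Quotient.field (Q.under (𝓞 F))
  letI := Ideal.Quotient.field (Q.under (𝓞 K))
  set q := Nat.card (𝓞 K ⧸ Q.under (𝓞 K)) with hq
  have hq1 : 1 < q := Finite.one_lt_card
  apply le_antisymm
  · apply card_le_of_forall_pow_eq hq1
    intro y
    obtain ⟨x, rfl⟩ := Ideal.Quotient.mk_surjective y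
    rw [← map_pow, Ideal.Quotient.eq, Ideal.under_def, Ideal.mem_comap, map_sub, map_pow]
    have h1 := hσ (algebraMap (𝓞 F) (𝓞 L) x)
    have h2 : MulSemiringAction.toAlgHom (𝓞 K) (𝓞 L) σ (algebraMap (𝓞 F) (𝓞 L) x) =
        algebraMap (𝓞 F) (𝓞 L) x := by
      apply Subtype.ext
      exact hfix (x : F)
    rw [h2] at h1
    have h3 := Q.neg_mem h1
    rwa [neg_sub] at h3
  · have : (Q.under (𝓞 F)).LiesOver (Q.under (𝓞 K)) := ⟨by
      rw [Ideal.under_under]⟩
    exact Nat.card_le_card_of_injective _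
      (algebraMap (𝓞 K ⧸ Q.under (𝓞 K)) (𝓞 F ⧸ Q.under (𝓞 F))).injective

variable (F) in
/-- If the prime `Q ∩ 𝓞 F` has the same residue field as `Q ∩ 𝓞 K` and `Q` is unramified over `K`
(trivial inertia group), the Frobenius at `Q` fixes `F` pointwise. -/
theorem mem_fixer_of_card_quotient_under_eq {Q : Ideal (𝓞 L)} [Q.IsPrime] (hQ0 : Q ≠ ⊥)
    (hin : Q.inertia (L ≃ₐ[K] L) = ⊥) {σ : L ≃ₐ[K] L} (hσ : IsArithFrobAt (𝓞 K) σ Q)
    (hcard : Nat.card (𝓞 F ⧸ Q.under (𝓞 F)) = Nat.card (𝓞 K ⧸ Q.under (𝓞 K))) :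
    σ ∈ fixer K F L := by
  haveI : IsGalois F L := IsGalois.tower_top_of_isGalois K F L
  have := finite_quotient_of_ne_bot hQ0
  obtain ⟨τ, hτ⟩ := IsArithFrobAt.exists_of_isInvariant (𝓞 F) (L ≃ₐ[F] L) Q
  have hτ' : IsArithFrobAt (𝓞 K) (τ.restrictScalars K) Q := by
    intro x
    have h1 := hτ x
    rw [hcard] at h1
    exact h1
  have h2 := hσ.mul_inv_mem_inertia hτ'
  rw [hin, Subgroup.mem_bot, mul_inv_eq_one] at h2
  rw [h2]
  intro x
  exact τ.commutes x

variable (F) in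
/-- **Z4b, core.** For a prime `Q` of `𝓞 L` unramified over `K` with Frobenius `σ`:
`σ ∈ Gal(L/F)` iff `Q ∩ 𝓞 F` has the same residue field as `Q ∩ 𝓞 K`. -/
theorem mem_fixer_iff_card_quotient_under_eq {Q : Ideal (𝓞 L)} [Q.IsPrime] (hQ0 : Q ≠ ⊥)
    (hin : Q.inertia (L ≃ₐ[K] L) = ⊥) {σ : L ≃ₐ[K] L} (hσ : IsArithFrobAt (𝓞 K) σ Q) :
    σ ∈ fixer K F L ↔
      Nat.card (𝓞 F ⧸ Q.under (𝓞 F)) = Nat.card (𝓞 K ⧸ Q.under (𝓞 K)) :=
  ⟨card_quotient_under_eq_of_mem_fixer F hQ0 hσ,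
    mem_fixer_of_card_quotient_under_eq F hQ0 hin hσ⟩

/-! ### Abelian extensions: all primes above `P` at once -/

section Abelian

open scoped Pointwise

variable (hcomm : ∀ a b : L ≃ₐ[K] L, a * b = b * a)

include hcomm

/-- In an abelian extension a Frobenius at `Q` is a Frobenius at every conjugate of `Q`. -/
theorem isArithFrobAt_smul_of_comm {Q : Ideal (𝓞 L)} {σ : L ≃ₐ[K] L}
    (hσ : IsArithFrobAt (𝓞 K) σ Q) (g : L ≃ₐ[K] L) : IsArithFrobAt (𝓞 K) σ (g • Q) := by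
  have h := hσ.conj g
  rwa [hcomm g σ, mul_inv_cancel_right] at h

/-- In an abelian extension the inertia groups of conjugate primes coincide. -/
theorem inertia_smul_of_comm (Q : Ideal (𝓞 L)) (g : L ≃ₐ[K] L) :
    (g • Q).inertia (L ≃ₐ[K] L) = Q.inertia (L ≃ₐ[K] L) := by
  ext τ
  constructor
  · intro h x
    have h1 : τ • g • x - g • x ∈ g • Q := h (g • x)
    rw [Ideal.mem_pointwise_smul_iff_inv_smul_mem] at h1
    have h2 : g⁻¹ • (τ • g • x - g • x) = τ • x - x := by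
      rw [smul_sub, inv_smul_smul, ← mul_smul, ← mul_smul, mul_assoc, hcomm τ g, ← mul_assoc,
        inv_mul_cancel, one_mul]
    rw [h2] at h1
    exact h1
  · intro h x
    show τ • x - x ∈ g • Q
    rw [Ideal.mem_pointwise_smul_iff_inv_smul_mem]
    have h1 : τ • g⁻¹ • x - g⁻¹ • x ∈ Q := h (g⁻¹ • x)
    have h2 : g⁻¹ • (τ • x - x) = τ • g⁻¹ • x - g⁻¹ • x := by
      rw [smul_sub, ← mul_smul, ← mul_smul, hcomm g⁻¹ τ]
    rw [h2]
    exact h1

variable (F) in
/-- **Z4b, abelian form.** `L/K` abelian, `Q` a prime of `𝓞 L` unramified over `K` with Frobenius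
`σ`.  Then `σ ∈ Gal(L/F)` iff EVERY prime of `𝓞 F` above `P = Q ∩ 𝓞 K` has the same residue field
as `P`. -/
theorem mem_fixer_iff_forall_card_quotient_eq {Q : Ideal (𝓞 L)} [Q.IsPrime] (hQ0 : Q ≠ ⊥)
    (hin : Q.inertia (L ≃ₐ[K] L) = ⊥) {σ : L ≃ₐ[K] L} (hσ : IsArithFrobAt (𝓞 K) σ Q) :
    σ ∈ fixer K F L ↔ ∀ Q' : Ideal (𝓞 F), Q'.IsPrime → Q'.under (𝓞 K) = Q.under (𝓞 K) →
      Nat.card (𝓞 F ⧸ Q') = Nat.card (𝓞 K ⧸ Q.under (𝓞 K)) := by
  constructor
  · intro hfix Q' hQ' hQ'P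
    -- a prime of `L` above `Q'`, conjugate to `Q`
    obtain ⟨Q'', -, hQ''p, hQ''⟩ := Ideal.exists_ideal_over_prime_of_isIntegral
      (S := 𝓞 L) Q' (⊥ : Ideal (𝓞 L)) (by simp)
    have hQ''F : Q''.under (𝓞 F) = Q' := hQ''
    have hQ''K : Q''.under (𝓞 K) = Q.under (𝓞 K) := by
      rw [← hQ'P, ← hQ''F, Ideal.under_under]
    obtain ⟨g, rfl⟩ := Algebra.IsInvariant.exists_smul_of_under_eq (𝓞 K) (𝓞 L) (L ≃ₐ[K] L) Q Q''
      hQ''K.symm
    have hQ''0 : g • Q ≠ ⊥ := by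
      intro h0
      apply hQ0
      have := congrArg (fun I => g⁻¹ • I) h0
      simpa using this
    have h1 := card_quotient_under_eq_of_mem_fixer F hQ''0
      (isArithFrobAt_smul_of_comm hcomm hσ g) hfix
    rw [hQ''F, hQ''K] at h1
    exact h1
  · intro h
    refine mem_fixer_of_card_quotient_under_eq F hQ0 hin hσ (h _ inferInstance ?_)
    rw [Ideal.under_under]

end Abelian

end Tower

end Fermat.Agent.Cheb
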